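/-
PT-G1 (global first inequality) — INTERFACE FILE (definitions and statements only).
Project PT = Poitou–Tate campaign for S55 (captain helper55, NOTES/S55-plan.md);
PT-G1 sub-captain: helper63; piece table: NOTES/PT-G1.md.

Part 0: the Herbrand quotient of a pair of endomorphisms `(D, N)` of an abelian group
        (`D = σ - 1`, `N = 1 + σ + ⋯ + σ^(n-1)`), on plain `ℤ`-modules.
Part 1: the Herbrand quotient of the `S`-units of a number field under an automorphism of odd
        prime order.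
Every `Stmt…` below is a `Prop`; the piece `X` is DONE when `theorem stmtX : StmtX` is landed.
-/
import Mathlib

set_option autoImplicit false

namespace Fermat.Agent.PT.G1

/-! ## Part 0: Herbrand calculus -/

section Herbrand

variable {M : Type*} [AddCommGroup M] [Module ℤ M]

/-- `|ker f / (im g ∩ ker f)|` (and `0` if this group is infinite). -/
noncomputable def hqCard (f g : Module.End ℤ M) : ℕ :=
  Nat.card (↥(LinearMap.ker f) ⧸ (LinearMap.range g).submoduleOf (LinearMap.ker f))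

/-- The Herbrand quotient `|ker D / im N| / |ker N / im D|` of the pair `(D, N)` is defined
(both groups are finite) and equals `q`. -/
def HasHQ (D N : Module.End ℤ M) (q : ℚ) : Prop :=
  hqCard D N ≠ 0 ∧ hqCard N D ≠ 0 ∧ (hqCard D N : ℚ) = q * hqCard N D

/-- `1 + σ + ⋯ + σ^(n-1)` -/
def nEnd (σ : Module.End ℤ M) (n : ℕ) : Module.End ℤ M := ∑ i ∈ Finset.range n, σ ^ i

/-- The Herbrand quotient of the cyclic module `(M, σ)`, `σ ^ n = 1`, is defined and equals `q`. -/
def HasHQc (σ : Module.End ℤ M) (n : ℕ) (q : ℚ) : Prop :=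
  σ ^ n = 1 ∧ HasHQ (σ - 1) (nEnd σ n) q

end Herbrand

/-- **HQ-hex** (hexagon): the Herbrand quotient is multiplicative in short exact sequences
`0 → A → B → C → 0`, and defined for all three as soon as it is for two of them. -/
def StmtHexagon : Prop :=
  ∀ (A B C : Type) [AddCommGroup A] [AddCommGroup B] [AddCommGroup C]
    [Module ℤ A] [Module ℤ B] [Module ℤ C]
    (DA NA : Module.End ℤ A) (DB NB : Module.End ℤ B) (DC NC : Module.End ℤ C)
    (f : A →ₗ[ℤ] B) (g : B →ₗ[ℤ] C),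
    DA * NA = 0 → NA * DA = 0 → DB * NB = 0 → NB * DB = 0 → DC * NC = 0 → NC * DC = 0 →
    Function.Injective f → Function.Surjective g → LinearMap.range f = LinearMap.ker g →
    f ∘ₗ DA = DB ∘ₗ f → f ∘ₗ NA = NB ∘ₗ f → g ∘ₗ DB = DC ∘ₗ g → g ∘ₗ NB = NC ∘ₗ g →
    ∀ qA qB qC : ℚ,
      (HasHQ DA NA qA → HasHQ DC NC qC → HasHQ DB NB (qA * qC)) ∧
      (HasHQ DA NA qA → HasHQ DB NB qB → HasHQ DC NC (qB / qA)) ∧
      (HasHQ DB NB qB → HasHQ DC NC qC → HasHQ DA NA (qB / qC))

/-- **HQ-fin**: a finite module has Herbrand quotient `1`. -/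
def StmtFinite : Prop :=
  ∀ (M : Type) [AddCommGroup M] [Module ℤ M] [Finite M] (D N : Module.End ℤ M),
    D * N = 0 → N * D = 0 → HasHQ D N 1

/-- **HQ-iso**: invariance under isomorphism. -/
def StmtIso : Prop :=
  ∀ (A B : Type) [AddCommGroup A] [AddCommGroup B] [Module ℤ A] [Module ℤ B]
    (DA NA : Module.End ℤ A)
    (DB NB : Module.End ℤ B) (e : A ≃ₗ[ℤ] B),
    e.toLinearMap ∘ₗ DA = DB ∘ₗ e.toLinearMap → e.toLinearMap ∘ₗ NA = NB ∘ₗ e.toLinearMap →
    hqCard DA NA = hqCard DB NB ∧ hqCard NA DA = hqCard NB DB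

/-- **HQ-orbit** (semi-local modules): if `M = ∏_{t ∈ T} X t` and `σ` permutes the factors through
a permutation `π` of `T` with `π ^ n = 1`, `σ ^ n = 1`, then the Herbrand quotient of `(M, σ)` is
the product over the FIXED points `t` of `π` of the Herbrand quotients of `(X t, σ|_{X t})`.
(The free orbits are induced modules and contribute `1` when `n` is prime.) -/
def StmtOrbit : Prop :=
  ∀ (p : ℕ) [Fact p.Prime] (T : Type) [Fintype T] [DecidableEq T] (X : T → Type)
    [∀ t, AddCommGroup (X t)] [∀ t, Module ℤ (X t)] (π : Equiv.Perm T) (σ : Module.End ℤ (∀ t, X t))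
    (τ : ∀ t, Module.End ℤ (X t)) (q : T → ℚ),
    π ^ p = 1 → σ ^ p = 1 →
    (∀ (t : T) (x : ∀ t, X t), x t = 0 → σ x (π t) = 0) →
    (∀ (t : T), π t = t → ∀ x : ∀ t, X t, σ x t = τ t (x t)) →
    (∀ t, π t = t → HasHQc (τ t) p (q t)) →
    HasHQc σ p (∏ t ∈ Finset.univ.filter (fun t => π t = t), q t)

/-- **HQ-rank** (rank formula): for `σ` of prime order `p` on a finitely generated abelian group
`M`, the Herbrand quotient is `p ^ e` with `(p - 1) e = p · rank (M^σ) - rank M`. -/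
def StmtRank : Prop :=
  ∀ (p : ℕ) [Fact p.Prime] (M : Type) [AddCommGroup M] [Module ℤ M] [Module.Finite ℤ M]
    (σ : Module.End ℤ M), σ ^ p = 1 →
    ∀ e : ℤ, ((p : ℤ) - 1) * e =
        (p : ℤ) * Module.finrank ℤ (LinearMap.ker (σ - 1 : Module.End ℤ M)) - Module.finrank ℤ M →
      HasHQc σ p ((p : ℚ) ^ e)

/-- **HQ-four** (corollary of HQ-hex and HQ-fin): for an exact sequence `0 → E → J → C → F → 0`
with `F` finite, `h(C) = h(J) / h(E)`. -/
def StmtFourTerm : Prop :=
  ∀ (E J C F : Type) [AddCommGroup E] [AddCommGroup J] [AddCommGroup C] [AddCommGroup F]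
    [Module ℤ E] [Module ℤ J] [Module ℤ C] [Module ℤ F] [Finite F]
    (DE NE : Module.End ℤ E) (DJ NJ : Module.End ℤ J) (DC NC : Module.End ℤ C)
    (DF NF : Module.End ℤ F)
    (f : E →ₗ[ℤ] J) (g : J →ₗ[ℤ] C) (h : C →ₗ[ℤ] F),
    DE * NE = 0 → NE * DE = 0 → DJ * NJ = 0 → NJ * DJ = 0 → DC * NC = 0 → NC * DC = 0 →
    DF * NF = 0 → NF * DF = 0 →
    Function.Injective f → LinearMap.range f = LinearMap.ker g →
    LinearMap.range g = LinearMap.ker h → Function.Surjective h →
    f ∘ₗ DE = DJ ∘ₗ f → f ∘ₗ NE = NJ ∘ₗ f → g ∘ₗ DJ = DC ∘ₗ g → g ∘ₗ NJ = NC ∘ₗ g →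
    h ∘ₗ DC = DF ∘ₗ h → h ∘ₗ NC = NF ∘ₗ h →
    ∀ qE qJ : ℚ, HasHQ DE NE qE → HasHQ DJ NJ qJ → HasHQ DC NC (qJ / qE)

/-- **HQ-bridge**: for a finite cyclic group `G = ⟨g⟩` and `A : Rep ℤ G`, the orders of Mathlib's
`H²(G, A)` and `H¹(G, A)` are the two numbers of the Herbrand quotient of `(A, ρ g)`. -/
def StmtBridge : Prop :=
  ∀ (G : Type) [CommGroup G] [Fintype G] (A : Rep.{0} ℤ G) (g : G),
    (∀ x, x ∈ Subgroup.zpowers g) →
    Nat.card (groupCohomology.H2 A) =
      @hqCard A.V _ A.hV2 (A.ρ g - 1) (@nEnd A.V _ A.hV2 (A.ρ g) (Fintype.card G)) ∧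
    Nat.card (groupCohomology.H1 A) =
      @hqCard A.V _ A.hV2 (@nEnd A.V _ A.hV2 (A.ρ g) (Fintype.card G)) (A.ρ g - 1)

/-! ## Part 1: `S`-units of a number field -/

section Units

open NumberField

/-- The `N`-units of a field `L`: the `u ∈ Lˣ` such that `N ^ k * u` and `N ^ k * u⁻¹` are integral
over `ℤ` for some `k`. For a number field these are the units of `𝓞 L [1/N]`, i.e. the `S`-units
for `S` = the set of primes of `𝓞 L` dividing `N`. -/
def nUnits (N : ℕ) (L : Type*) [Field L] : Subgroup Lˣ where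
  carrier := {u | ∃ k : ℕ, IsIntegral ℤ ((N : L) ^ k * (u : L)) ∧
    IsIntegral ℤ ((N : L) ^ k * ((u⁻¹ : Lˣ) : L))}
  mul_mem' := by
    rintro u v ⟨k, h1, h2⟩ ⟨l, h3, h4⟩
    refine ⟨k + l, ?_, ?_⟩
    · have := h1.mul h3
      rwa [show (N : L) ^ (k + l) * ((u * v : Lˣ) : L) = (N : L) ^ k * u * ((N : L) ^ l * v) by
        push_cast; ring]
    · have := h2.mul h4
      rwa [show (N : L) ^ (k + l) * (((u * v)⁻¹ : Lˣ) : L) =
        (N : L) ^ k * ((u⁻¹ : Lˣ) : L) * ((N : L) ^ l * ((v⁻¹ : Lˣ) : L)) by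
        rw [mul_inv]; push_cast; ring]
  one_mem' := ⟨0, by simpa using isIntegral_one, by simpa using isIntegral_one⟩
  inv_mem' := by
    rintro u ⟨k, h1, h2⟩
    exact ⟨k, h2, by simpa using h1⟩

/-- The action of a field automorphism on the `N`-units, as a group endomorphism. -/
def nUnitsHom (N : ℕ) {L : Type*} [Field L] (σ : L ≃+* L) : nUnits N L →* nUnits N L where
  toFun u := ⟨Units.map (σ : L →* L) (u : Lˣ), by
    obtain ⟨k, h1, h2⟩ := u.2
    refine ⟨k, ?_, ?_⟩
    · have := h1.map (σ : L →+* L).toIntAlgHom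
      simpa using this
    · have := h2.map (σ : L →+* L).toIntAlgHom
      simpa using this⟩
  map_one' := by ext; simp
  map_mul' u v := by ext; simp

/-- The action of a field automorphism on the `N`-units, as an endomorphism of the `ℤ`-module
`Additive (nUnits N L)`. -/
def nUnitsEnd (N : ℕ) {L : Type*} [Field L] (σ : L ≃+* L) :
    Module.End ℤ (Additive (nUnits N L)) :=
  (MonoidHom.toAdditive (nUnitsHom N σ)).toIntLinearMap

/-- The primes of `𝓞 L` containing `N`. -/
def primesAbove (N : ℕ) (L : Type*) [Field L] : Set (Ideal (𝓞 L)) :=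
  {P | P.IsPrime ∧ (N : 𝓞 L) ∈ P}

/-- The primes of `𝓞 L` containing `N` which are stable under the automorphism `σ`. -/
def fixedPrimesAbove (N : ℕ) {L : Type*} [Field L] (σ : L ≃+* L) : Set (Ideal (𝓞 L)) :=
  {P | P.IsPrime ∧ (N : 𝓞 L) ∈ P ∧ ∀ x ∈ P, RingOfIntegers.mapRingEquiv σ x ∈ P}

/-- **U-rank** (Dirichlet's `S`-unit theorem): the `N`-units of a number field are a finitely
generated group of rank `r₁ + r₂ - 1 + #{P ∣ N}`. -/
def StmtUnitRank : Prop :=
  ∀ (L : Type) [Field L] [NumberField L] (N : ℕ), N ≠ 0 →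
    Module.Finite ℤ (Additive (nUnits N L)) ∧
    Module.finrank ℤ (Additive (nUnits N L)) = Units.rank L + (primesAbove N L).ncard

/-- **U-fix**: for a cyclic Galois extension `L/K` of number fields with generator `σ`, the
`σ`-invariant `N`-units of `L` have the same rank as the `N`-units of `K` (they are the `N`-units
of `K`). -/
def StmtUnitFixed : Prop :=
  ∀ (K L : Type) [Field K] [Field L] [NumberField K] [NumberField L] [Algebra K L] [IsGalois K L]
    (σ : L ≃ₐ[K] L), (∀ τ : L ≃ₐ[K] L, τ ∈ Subgroup.zpowers σ) → ∀ N : ℕ, N ≠ 0 →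
    Module.finrank ℤ (LinearMap.ker (nUnitsEnd N (σ : L ≃+* L) - 1)) =
      Module.finrank ℤ (Additive (nUnits N K))

/-- **U-inf**: in a Galois extension of number fields of odd degree `p`, every infinite place
splits completely: `r_L + 1 = p (r_K + 1)` for the unit ranks. -/
def StmtInfCount : Prop :=
  ∀ (p : ℕ), Odd p → ∀ (K L : Type) [Field K] [Field L] [NumberField K] [NumberField L]
    [Algebra K L] [IsGalois K L], Module.finrank K L = p →
    Units.rank L + 1 = p * (Units.rank K + 1)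

/-- **U-cnt**: in a cyclic extension `L/K` of prime degree `p` with generator `σ`, over each prime
of `K` dividing `N` there is either one (`σ`-stable) prime of `L` or there are `p` primes (none of
them `σ`-stable): `#{P ∣ N} + (p - 1) #{P ∣ N, σ P = P} = p #{𝔭 ∣ N}`. -/
def StmtPrimeCount : Prop :=
  ∀ (p : ℕ) [Fact p.Prime] (K L : Type) [Field K] [Field L] [NumberField K] [NumberField L]
    [Algebra K L] [IsGalois K L] (σ : L ≃ₐ[K] L),
    Module.finrank K L = p → (∀ τ : L ≃ₐ[K] L, τ ∈ Subgroup.zpowers σ) → ∀ N : ℕ, N ≠ 0 →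
    (primesAbove N L).ncard + (p - 1) * (fixedPrimesAbove N (σ : L ≃+* L)).ncard =
      p * (primesAbove N K).ncard

/-- **U-main**: the Herbrand quotient of the `N`-units of a number field `L` under an
automorphism `σ` of odd prime order `p` is `p ^ (f - 1)`, `f` the number of `σ`-stable primes
of `𝓞 L` dividing `N`. -/
def StmtUnitsHQ : Prop :=
  ∀ (p : ℕ) [Fact p.Prime], p ≠ 2 → ∀ (L : Type) [Field L] [NumberField L] (σ : L ≃+* L),
    orderOf σ = p → ∀ N : ℕ, N ≠ 0 →
      HasHQc (nUnitsEnd N σ) p ((p : ℚ) ^ (((fixedPrimesAbove N σ).ncard : ℤ) - 1))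

end Units

end Fermat.Agent.PT.G1
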