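/-
PT-G1 (global first inequality) — INTERFACE FILE, part 2: the semilocal side and the final
statement, in the TENSOR MODEL  `A_q(L) = ℚ_[q] ⊗[ℚ] L`,  `J_L = ∏_{q ∈ S} A_q(L)ˣ`.
Definitions and statements only; piece table: NOTES/PT-G1.md.
-/
import Fermat.Agent.PT.G1.Plan

set_option autoImplicit false

namespace Fermat.Agent.PT.G1

open NumberField TensorProduct

/-- The endomorphism of the `ℤ`-module `Additive Rˣ` induced by a monoid endomorphism of `R`. -/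
def unitsEnd {R : Type*} [CommMonoid R] (f : R →* R) : Module.End ℤ (Additive Rˣ) :=
  (MonoidHom.toAdditive (Units.map f)).toIntLinearMap

/-- The semilocal algebra `A_q(L) = ℚ_q ⊗_ℚ L`. -/
abbrev semiAlg (q : ℕ) [Fact q.Prime] (L : Type) [Field L] [NumberField L] : Type :=
  ℚ_[q] ⊗[ℚ] L

/-- The action of `σ ∈ Aut(L)` on `A_q(L)`. -/
noncomputable def semiMap (q : ℕ) [Fact q.Prime] {L : Type} [Field L] [NumberField L]
    (σ : L ≃ₐ[ℚ] L) : semiAlg q L →ₐ[ℚ_[q]] semiAlg q L :=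
  Algebra.TensorProduct.map (AlgHom.id ℚ_[q] ℚ_[q]) σ.toAlgHom

/-- The maximal ideals of `A_q(L)` which are stable under `σ`. -/
def fixedMax (q : ℕ) [Fact q.Prime] {L : Type} [Field L] [NumberField L] (σ : L ≃ₐ[ℚ] L) :
    Set (Ideal (semiAlg q L)) :=
  {𝔪 | 𝔪.IsMaximal ∧ ∀ x ∈ 𝔪, semiMap q σ x ∈ 𝔪}

/-- **J-loc**: the Herbrand quotient of the multiplicative group of a local field `F'` under an
automorphism `τ` of prime order `p` is `p` (norm index `p` from PT-L, `H¹ = 0` by Hilbert 90). -/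
def StmtLocalHQ : Prop :=
  ∀ (q : ℕ) [Fact q.Prime] (p : ℕ) [Fact p.Prime] (F' : Type) [Field F'] [Algebra ℚ_[q] F']
    [FiniteDimensional ℚ_[q] F'] (τ : F' ≃ₐ[ℚ_[q]] F'), orderOf τ = p →
    HasHQc (unitsEnd (τ : F' →* F')) p p

/-- **J-tens**: the Herbrand quotient of `A_q(L)ˣ` under `σ` of prime order `p` is `p ^ f_T`,
`f_T` the number of `σ`-stable maximal ideals of `A_q(L)`. -/
def StmtTensorHQ : Prop :=
  ∀ (q : ℕ) [Fact q.Prime] (p : ℕ) [Fact p.Prime] (L : Type) [Field L] [NumberField L]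
    (σ : L ≃ₐ[ℚ] L), orderOf σ = p →
    HasHQc (unitsEnd (semiMap q σ : semiAlg q L →* semiAlg q L)) p
      ((p : ℚ) ^ (fixedMax q σ).ncard)

/-- **T-cnt**: the `σ`-stable maximal ideals of `ℚ_q ⊗ L` correspond to the `σ`-stable primes of
`𝓞 L` over `q`. -/
def StmtMaxSpecCount : Prop :=
  ∀ (q : ℕ) [Fact q.Prime] (L : Type) [Field L] [NumberField L] (σ : L ≃ₐ[ℚ] L),
    (fixedMax q σ).ncard = (fixedPrimesAbove q (σ : L ≃+* L)).ncard

/-- **U-split**: the `σ`-stable primes dividing `N = ∏_{q ∈ S} q` are the `σ`-stable primes over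
the `q ∈ S`. -/
def StmtPrimeSplit : Prop :=
  ∀ (L : Type) [Field L] [NumberField L] (σ : L ≃+* L) (S : Finset Nat.Primes),
    (fixedPrimesAbove (∏ q ∈ S, (q : ℕ)) σ).ncard =
      ∑ q ∈ S, (fixedPrimesAbove (q : ℕ) σ).ncard

section JL

variable (S : Finset Nat.Primes) (L : Type) [Field L] [NumberField L]

instance factPrimeOfMem (q : ↥S) : Fact (Nat.Prime ((q : Nat.Primes) : ℕ)) := ⟨(q : Nat.Primes).2⟩

/-- `J_L = ∏_{q ∈ S} (ℚ_q ⊗ L)ˣ`. -/
abbrev JL : Type := ∀ q : ↥S, (semiAlg ((q : Nat.Primes) : ℕ) L)ˣ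

variable {L}

/-- The action of `σ ∈ Aut(L)` on `J_L`. -/
noncomputable def jlHom (σ : L ≃ₐ[ℚ] L) : JL S L →* JL S L :=
  MonoidHom.pi fun q =>
    (Units.map (semiMap ((q : Nat.Primes) : ℕ) σ :
      semiAlg ((q : Nat.Primes) : ℕ) L →* semiAlg ((q : Nat.Primes) : ℕ) L)).comp
      (Pi.evalMonoidHom _ q)

/-- The action of `σ ∈ Aut(L)` on `J_L`, as an endomorphism of the `ℤ`-module `Additive J_L`. -/
noncomputable def jlEnd (σ : L ≃ₐ[ℚ] L) : Module.End ℤ (Additive (JL S L)) :=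
  (MonoidHom.toAdditive (jlHom S σ)).toIntLinearMap

variable (L)

/-- The diagonal embedding `Lˣ → J_L`, `x ↦ (1 ⊗ x)_q`. -/
noncomputable def jlDiag : Lˣ →* JL S L :=
  MonoidHom.pi fun q =>
    Units.map (Algebra.TensorProduct.includeRight :
      L →ₐ[ℚ] semiAlg ((q : Nat.Primes) : ℕ) L).toMonoidHom

/-- The diagonal embedding of the `S`-units into `J_L`, additively. -/
noncomputable def jlDiagUnits :
    Additive (nUnits (∏ q ∈ S, (q : ℕ)) L) →ₗ[ℤ] Additive (JL S L) :=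
  (MonoidHom.toAdditive ((jlDiag S L).comp (nUnits (∏ q ∈ S, (q : ℕ)) L).subtype)).toIntLinearMap

end JL

/-- **J-main**: `h(⟨σ⟩, J_L) = p ^ f`, `f` the number of `σ`-stable primes of `𝓞 L` over `S`. -/
def StmtJMain : Prop :=
  ∀ (p : ℕ) [Fact p.Prime] (L : Type) [Field L] [NumberField L] (σ : L ≃ₐ[ℚ] L),
    orderOf σ = p → ∀ S : Finset Nat.Primes,
    HasHQc (jlEnd S σ) p
      ((p : ℚ) ^ (fixedPrimesAbove (∏ q ∈ S, (q : ℕ)) (σ : L ≃+* L)).ncard)

/-- **C-main** (THE DELIVERABLE OF PT-G1): for `σ` of odd prime order `p` on a number field `L`,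
`S ≠ ∅`, and ANY `⟨σ⟩`-module `C` sitting in an exact sequence
`0 → E_{L,S} → J_L → C → F → 0` with `F` finite (for the `S`-idèle class module `C_S(L)`,
`F = Cl(𝓞_L[1/N])`), the Herbrand quotient of `C` is `p`. -/
def StmtClassHQ : Prop :=
  ∀ (p : ℕ) [Fact p.Prime], p ≠ 2 → ∀ (L : Type) [Field L] [NumberField L] (σ : L ≃ₐ[ℚ] L),
    orderOf σ = p → ∀ S : Finset Nat.Primes, S.Nonempty →
    ∀ (C F : Type) [AddCommGroup C] [Module ℤ C] [AddCommGroup F] [Module ℤ F] [Finite F]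
      (σC : Module.End ℤ C) (σF : Module.End ℤ F)
      (π : Additive (JL S L) →ₗ[ℤ] C) (κ : C →ₗ[ℤ] F),
      σC ^ p = 1 → σF ^ p = 1 →
      π ∘ₗ jlEnd S σ = σC ∘ₗ π → κ ∘ₗ σC = σF ∘ₗ κ →
      LinearMap.ker π = LinearMap.range (jlDiagUnits S L) →
      LinearMap.range π = LinearMap.ker κ → Function.Surjective κ →
      HasHQc σC p p

end Fermat.Agent.PT.G1
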