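import Fermat.Agent.PT.G1.Plan

/-!
# PT-G1, piece HQ-fin: the Herbrand quotient of a finite module is `1`; invariance under
isomorphism.

The counting lemmas are stated over an arbitrary ring `R` (so that no instance of `Module ℤ _`
is synthesised) and specialised to the `ℤ`-module structure of the interface at the end.
-/

set_option autoImplicit false

namespace Fermat.Agent.PT.G1

section generic

variable {R : Type*} [Ring R] {M : Type*} [AddCommGroup M] [Module R M]

/-- Lagrange for the quotient defining `hqCard` when `im g ⊆ ker f`. -/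
theorem fin_card_quot_mul_card_range (f g : M →ₗ[R] M) (h : f ∘ₗ g = 0) :
    Nat.card (↥(LinearMap.ker f) ⧸ (LinearMap.range g).submoduleOf (LinearMap.ker f)) *
      Nat.card (LinearMap.range g) = Nat.card (LinearMap.ker f) := by
  have hle : LinearMap.range g ≤ LinearMap.ker f := by
    rintro _ ⟨x, rfl⟩
    rw [LinearMap.mem_ker]
    exact LinearMap.congr_fun h x
  have h1 := Submodule.card_eq_card_quotient_mul_card
    ((LinearMap.range g).submoduleOf (LinearMap.ker f))
  have h2 : Nat.card ((LinearMap.range g).submoduleOf (LinearMap.ker f)) =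
      Nat.card (LinearMap.range g) :=
    Nat.card_congr (Submodule.submoduleOfEquivOfLe hle).toEquiv
  rw [h2] at h1
  rw [h1, mul_comm]

theorem fin_card_ker_mul_card_range (f : M →ₗ[R] M) :
    Nat.card (LinearMap.ker f) * Nat.card (LinearMap.range f) = Nat.card M := by
  have h1 := Submodule.card_eq_card_quotient_mul_card (LinearMap.ker f)
  have h2 : Nat.card (M ⧸ LinearMap.ker f) = Nat.card (LinearMap.range f) :=
    Nat.card_congr (LinearMap.quotKerEquivRange f).toEquiv
  rw [h2] at h1
  exact h1.symm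

/-- the two numbers of the Herbrand quotient of a finite module are nonzero and equal -/
theorem fin_card_quot_eq [Finite M] (D N : M →ₗ[R] M) (h1 : D ∘ₗ N = 0) (h2 : N ∘ₗ D = 0) :
    Nat.card (↥(LinearMap.ker D) ⧸ (LinearMap.range N).submoduleOf (LinearMap.ker D)) ≠ 0 ∧
    Nat.card (↥(LinearMap.ker N) ⧸ (LinearMap.range D).submoduleOf (LinearMap.ker N)) ≠ 0 ∧
    Nat.card (↥(LinearMap.ker D) ⧸ (LinearMap.range N).submoduleOf (LinearMap.ker D)) =
      Nat.card (↥(LinearMap.ker N) ⧸ (LinearMap.range D).submoduleOf (LinearMap.ker N)) := by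
  have hM : Nat.card M ≠ 0 := Nat.card_pos.ne'
  have hD := fin_card_ker_mul_card_range D
  have hN := fin_card_ker_mul_card_range N
  have hDN := fin_card_quot_mul_card_range D N h1
  have hND := fin_card_quot_mul_card_range N D h2
  set a := Nat.card (↥(LinearMap.ker D) ⧸ (LinearMap.range N).submoduleOf (LinearMap.ker D))
  set b := Nat.card (↥(LinearMap.ker N) ⧸ (LinearMap.range D).submoduleOf (LinearMap.ker N))
  set rD := Nat.card (LinearMap.range D)
  set rN := Nat.card (LinearMap.range N)
  set kD := Nat.card (LinearMap.ker D)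
  set kN := Nat.card (LinearMap.ker N)
  have hrD : rD ≠ 0 := by
    intro h0
    rw [h0, mul_zero] at hD
    exact hM hD.symm
  have hrN : rN ≠ 0 := by
    intro h0
    rw [h0, mul_zero] at hN
    exact hM hN.symm
  have hkD : kD ≠ 0 := by
    intro h0
    rw [h0, zero_mul] at hD
    exact hM hD.symm
  have hkN : kN ≠ 0 := by
    intro h0
    rw [h0, zero_mul] at hN
    exact hM hN.symm
  have e1 : a ≠ 0 := by
    intro h0
    rw [h0, zero_mul] at hDN
    exact hkD hDN.symm
  have e2 : b ≠ 0 := by
    intro h0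
    rw [h0, zero_mul] at hND
    exact hkN hND.symm
  refine ⟨e1, e2, ?_⟩
  have key : a * (rN * rD) = b * (rN * rD) := by
    calc a * (rN * rD) = (a * rN) * rD := by ring
      _ = Nat.card M := by rw [hDN, hD]
      _ = (b * rD) * rN := by rw [hND, hN]
      _ = b * (rN * rD) := by ring
  exact Nat.eq_of_mul_eq_mul_right (Nat.pos_of_ne_zero (Nat.mul_ne_zero hrN hrD)) key

variable {B : Type*} [AddCommGroup B] [Module R B]

theorem fin_card_quot_congr (fA gA : M →ₗ[R] M) (fB gB : B →ₗ[R] B) (e : M ≃ₗ[R] B)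
    (hf : e.toLinearMap ∘ₗ fA = fB ∘ₗ e.toLinearMap)
    (hg : e.toLinearMap ∘ₗ gA = gB ∘ₗ e.toLinearMap) :
    Nat.card (↥(LinearMap.ker fA) ⧸ (LinearMap.range gA).submoduleOf (LinearMap.ker fA)) =
      Nat.card (↥(LinearMap.ker fB) ⧸ (LinearMap.range gB).submoduleOf (LinearMap.ker fB)) := by
  have hf' : ∀ x, e (fA x) = fB (e x) := fun x => LinearMap.congr_fun hf x
  have hg' : ∀ x, e (gA x) = gB (e x) := fun x => LinearMap.congr_fun hg x
  have hker : Submodule.map (e : M →ₗ[R] B) (LinearMap.ker fA) = LinearMap.ker fB := by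
    ext y
    constructor
    · rintro ⟨x, hx, rfl⟩
      rw [SetLike.mem_coe, LinearMap.mem_ker] at hx
      rw [LinearMap.mem_ker]
      change fB (e x) = 0
      rw [← hf', hx, map_zero]
    · intro hy
      rw [LinearMap.mem_ker] at hy
      refine ⟨e.symm y, ?_, e.apply_symm_apply y⟩
      rw [SetLike.mem_coe, LinearMap.mem_ker]
      apply e.injective
      rw [hf', e.apply_symm_apply, hy, map_zero]
  let eK : ↥(LinearMap.ker fA) ≃ₗ[R] ↥(LinearMap.ker fB) :=
    LinearEquiv.ofSubmodules e _ _ hker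
  have heK : ∀ x : ↥(LinearMap.ker fA), ((eK x : ↥(LinearMap.ker fB)) : B) = e (x : M) :=
    fun _ => rfl
  have hmap : Submodule.map (eK : ↥(LinearMap.ker fA) →ₗ[R] ↥(LinearMap.ker fB))
      ((LinearMap.range gA).submoduleOf (LinearMap.ker fA)) =
      (LinearMap.range gB).submoduleOf (LinearMap.ker fB) := by
    ext y
    rw [Submodule.mem_map]
    constructor
    · rintro ⟨x, hx, rfl⟩
      obtain ⟨z, hz⟩ := hx
      refine ⟨e z, ?_⟩
      change gB (e z) = ((eK x : ↥(LinearMap.ker fB)) : B)
      rw [heK, ← hg']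
      exact congrArg e hz
    · rintro ⟨z, hz⟩
      refine ⟨eK.symm y, ⟨e.symm z, ?_⟩, eK.apply_symm_apply y⟩
      change gA (e.symm z) = ((eK.symm y : ↥(LinearMap.ker fA)) : M)
      apply e.injective
      rw [hg', e.apply_symm_apply, ← heK, eK.apply_symm_apply]
      exact hz
  exact Nat.card_congr (Submodule.Quotient.equiv _ _ eK hmap).toEquiv

end generic

theorem stmtFinite : StmtFinite := by
  intro M _ _ _ D N h1 h2
  obtain ⟨e1, e2, e3⟩ := fin_card_quot_eq (R := ℤ) (M := M) D N h1 h2
  refine ⟨e1, e2, ?_⟩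
  rw [one_mul]
  exact congrArg (Nat.cast : ℕ → ℚ) e3

theorem stmtIso : StmtIso := by
  intro A B _ _ _ _ DA NA DB NB e hD hN
  exact ⟨fin_card_quot_congr DA NA DB NB e hD hN, fin_card_quot_congr NA DA NB DB e hN hD⟩

end Fermat.Agent.PT.G1
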