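import Fermat.Agent.PT.G1.Plan

/-!
# PT-G1 / HQ-hex — the Herbrand hexagon, by index counting

`stmtHexagon : StmtHexagon`: the Herbrand quotient of a pair `(D, N)` is multiplicative in short
exact sequences `0 → A → B → C → 0`, and is defined for all three as soon as it is for two.

Proof: no quotient maps and no connecting homomorphism. All six groups are relative indices of
subgroups of `B` (`A` is replaced by `A' = range f`, `C` by `B / A'`):
`h⁰(A) = k₁ k₂`, `h⁰(B) = k₂ k₃`, `h⁰(C) = k₃ k₄`, `h¹(A) = k₄ k₅`, `h¹(B) = k₅ k₆`,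
`h¹(C) = k₆ k₁` with
`k_im(D,N) = [ker D ∩ A' : N B ∩ A']`, `k_β(D,N) = [ker D : N B + ker D ∩ A']`,
`k_δ(D,N) = [D B ∩ A' : D A']` and `k₁ = k_δ(N,D)`, `k₂ = k_im(D,N)`, `k₃ = k_β(D,N)`,
`k₄ = k_δ(D,N)`, `k₅ = k_im(N,D)`, `k₆ = k_β(N,D)` (indices are `0` when infinite, and
`AddSubgroup.relIndex_mul_relIndex` holds unconditionally).
-/

set_option autoImplicit false

namespace Fermat.Agent.PT.G1

namespace Hex

variable {B : Type*} [AddCommGroup B]

/-- `[ker D ∩ A' : N B ∩ A']` -/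
noncomputable def kIm (D N : B →+ B) (A' : AddSubgroup B) : ℕ :=
  (N.range ⊓ A').relIndex (D.ker ⊓ A')

/-- `[ker D : N B + ker D ∩ A']` -/
noncomputable def kBeta (D N : B →+ B) (A' : AddSubgroup B) : ℕ :=
  (N.range ⊔ (D.ker ⊓ A')).relIndex D.ker

/-- `[D B ∩ A' : D A']` -/
noncomputable def kDelta (D : B →+ B) (A' : AddSubgroup B) : ℕ :=
  (A'.map D).relIndex (D.range ⊓ A')

theorem range_le_ker {D N : B →+ B} (hDN : D.comp N = 0) : N.range ≤ D.ker := by
  rintro _ ⟨x, rfl⟩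
  rw [AddMonoidHom.mem_ker]
  exact DFunLike.congr_fun hDN x

/-- `h(A) = [ker D ∩ A' : N A'] = k_δ(N) · k_im(D,N)`. -/
theorem hA_eq (D N : B →+ B) (A' : AddSubgroup B) (hDN : D.comp N = 0)
    (hNA : A'.map N ≤ A') :
    (A'.map N).relIndex (D.ker ⊓ A') = kDelta N A' * kIm D N A' := by
  unfold kDelta kIm
  refine (AddSubgroup.relIndex_mul_relIndex _ _ _ ?_ ?_).symm
  · exact le_inf (AddSubgroup.map_le_range N A') hNA
  · exact inf_le_inf_right A' (range_le_ker hDN)

/-- `h(B) = [ker D : N B] = k_im(D,N) · k_β(D,N)`. -/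
theorem hB_eq (D N : B →+ B) (A' : AddSubgroup B) (hDN : D.comp N = 0) :
    N.range.relIndex D.ker = kIm D N A' * kBeta D N A' := by
  unfold kIm kBeta
  have hle := range_le_ker hDN
  have h1 : N.range.relIndex (N.range ⊔ (D.ker ⊓ A')) = (N.range ⊓ A').relIndex (D.ker ⊓ A') := by
    rw [AddSubgroup.relIndex_sup_left, ← AddSubgroup.inf_relIndex_right]
    congr 1
    rw [← inf_assoc, inf_eq_left.mpr hle]
  rw [← h1]
  refine (AddSubgroup.relIndex_mul_relIndex _ _ _ le_sup_left ?_).symm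
  exact sup_le hle inf_le_left

/-- `h(C) = [D⁻¹ A' : N B + A'] = k_β(D,N) · k_δ(D)`. -/
theorem hC_eq (D N : B →+ B) (A' : AddSubgroup B) (hDN : D.comp N = 0)
    (hDA : A'.map D ≤ A') :
    (N.range ⊔ A').relIndex (A'.comap D) = kBeta D N A' * kDelta D A' := by
  unfold kBeta kDelta
  have hle := range_le_ker hDN
  have hA'le : A' ≤ A'.comap D := by
    intro a ha
    exact hDA ⟨a, ha, rfl⟩
  have hkle : D.ker ≤ A'.comap D := by
    intro b hb
    rw [AddSubgroup.mem_comap, AddMonoidHom.mem_ker.mp hb]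
    exact zero_mem _
  -- first factor
  have h1 : (N.range ⊔ A').relIndex (D.ker ⊔ A') = (N.range ⊔ (D.ker ⊓ A')).relIndex D.ker := by
    have e1 : D.ker ⊔ A' = D.ker ⊔ (N.range ⊔ A') := by
      rw [← sup_assoc, sup_eq_left.mpr hle]
    rw [e1, AddSubgroup.relIndex_sup_right, ← AddSubgroup.inf_relIndex_right]
    congr 1
    rw [sup_inf_assoc_of_le A' hle, inf_comm A' D.ker]
  -- second factor
  have h2 : (D.ker ⊔ A').relIndex (A'.comap D) = (A'.map D).relIndex (D.range ⊓ A') := by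
    have e2 : D.ker ⊔ A' = (A'.map D).comap D := by
      rw [AddSubgroup.comap_map_eq, sup_comm]
    rw [e2, AddSubgroup.relIndex_comap, AddSubgroup.map_comap_eq]
  rw [← h1, ← h2]
  refine (AddSubgroup.relIndex_mul_relIndex _ _ _ ?_ ?_).symm
  · exact sup_le_sup_right hle A'
  · exact sup_le hkle hA'le

/-! ### `hqCard` as a relative index, and transport along `f` and `g` -/

theorem hqCard_eq_relIndex {M : Type*} [AddCommGroup M] [Module ℤ M] (D N : Module.End ℤ M) :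
    hqCard D N =
      (N : M →ₗ[ℤ] M).toAddMonoidHom.range.relIndex (D : M →ₗ[ℤ] M).toAddMonoidHom.ker :=
  rfl

section Transport

variable {A C : Type*} [AddCommGroup A] [AddCommGroup C]

/-- Transport of `h(A)` along an injective intertwiner `f : A → B`. -/
theorem relIndex_A (f : A →+ B) (hf : Function.Injective f) (DA NA : A →+ A) (DB NB : B →+ B)
    (hD : f.comp DA = DB.comp f) (hN : f.comp NA = NB.comp f) :
    NA.range.relIndex DA.ker = (f.range.map NB).relIndex (DB.ker ⊓ f.range) := by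
  rw [← AddSubgroup.relIndex_map_map_of_injective _ _ hf]
  congr 1
  · ext b
    constructor
    · rintro ⟨_, ⟨a, rfl⟩, rfl⟩
      exact ⟨f a, ⟨a, rfl⟩, (DFunLike.congr_fun hN a).symm⟩
    · rintro ⟨_, ⟨a, rfl⟩, rfl⟩
      exact ⟨NA a, ⟨a, rfl⟩, DFunLike.congr_fun hN a⟩
  · ext b
    simp only [AddSubgroup.mem_map, AddSubgroup.mem_inf, AddMonoidHom.mem_ker,
      AddMonoidHom.mem_range]
    constructor
    · rintro ⟨a, ha, rfl⟩
      refine ⟨?_, ⟨a, rfl⟩⟩
      have h := DFunLike.congr_fun hD a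
      simp only [AddMonoidHom.comp_apply] at h
      rw [← h, ha, map_zero]
    · rintro ⟨hb, ⟨a, rfl⟩⟩
      refine ⟨a, ?_, rfl⟩
      have h := DFunLike.congr_fun hD a
      simp only [AddMonoidHom.comp_apply] at h
      rw [← h] at hb
      exact hf (by rw [hb, map_zero])

/-- Transport of `h(C)` along a surjective intertwiner `g : B → C`. -/
theorem relIndex_C (g : B →+ C) (hg : Function.Surjective g) (DB NB : B →+ B) (DC NC : C →+ C)
    (hD : g.comp DB = DC.comp g) (hN : g.comp NB = NC.comp g) :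
    NC.range.relIndex DC.ker = (NB.range ⊔ g.ker).relIndex (g.ker.comap DB) := by
  have h1 : NC.range.comap g = NB.range ⊔ g.ker := by
    rw [← AddSubgroup.comap_map_eq]
    congr 1
    ext c
    constructor
    · rintro ⟨c', rfl⟩
      obtain ⟨b, rfl⟩ := hg c'
      exact ⟨NB b, ⟨b, rfl⟩, DFunLike.congr_fun hN b⟩
    · rintro ⟨_, ⟨b, rfl⟩, rfl⟩
      exact ⟨g b, (DFunLike.congr_fun hN b).symm⟩
  have h2 : DC.ker.comap g = g.ker.comap DB := by
    ext b
    simp only [AddSubgroup.mem_comap, AddMonoidHom.mem_ker]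
    have h := DFunLike.congr_fun hD b
    simp only [AddMonoidHom.comp_apply] at h
    rw [h]
  rw [← h1, ← h2, AddSubgroup.relIndex_comap, AddSubgroup.map_comap_eq,
    AddMonoidHom.range_eq_top.mpr hg, top_inf_eq]

end Transport

/-- The six numbers of the hexagon. -/
theorem six (A C : Type*) [AddCommGroup A] [AddCommGroup C]
    (f : A →+ B) (g : B →+ C) (hf : Function.Injective f) (hg : Function.Surjective g)
    (hfg : f.range = g.ker) (DA NA : A →+ A) (DB NB : B →+ B) (DC NC : C →+ C)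
    (hB1 : DB.comp NB = 0) (hB2 : NB.comp DB = 0)
    (hfD : f.comp DA = DB.comp f) (hfN : f.comp NA = NB.comp f)
    (hgD : g.comp DB = DC.comp g) (hgN : g.comp NB = NC.comp g) :
    ∃ k₁ k₂ k₃ k₄ k₅ k₆ : ℕ,
      NA.range.relIndex DA.ker = k₁ * k₂ ∧ NB.range.relIndex DB.ker = k₂ * k₃ ∧
      NC.range.relIndex DC.ker = k₃ * k₄ ∧ DA.range.relIndex NA.ker = k₄ * k₅ ∧
      DB.range.relIndex NB.ker = k₅ * k₆ ∧ DC.range.relIndex NC.ker = k₆ * k₁ := by
  have hDA' : f.range.map DB ≤ f.range := by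
    rintro _ ⟨_, ⟨a, rfl⟩, rfl⟩
    exact ⟨DA a, DFunLike.congr_fun hfD a⟩
  have hNA' : f.range.map NB ≤ f.range := by
    rintro _ ⟨_, ⟨a, rfl⟩, rfl⟩
    exact ⟨NA a, DFunLike.congr_fun hfN a⟩
  refine ⟨kDelta NB f.range, kIm DB NB f.range, kBeta DB NB f.range, kDelta DB f.range,
    kIm NB DB f.range, kBeta NB DB f.range, ?_, ?_, ?_, ?_, ?_, ?_⟩
  · rw [relIndex_A f hf DA NA DB NB hfD hfN]
    exact hA_eq DB NB f.range hB1 hNA'
  · exact hB_eq DB NB f.range hB1
  · rw [relIndex_C g hg DB NB DC NC hgD hgN, ← hfg]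
    exact hC_eq DB NB f.range hB1 hDA'
  · rw [relIndex_A f hf NA DA NB DB hfN hfD]
    exact hA_eq NB DB f.range hB2 hDA'
  · exact hB_eq NB DB f.range hB2
  · rw [relIndex_C g hg NB DB NC DC hgN hgD, ← hfg]
    exact hC_eq NB DB f.range hB2 hNA'

end Hex

open Hex in
/-- **HQ-hex**: the Herbrand hexagon. -/
theorem stmtHexagon : StmtHexagon := by
  intro A B C _ _ _ _ _ _ DA NA DB NB DC NC f g _ _ hB1 hB2 _ _ hf hg hfg hfD hfN hgD hgN qA qB qC
  obtain ⟨k₁, k₂, k₃, k₄, k₅, k₆, e1, e2, e3, e4, e5, e6⟩ :=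
    six A C f.toAddMonoidHom g.toAddMonoidHom hf hg
      (by
        have := congrArg Submodule.toAddSubgroup hfg
        exact this)
      DA.toAddMonoidHom NA.toAddMonoidHom DB.toAddMonoidHom NB.toAddMonoidHom
      DC.toAddMonoidHom NC.toAddMonoidHom
      (by ext x; exact DFunLike.congr_fun hB1 x) (by ext x; exact DFunLike.congr_fun hB2 x)
      (by ext x; exact DFunLike.congr_fun hfD x) (by ext x; exact DFunLike.congr_fun hfN x)
      (by ext x; exact DFunLike.congr_fun hgD x) (by ext x; exact DFunLike.congr_fun hgN x)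
  have a0 : hqCard DA NA = k₁ * k₂ := e1
  have b0 : hqCard DB NB = k₂ * k₃ := e2
  have c0 : hqCard DC NC = k₃ * k₄ := e3
  have a1 : hqCard NA DA = k₄ * k₅ := e4
  have b1 : hqCard NB DB = k₅ * k₆ := e5
  have c1 : hqCard NC DC = k₆ * k₁ := e6
  unfold HasHQ
  rw [a0, b0, c0, a1, b1, c1]
  refine ⟨?_, ?_, ?_⟩
  · rintro ⟨h1, h2, h3⟩ ⟨h4, h5, h6⟩
    have n1 : k₁ ≠ 0 := left_ne_zero_of_mul h1
    have n2 : k₂ ≠ 0 := right_ne_zero_of_mul h1
    have n4 : k₄ ≠ 0 := left_ne_zero_of_mul h2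
    have n5 : k₅ ≠ 0 := right_ne_zero_of_mul h2
    have n3 : k₃ ≠ 0 := left_ne_zero_of_mul h4
    have n6 : k₆ ≠ 0 := left_ne_zero_of_mul h5
    refine ⟨mul_ne_zero n2 n3, mul_ne_zero n5 n6, ?_⟩
    have hA : qA = (k₁ * k₂ : ℚ) / (k₄ * k₅) := by
      push_cast at h3
      field_simp
      linarith
    have hC : qC = (k₃ * k₄ : ℚ) / (k₆ * k₁) := by
      push_cast at h6
      field_simp
      linarith
    rw [hA, hC]
    push_cast
    field_simp
  · rintro ⟨h1, h2, h3⟩ ⟨h4, h5, h6⟩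
    have n1 : k₁ ≠ 0 := left_ne_zero_of_mul h1
    have n2 : k₂ ≠ 0 := right_ne_zero_of_mul h1
    have n4 : k₄ ≠ 0 := left_ne_zero_of_mul h2
    have n5 : k₅ ≠ 0 := right_ne_zero_of_mul h2
    have n3 : k₃ ≠ 0 := right_ne_zero_of_mul h4
    have n6 : k₆ ≠ 0 := right_ne_zero_of_mul h5
    refine ⟨mul_ne_zero n3 n4, mul_ne_zero n6 n1, ?_⟩
    have hA : qA = (k₁ * k₂ : ℚ) / (k₄ * k₅) := by
      push_cast at h3
      field_simp
      linarith
    have hB : qB = (k₂ * k₃ : ℚ) / (k₅ * k₆) := by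
      push_cast at h6
      field_simp
      linarith
    rw [hA, hB]
    push_cast
    field_simp
  · rintro ⟨h1, h2, h3⟩ ⟨h4, h5, h6⟩
    have n2 : k₂ ≠ 0 := left_ne_zero_of_mul h1
    have n3 : k₃ ≠ 0 := right_ne_zero_of_mul h1
    have n5 : k₅ ≠ 0 := left_ne_zero_of_mul h2
    have n6 : k₆ ≠ 0 := right_ne_zero_of_mul h2
    have n4 : k₄ ≠ 0 := right_ne_zero_of_mul h4
    have n1 : k₁ ≠ 0 := right_ne_zero_of_mul h5
    refine ⟨mul_ne_zero n1 n2, mul_ne_zero n4 n5, ?_⟩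
    have hB : qB = (k₂ * k₃ : ℚ) / (k₅ * k₆) := by
      push_cast at h3
      field_simp
      linarith
    have hC : qC = (k₃ * k₄ : ℚ) / (k₆ * k₁) := by
      push_cast at h6
      field_simp
      linarith
    rw [hB, hC]
    push_cast
    field_simp

end Fermat.Agent.PT.G1
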