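import Fermat.Agent.PT.G1.Plan

/-!
# PT-G1, piece HQ-bridge: Mathlib's `H¹`, `H²` of a finite cyclic group and the Herbrand numbers

For a finite cyclic group `G = ⟨g⟩` and `A : Rep ℤ G`:
`|H²(G, A)| = |ker (ρ g - 1) / im N|` and `|H¹(G, A)| = |ker N / im (ρ g - 1)|`, where
`N = 1 + ρ g + ⋯ + (ρ g)^(n-1)`, `n = |G|`.
-/

set_option autoImplicit false

namespace Fermat.Agent.PT.G1

open CategoryTheory

/-- Sums over a finite cyclic group are sums over the powers of a generator. -/
theorem bridge_sum_eq {G M : Type*} [Group G] [Fintype G] [AddCommMonoid M] (g : G)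
    (hg : ∀ x, x ∈ Subgroup.zpowers g) (f : G → M) :
    ∑ x : G, f x = ∑ i ∈ Finset.range (Fintype.card G), f (g ^ i) := by
  classical
  have hord : orderOf g = Fintype.card G := by
    rw [orderOf_eq_card_of_forall_mem_zpowers hg, Nat.card_eq_fintype_card]
  rw [← hord]
  have himg : (Finset.univ : Finset G) = Finset.image (fun i => g ^ i) (Finset.range (orderOf g)) := by
    ext x
    simp only [Finset.mem_univ, true_iff]
    exact mem_zpowers_iff_mem_range_orderOf.mp (hg x)
  rw [himg, Finset.sum_image]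
  intro i hi j hj h
  exact pow_injOn_Iio_orderOf (by simpa using hi) (by simpa using hj) h

/-- The norm of a representation of a finite cyclic group in terms of a generator. -/
theorem bridge_norm_eq {k G V : Type*} [CommRing k] [Group G] [Fintype G] [AddCommGroup V]
    [Module k V] (ρ : Representation k G V) (g : G) (hg : ∀ x, x ∈ Subgroup.zpowers g) :
    Representation.norm ρ = ∑ i ∈ Finset.range (Fintype.card G), (ρ g) ^ i := by
  unfold Representation.norm
  rw [bridge_sum_eq g hg]
  refine Finset.sum_congr rfl fun i _ => ?_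
  rw [map_pow]

/-- Counting lemma: a surjection from `ker D` with kernel `im N ∩ ker D`. -/
theorem bridge_card {R V W : Type*} [Ring R] [AddCommGroup V] [Module R V] [AddCommGroup W]
    [Module R W] (D N : V →ₗ[R] V) (π : ↥(LinearMap.ker D) →ₗ[R] W)
    (hsurj : Function.Surjective π) (hker : ∀ x, π x = 0 ↔ (x : V) ∈ LinearMap.range N) :
    Nat.card W =
      Nat.card (↥(LinearMap.ker D) ⧸ (LinearMap.range N).submoduleOf (LinearMap.ker D)) := by
  have hk : LinearMap.ker π = (LinearMap.range N).submoduleOf (LinearMap.ker D) := by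
    ext x
    rw [LinearMap.mem_ker, hker]
    rfl
  have e := LinearMap.quotKerEquivOfSurjective π hsurj
  rw [← Nat.card_congr e.toEquiv, hk]

section generic

variable {k G : Type} [CommRing k] [CommGroup G] [Fintype G] (A : Rep.{0} k G) (g : G)
  (hg : ∀ x, x ∈ Subgroup.zpowers g)

include hg

theorem bridge_H2 :
    Nat.card (groupCohomology.H2 A) =
      Nat.card (↥(LinearMap.ker (A.ρ g - 1 : Module.End k A.V)) ⧸
        (LinearMap.range (∑ i ∈ Finset.range (Fintype.card G), (A.ρ g) ^ i :
          Module.End k A.V)).submoduleOf (LinearMap.ker (A.ρ g - 1 : Module.End k A.V))) := by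
  have hepi : Epi (Rep.FiniteCyclicGroup.groupCohomologyπEven A g hg 2 ⟨1, rfl⟩) := by
    unfold Rep.FiniteCyclicGroup.groupCohomologyπEven
    infer_instance
  have hsurj := (ModuleCat.epi_iff_surjective _).mp hepi
  rw [← bridge_norm_eq A.ρ g hg]
  exact bridge_card (A.ρ g - 1 : Module.End k A.V) (Representation.norm A.ρ)
    (Rep.FiniteCyclicGroup.groupCohomologyπEven A g hg 2 ⟨1, rfl⟩).hom hsurj
    (fun x => Rep.FiniteCyclicGroup.groupCohomologyπEven_eq_zero_iff A g hg 2 ⟨1, rfl⟩ x)

theorem bridge_H1 :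
    Nat.card (groupCohomology.H1 A) =
      Nat.card (↥(LinearMap.ker (∑ i ∈ Finset.range (Fintype.card G), (A.ρ g) ^ i :
          Module.End k A.V)) ⧸
        (LinearMap.range (A.ρ g - 1 : Module.End k A.V)).submoduleOf
          (LinearMap.ker (∑ i ∈ Finset.range (Fintype.card G), (A.ρ g) ^ i :
            Module.End k A.V))) := by
  have hepi : Epi (Rep.FiniteCyclicGroup.groupCohomologyπOdd A g hg 1 ⟨0, rfl⟩) := by
    unfold Rep.FiniteCyclicGroup.groupCohomologyπOdd
    infer_instance
  have hsurj := (ModuleCat.epi_iff_surjective _).mp hepi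
  rw [← bridge_norm_eq A.ρ g hg]
  exact bridge_card (Representation.norm A.ρ) (A.ρ g - 1 : Module.End k A.V)
    (Rep.FiniteCyclicGroup.groupCohomologyπOdd A g hg 1 ⟨0, rfl⟩).hom hsurj
    (fun x => Rep.FiniteCyclicGroup.groupCohomologyπOdd_eq_zero_iff A g hg 1 ⟨0, rfl⟩ x)

end generic

/-- **HQ-bridge.** -/
theorem stmtBridge : StmtBridge := by
  intro G _ _ A g hg
  exact ⟨bridge_H2 A g hg, bridge_H1 A g hg⟩

end Fermat.Agent.PT.G1
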