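/-
PT-G1, piece U-rank (helper26): Dirichlet's `S`-unit theorem in the form
`rank (nUnits N L) = Units.rank L + #{P prime of 𝓞 L, N ∈ P}`.

Proof: the valuation vector `v : nUnits N L → ℤ^S` (`S` = primes containing `N`) has kernel
`(𝓞 L)ˣ` (rank `Units.rank L`, Mathlib) and its image contains, for every `P ∈ S`, a nonzero
multiple of the basis vector `e_P` (`P ^ h` is principal, `h` the class number).
-/
import Fermat.Agent.PT.G1.Plan

set_option autoImplicit false
set_option linter.unusedSectionVars false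
set_option linter.style.haveILetI false

namespace Fermat.Agent.PT.G1

open NumberField IsDedekindDomain Module

section UnitRank

variable (L : Type) [Field L] [NumberField L] (N : ℕ)

/-- The primes of `𝓞 L` containing `N`, as height one primes. -/
def UrS : Type := {P : HeightOneSpectrum (𝓞 L) // (N : 𝓞 L) ∈ P.asIdeal}

variable {L N}

lemma ur_natCast_ne_zero (hN : N ≠ 0) : (N : 𝓞 L) ≠ 0 := by
  exact_mod_cast hN

lemma ur_finite (hN : N ≠ 0) : Finite (UrS L N) := by
  have hI : Ideal.span {(N : 𝓞 L)} ≠ 0 := by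
    rw [Ne, Ideal.zero_eq_bot, Ideal.span_singleton_eq_bot]
    exact ur_natCast_ne_zero hN
  have h := Ideal.finite_factors hI
  have : Finite {v : HeightOneSpectrum (𝓞 L) | v.asIdeal ∣ Ideal.span {(N : 𝓞 L)}} := h
  refine Finite.of_injective
    (fun P : UrS L N => (⟨P.1, by
      show P.1.asIdeal ∣ Ideal.span {(N : 𝓞 L)}
      rw [Ideal.dvd_span_singleton]; exact P.2⟩ :
      {v : HeightOneSpectrum (𝓞 L) | v.asIdeal ∣ Ideal.span {(N : 𝓞 L)}})) ?_
  intro P Q h
  exact Subtype.ext (congrArg (fun x => x.1) h)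

/-- The valuation of an integral element is `≤ 1`. -/
lemma ur_val_le_one_of_isIntegral (P : HeightOneSpectrum (𝓞 L)) {y : L} (hy : IsIntegral ℤ y) :
    P.valuation L y ≤ 1 := by
  exact P.valuation_le_one (K := L) (⟨y, hy⟩ : 𝓞 L)

/-- The valuation of `N` at a prime not containing `N` is `1`. -/
lemma ur_val_natCast (P : HeightOneSpectrum (𝓞 L)) (hP : (N : 𝓞 L) ∉ P.asIdeal) :
    P.valuation L (N : L) = 1 := by
  have h := (P.valuation_eq_one_iff_notMem (K := L) (r := (N : 𝓞 L))).mpr hP
  simpa using h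

/-- An `N`-unit has valuation `1` at every prime not containing `N`. -/
lemma ur_val_eq_one (u : nUnits N L) (P : HeightOneSpectrum (𝓞 L))
    (hP : (N : 𝓞 L) ∉ P.asIdeal) : P.valuation L ((u : Lˣ) : L) = 1 := by
  obtain ⟨k, h1, h2⟩ := u.2
  have hN1 := ur_val_natCast P hP
  have e1 : P.valuation L ((u : Lˣ) : L) ≤ 1 := by
    have := ur_val_le_one_of_isIntegral P h1
    rwa [map_mul, map_pow, hN1, one_pow, one_mul] at this
  have e2 : P.valuation L (((u : Lˣ)⁻¹ : Lˣ) : L) ≤ 1 := by
    have := ur_val_le_one_of_isIntegral P h2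
    rwa [map_mul, map_pow, hN1, one_pow, one_mul] at this
  have e3 : P.valuation L ((u : Lˣ) : L) * P.valuation L (((u : Lˣ)⁻¹ : Lˣ) : L) = 1 := by
    rw [← map_mul, ← Units.val_mul, mul_inv_cancel, Units.val_one, map_one]
  refine le_antisymm e1 ?_
  by_contra hlt
  rw [not_le] at hlt
  have h0 : P.valuation L ((u : Lˣ) : L) ≠ 0 := by
    rw [Ne, map_eq_zero]; exact (u : Lˣ).ne_zero
  have : P.valuation L ((u : Lˣ) : L) * P.valuation L (((u : Lˣ)⁻¹ : Lˣ) : L) < 1 := by
    calc P.valuation L ((u : Lˣ) : L) * P.valuation L (((u : Lˣ)⁻¹ : Lˣ) : L)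
        ≤ P.valuation L ((u : Lˣ) : L) * 1 := by gcongr
      _ < 1 := by rwa [mul_one]
  rw [e3] at this
  exact lt_irrefl _ this

variable (L N)

/-- The valuation vector of an `N`-unit at the primes containing `N`. -/
noncomputable def urVal : Additive (nUnits N L) →ₗ[ℤ] (UrS L N → ℤ) :=
  AddMonoidHom.toIntLinearMap
    { toFun := fun u P => Multiplicative.toAdd
        (P.1.valuationOfNeZero (((Additive.toMul u : nUnits N L) : Lˣ)))
      map_zero' := by
        funext P
        simp
      map_add' := fun u u' => by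
        funext P
        simp [toAdd_mul] }

variable {L N}

lemma urVal_apply (u : Additive (nUnits N L)) (P : UrS L N) :
    urVal L N u P = Multiplicative.toAdd
      (P.1.valuationOfNeZero (((Additive.toMul u : nUnits N L) : Lˣ))) := rfl

lemma urVal_eq_zero_iff (u : Additive (nUnits N L)) (P : UrS L N) :
    urVal L N u P = 0 ↔ P.1.valuation L ((((Additive.toMul u : nUnits N L) : Lˣ)) : L) = 1 := by
  rw [urVal_apply, ← HeightOneSpectrum.valuationOfNeZero_eq]
  constructor
  · intro h
    have h1 : P.1.valuationOfNeZero (((Additive.toMul u : nUnits N L) : Lˣ)) = 1 := by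
      rw [← ofAdd_toAdd (P.1.valuationOfNeZero _), h, ofAdd_zero]
    rw [h1]
    rfl
  · intro h
    have h1 : P.1.valuationOfNeZero (((Additive.toMul u : nUnits N L) : Lˣ)) = 1 := by
      exact_mod_cast h
    rw [h1, toAdd_one]

/-- An `N`-unit in the kernel of the valuation vector has valuation `1` everywhere. -/
lemma ur_val_eq_one_of_mem_ker (u : Additive (nUnits N L)) (hu : u ∈ LinearMap.ker (urVal L N))
    (P : HeightOneSpectrum (𝓞 L)) :
    P.valuation L ((((Additive.toMul u : nUnits N L) : Lˣ)) : L) = 1 := by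
  by_cases hP : (N : 𝓞 L) ∈ P.asIdeal
  · have h := congrFun (LinearMap.mem_ker.mp hu) (⟨P, hP⟩ : UrS L N)
    exact (urVal_eq_zero_iff u ⟨P, hP⟩).mp h
  · exact ur_val_eq_one (Additive.toMul u) P hP

variable (L N)

/-- The inclusion of the units of `𝓞 L` into the `N`-units. -/
noncomputable def urUnitsHom : (𝓞 L)ˣ →* nUnits N L where
  toFun u := ⟨Units.map (algebraMap (𝓞 L) L : 𝓞 L →* L) u, ⟨0, by
    simpa using RingOfIntegers.isIntegral_coe (u : 𝓞 L), by
    have : ((Units.map (algebraMap (𝓞 L) L : 𝓞 L →* L) u)⁻¹ : Lˣ) =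
        Units.map (algebraMap (𝓞 L) L : 𝓞 L →* L) u⁻¹ := (map_inv _ u).symm
    rw [this]
    simpa using RingOfIntegers.isIntegral_coe ((u⁻¹ : (𝓞 L)ˣ) : 𝓞 L)⟩⟩
  map_one' := by
    apply Subtype.ext
    simp
  map_mul' u u' := by
    apply Subtype.ext
    simp

/-- The inclusion of the units of `𝓞 L` into the `N`-units, as a linear map. -/
noncomputable def urIncl : Additive (𝓞 L)ˣ →ₗ[ℤ] Additive (nUnits N L) :=
  (MonoidHom.toAdditive (urUnitsHom L N)).toIntLinearMap

variable {L N}

lemma urIncl_injective : Function.Injective (urIncl L N) := by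
  intro u u' h
  have h1 : urUnitsHom L N (Additive.toMul u) = urUnitsHom L N (Additive.toMul u') := h
  have h2 : (((urUnitsHom L N (Additive.toMul u) : nUnits N L) : Lˣ) : L) =
      (((urUnitsHom L N (Additive.toMul u') : nUnits N L) : Lˣ) : L) := by rw [h1]
  have h3 : (((Additive.toMul u : (𝓞 L)ˣ) : 𝓞 L) : L) = (((Additive.toMul u' : (𝓞 L)ˣ) : 𝓞 L) : L) := h2
  have h4 : ((Additive.toMul u : (𝓞 L)ˣ) : 𝓞 L) = ((Additive.toMul u' : (𝓞 L)ˣ) : 𝓞 L) :=
    RingOfIntegers.ext h3
  exact congrArg Additive.ofMul (Units.ext h4)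

lemma ur_range_incl : LinearMap.range (urIncl L N) = LinearMap.ker (urVal L N) := by
  apply le_antisymm
  · rintro _ ⟨u, rfl⟩
    rw [LinearMap.mem_ker]
    funext P
    rw [Pi.zero_apply, urVal_eq_zero_iff]
    have h := HeightOneSpectrum.valuation_of_unit_eq (K := L) P.1 (Additive.toMul u)
    have h2 := HeightOneSpectrum.valuationOfNeZero_eq (K := L) P.1
      (Units.map (algebraMap (𝓞 L) L : 𝓞 L →* L) (Additive.toMul u))
    rw [h] at h2
    exact h2.symm
  · intro u hu
    have hval := ur_val_eq_one_of_mem_ker u hu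
    set x : Lˣ := ((Additive.toMul u : nUnits N L) : Lˣ) with hx
    obtain ⟨a, ha⟩ := HeightOneSpectrum.mem_integers_of_valuation_le_one (R := 𝓞 L) L (x : L)
      (fun v => (hval v).le)
    obtain ⟨b, hb⟩ := HeightOneSpectrum.mem_integers_of_valuation_le_one (R := 𝓞 L) L
      ((x⁻¹ : Lˣ) : L) (fun v => by
        have h1 : v.valuation L ((x⁻¹ : Lˣ) : L) = (v.valuation L (x : L))⁻¹ := by
          rw [Units.val_inv_eq_inv_val, map_inv₀]
        rw [h1, hval v, inv_one])
    have hab : a * b = 1 := by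
      apply RingOfIntegers.ext
      have : algebraMap (𝓞 L) L (a * b) = 1 := by
        rw [map_mul, ha, hb, ← Units.val_mul, mul_inv_cancel, Units.val_one]
      simpa using this
    refine ⟨Additive.ofMul (⟨a, b, hab, by rw [mul_comm]; exact hab⟩ : (𝓞 L)ˣ), ?_⟩
    have : urUnitsHom L N (⟨a, b, hab, by rw [mul_comm]; exact hab⟩ : (𝓞 L)ˣ) =
        (Additive.toMul u : nUnits N L) := by
      apply Subtype.ext
      apply Units.ext
      exact ha
    exact congrArg Additive.ofMul this

/-- For every prime `P` containing `N` there is an `N`-unit whose valuation is `1` at all the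
other primes and `≠ 1` at `P` (a generator of `P ^ h`, `h` the class number). -/
lemma ur_exists_generator (P : UrS L N) :
    ∃ u : nUnits N L, P.1.valuation L ((u : Lˣ) : L) ≠ 1 ∧
      ∀ Q : HeightOneSpectrum (𝓞 L), Q ≠ P.1 → Q.valuation L ((u : Lˣ) : L) = 1 := by
  classical
  set h : ℕ := Fintype.card (ClassGroup (𝓞 L)) with hh
  have hpos : 0 < h := Fintype.card_pos
  have hP0 : P.1.asIdeal ∈ nonZeroDivisors (Ideal (𝓞 L)) :=
    mem_nonZeroDivisors_iff_ne_zero.mpr P.1.ne_bot
  have hPh0 : P.1.asIdeal ^ h ∈ nonZeroDivisors (Ideal (𝓞 L)) := pow_mem hP0 h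
  have hcl : ClassGroup.mk0 ⟨P.1.asIdeal ^ h, hPh0⟩ = 1 := by
    have : (⟨P.1.asIdeal ^ h, hPh0⟩ : nonZeroDivisors (Ideal (𝓞 L))) =
        (⟨P.1.asIdeal, hP0⟩ : nonZeroDivisors (Ideal (𝓞 L))) ^ h := rfl
    rw [this, map_pow, hh]
    exact pow_card_eq_one
  obtain ⟨x, hx⟩ := ((ClassGroup.mk0_eq_one_iff hPh0).mp hcl).principal
  have hx' : P.1.asIdeal ^ h = Ideal.span {x} := by
    rw [hx]
  have hx0 : x ≠ 0 := by
    rintro rfl
    have : P.1.asIdeal ^ h = ⊥ := by rw [hx']; simp
    exact (mem_nonZeroDivisors_iff_ne_zero.mp hPh0) this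
  have hxL : (x : L) ≠ 0 := RingOfIntegers.coe_ne_zero_iff.mpr hx0
  -- `x ∈ P`
  have hxP : x ∈ P.1.asIdeal := by
    have h1 : x ∈ P.1.asIdeal ^ h := by rw [hx']; exact Ideal.mem_span_singleton_self x
    exact Ideal.pow_le_self hpos.ne' h1
  -- `N ^ h = x * y`
  have hNh : (N : 𝓞 L) ^ h ∈ Ideal.span {x} := by
    rw [← hx']
    exact Ideal.pow_mem_pow P.2 h
  obtain ⟨y, hy⟩ := Ideal.mem_span_singleton'.mp hNh
  refine ⟨⟨Units.mk0 (x : L) hxL, ⟨h, ?_, ?_⟩⟩, ?_, ?_⟩
  · have : IsIntegral ℤ (((N : 𝓞 L) ^ h * x : 𝓞 L) : L) :=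
      RingOfIntegers.isIntegral_coe _
    simpa using this
  · have h1 : (N : L) ^ h * ((Units.mk0 (x : L) hxL)⁻¹ : Lˣ) = (y : L) := by
      have h2 : ((y * x : 𝓞 L) : L) = (((N : 𝓞 L) ^ h : 𝓞 L) : L) := by rw [hy]
      push_cast at h2
      rw [Units.val_inv_eq_inv_val, Units.val_mk0, ← h2]
      field_simp
    rw [h1]
    exact RingOfIntegers.isIntegral_coe y
  · have h1 := (P.1.valuation_lt_one_iff_mem (K := L) x).mpr hxP
    exact ne_of_lt h1
  · intro Q hQ
    have hxQ : x ∉ Q.asIdeal := by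
      intro hmem
      have h1 : P.1.asIdeal ^ h ≤ Q.asIdeal := by
        rw [hx', Ideal.span_singleton_le_iff_mem]; exact hmem
      have h2 : P.1.asIdeal ≤ Q.asIdeal := Q.isPrime.le_of_pow_le h1
      have h3 : P.1.asIdeal = Q.asIdeal :=
        (P.1.isMaximal.eq_of_le Q.isPrime.ne_top h2)
      exact hQ (HeightOneSpectrum.ext h3.symm)
    exact (Q.valuation_eq_one_iff_notMem (K := L)).mpr hxQ

/-- The primes of `𝓞 L` containing `N ≠ 0` are the height one primes containing `N`. -/
lemma ur_ncard_primesAbove (hN : N ≠ 0) : (primesAbove N L).ncard = Nat.card (UrS L N) := by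
  have himg : primesAbove N L = (fun P : UrS L N => P.1.asIdeal) '' Set.univ := by
    ext Q
    constructor
    · rintro ⟨hQp, hQN⟩
      have hQ0 : Q ≠ ⊥ := by
        rintro rfl
        exact ur_natCast_ne_zero (L := L) hN (by simpa using hQN)
      exact ⟨⟨⟨Q, hQp, hQ0⟩, hQN⟩, Set.mem_univ _, rfl⟩
    · rintro ⟨P, -, rfl⟩
      exact ⟨P.1.isPrime, P.2⟩
  have hinj : Function.Injective (fun P : UrS L N => P.1.asIdeal) := by
    intro P Q h
    exact Subtype.ext (HeightOneSpectrum.ext h)
  rw [himg, Set.ncard_image_of_injective _ hinj, Set.ncard_univ]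

/-- The rank of the image of the valuation vector. -/
lemma ur_finrank_range [Fintype (UrS L N)] :
    finrank ℤ (LinearMap.range (urVal L N)) = Fintype.card (UrS L N) := by
  classical
  choose x hx1 hx2 using fun P : UrS L N => ur_exists_generator P
  set g : (UrS L N → ℤ) →ₗ[ℤ] Additive (nUnits N L) :=
    Fintype.linearCombination ℤ (fun P => Additive.ofMul (x P)) with hg
  set m : (UrS L N → ℤ) →ₗ[ℤ] (UrS L N → ℤ) := (urVal L N) ∘ₗ g with hm
  have hc0 : ∀ P : UrS L N, urVal L N (Additive.ofMul (x P)) P ≠ 0 := by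
    intro P h
    exact hx1 P ((urVal_eq_zero_iff _ P).mp h)
  have hc1 : ∀ P Q : UrS L N, Q ≠ P → urVal L N (Additive.ofMul (x P)) Q = 0 := by
    intro P Q hQP
    rw [urVal_eq_zero_iff]
    exact hx2 P Q.1 (fun h => hQP (Subtype.ext h))
  have hmQ : ∀ (a : UrS L N → ℤ) (Q : UrS L N),
      m a Q = a Q * urVal L N (Additive.ofMul (x Q)) Q := by
    intro a Q
    simp only [hm, hg, LinearMap.comp_apply, Fintype.linearCombination_apply, map_sum, map_smul,
      Finset.sum_apply, Pi.smul_apply, smul_eq_mul]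
    rw [Finset.sum_eq_single Q]
    · intro P _ hPQ
      rw [hc1 P Q (Ne.symm hPQ), mul_zero]
    · intro h
      exact absurd (Finset.mem_univ Q) h
  have hminj : Function.Injective m := by
    rw [← LinearMap.ker_eq_bot, LinearMap.ker_eq_bot']
    intro a ha
    funext Q
    have := congrFun ha Q
    rw [hmQ, Pi.zero_apply, mul_eq_zero] at this
    exact this.resolve_right (hc0 Q)
  have hle : LinearMap.range m ≤ LinearMap.range (urVal L N) :=
    LinearMap.range_comp_le_range _ _
  have h1 : finrank ℤ (LinearMap.range m) = Fintype.card (UrS L N) := by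
    rw [LinearMap.finrank_range_of_inj hminj, Module.finrank_fintype_fun_eq_card]
  have h2 : finrank ℤ (LinearMap.range m) ≤ finrank ℤ (LinearMap.range (urVal L N)) :=
    Submodule.finrank_mono hle
  have h3 : finrank ℤ (LinearMap.range (urVal L N)) ≤ finrank ℤ (UrS L N → ℤ) :=
    Submodule.finrank_le _
  rw [Module.finrank_fintype_fun_eq_card] at h3
  omega

end UnitRank

/-- **PT-G1, piece U-rank**: Dirichlet's `S`-unit theorem. -/
theorem stmtUnitRank : StmtUnitRank := by
  intro L _ _ N hN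
  classical
  haveI : Finite (UrS L N) := ur_finite hN
  letI : Fintype (UrS L N) := Fintype.ofFinite _
  have hfin : Module.Finite ℤ (Additive (nUnits N L)) := by
    refine ⟨Submodule.fg_of_fg_map_of_fg_inf_ker (urVal L N) ?_ ?_⟩
    · exact IsNoetherian.noetherian _
    · rw [top_inf_eq, ← ur_range_incl, LinearMap.range_eq_map]
      exact Submodule.FG.map _ Module.Finite.fg_top
  refine ⟨hfin, ?_⟩
  have hker : finrank ℤ (LinearMap.ker (urVal L N)) = Units.rank L := by
    rw [← ur_range_incl, LinearMap.finrank_range_of_inj (urIncl_injective (L := L) (N := N)),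
      Units.finrank_eq]
  have hrange := ur_finrank_range (L := L) (N := N)
  have h1 := Submodule.finrank_quotient_add_finrank (LinearMap.ker (urVal L N))
  have h2 := (LinearMap.quotKerEquivRange (urVal L N)).finrank_eq
  have hn : (primesAbove N L).ncard = Fintype.card (UrS L N) := by
    rw [ur_ncard_primesAbove hN, Nat.card_eq_fintype_card]
  omega

end Fermat.Agent.PT.G1
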