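/-
PT-G1 / C-main: the Herbrand quotient of the `S`-idèle class module is `p`
(from HQ-four, U-main and J-main).
-/
import Fermat.Agent.PT.G1.Plan2

set_option autoImplicit false

namespace Fermat.Agent.PT.G1

open NumberField TensorProduct

section Abstract

variable {A B : Type*} [AddCommGroup A] [Module ℤ A] [AddCommGroup B] [Module ℤ B]

/-- `(σ - 1) * N = 0` when `σ ^ n = 1`. -/
lemma chq_sub_one_mul_nEnd (σ : Module.End ℤ A) (n : ℕ) (h : σ ^ n = 1) :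
    (σ - 1) * nEnd σ n = 0 := by
  rw [nEnd, mul_geom_sum, h, sub_self]

/-- `N * (σ - 1) = 0` when `σ ^ n = 1`. -/
lemma chq_nEnd_mul_sub_one (σ : Module.End ℤ A) (n : ℕ) (h : σ ^ n = 1) :
    nEnd σ n * (σ - 1) = 0 := by
  rw [nEnd, geom_sum_mul, h, sub_self]

/-- an intertwiner of `a` and `b` intertwines their powers -/
lemma chq_comm_pow (f : A →ₗ[ℤ] B) (a : Module.End ℤ A) (b : Module.End ℤ B)
    (h : f ∘ₗ a = b ∘ₗ f) (i : ℕ) : f ∘ₗ (a ^ i) = (b ^ i) ∘ₗ f := by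
  induction i with
  | zero => ext x; simp
  | succ i ih =>
    ext x
    have h1 : f ((a ^ i) (a x)) = (b ^ i) (f (a x)) := LinearMap.congr_fun ih (a x)
    have h2 : f (a x) = b (f x) := LinearMap.congr_fun h x
    simp only [LinearMap.comp_apply, pow_succ, Module.End.mul_apply]
    rw [h1, h2]

/-- an intertwiner of `a` and `b` intertwines `a - 1` and `b - 1` -/
lemma chq_comm_sub_one (f : A →ₗ[ℤ] B) (a : Module.End ℤ A) (b : Module.End ℤ B)
    (h : f ∘ₗ a = b ∘ₗ f) : f ∘ₗ (a - 1) = (b - 1) ∘ₗ f := by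
  ext x
  have h2 : f (a x) = b (f x) := LinearMap.congr_fun h x
  simp [LinearMap.sub_apply, map_sub, h2]

/-- an intertwiner of `a` and `b` intertwines the norms -/
lemma chq_comm_nEnd (f : A →ₗ[ℤ] B) (a : Module.End ℤ A) (b : Module.End ℤ B)
    (h : f ∘ₗ a = b ∘ₗ f) (n : ℕ) : f ∘ₗ (nEnd a n) = (nEnd b n) ∘ₗ f := by
  ext x
  simp only [nEnd, LinearMap.comp_apply, LinearMap.sum_apply, map_sum]
  refine Finset.sum_congr rfl fun i _ => ?_
  exact LinearMap.congr_fun (chq_comm_pow f a b h i) x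

end Abstract

section Concrete

variable (S : Finset Nat.Primes) {L : Type} [Field L] [NumberField L]

/-- the diagonal embedding of the `S`-units is injective when `S ≠ ∅` -/
lemma chq_jlDiagUnits_injective (hS : S.Nonempty) :
    Function.Injective (jlDiagUnits S L) := by
  obtain ⟨q⟩ := hS.coe_sort
  intro u v huv
  have h1 : (jlDiag S L) ((Additive.toMul u : nUnits (∏ q ∈ S, (q : ℕ)) L) : Lˣ) =
      (jlDiag S L) ((Additive.toMul v : nUnits (∏ q ∈ S, (q : ℕ)) L) : Lˣ) := huv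
  have h2 := congrFun h1 q
  have h3 : ((Algebra.TensorProduct.includeRight :
      L →ₐ[ℚ] semiAlg ((q : Nat.Primes) : ℕ) L)
        (((Additive.toMul u : nUnits (∏ q ∈ S, (q : ℕ)) L) : Lˣ) : L)) =
      ((Algebra.TensorProduct.includeRight :
      L →ₐ[ℚ] semiAlg ((q : Nat.Primes) : ℕ) L)
        (((Additive.toMul v : nUnits (∏ q ∈ S, (q : ℕ)) L) : Lˣ) : L)) :=
    congrArg Units.val h2
  have h4 := (Algebra.TensorProduct.includeRight :
      L →ₐ[ℚ] semiAlg ((q : Nat.Primes) : ℕ) L).toRingHom.injective h3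
  have h5 : (Additive.toMul u : nUnits (∏ q ∈ S, (q : ℕ)) L) = Additive.toMul v :=
    Subtype.ext (Units.ext h4)
  exact h5

/-- the diagonal embedding commutes with `σ` -/
lemma chq_jlDiagUnits_comm (σ : L ≃ₐ[ℚ] L) :
    (jlDiagUnits S L) ∘ₗ (nUnitsEnd (∏ q ∈ S, (q : ℕ)) (σ : L ≃+* L)) =
      (jlEnd S σ) ∘ₗ (jlDiagUnits S L) := by
  ext u q
  show (Algebra.TensorProduct.includeRight :
      L →ₐ[ℚ] semiAlg ((q : Nat.Primes) : ℕ) L) (σ _) =
    semiMap ((q : Nat.Primes) : ℕ) σ ((Algebra.TensorProduct.includeRight :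
      L →ₐ[ℚ] semiAlg ((q : Nat.Primes) : ℕ) L) _)
  simp [semiMap]

end Concrete

/-- `σ ^ p = 1`, `σ ≠ 1` for the underlying ring automorphism. -/
lemma chq_orderOf_toRingEquiv {L : Type} [Field L] [NumberField L] (p : ℕ) [Fact p.Prime]
    (σ : L ≃ₐ[ℚ] L) (h : orderOf σ = p) : orderOf (σ : L ≃+* L) = p := by
  have hpow : ∀ n : ℕ, ((σ : L ≃+* L)) ^ n = ((σ ^ n : L ≃ₐ[ℚ] L) : L ≃+* L) := by
    intro n
    induction n with
    | zero => rfl
    | succ n ih => rw [pow_succ, pow_succ, ih]; rfl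
  apply orderOf_eq_prime
  · rw [hpow, ← h, pow_orderOf_eq_one]; rfl
  · intro h1
    have h2 : σ = 1 := by
      ext x
      have := RingEquiv.congr_fun h1 x
      simpa using this
    rw [h2, orderOf_one] at h
    exact (Fact.out : p.Prime).one_lt.ne h

/-- **C-main**: the Herbrand quotient of the class module is `p`. -/
theorem stmtClassHQ_of (h4 : StmtFourTerm) (hU : StmtUnitsHQ) (hJ : StmtJMain) : StmtClassHQ := by
  intro p _ hp2 L _ _ σ hσ S hS C F _ _ _ _ _ σC σF π κ hσC hσF hπ hκ hker hrange hsurj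
  set N : ℕ := ∏ q ∈ S, (q : ℕ) with hN
  have hN0 : N ≠ 0 := Finset.prod_ne_zero_iff.2 fun q _ => (q.2).ne_zero
  have hE := hU p hp2 L (σ : L ≃+* L) (chq_orderOf_toRingEquiv p σ hσ) N hN0
  have hJ' := hJ p L σ hσ S
  obtain ⟨hE1, hE2⟩ := hE
  obtain ⟨hJ1, hJ2⟩ := hJ'
  refine ⟨hσC, ?_⟩
  have key := h4 (Additive (nUnits N L)) (Additive (JL S L)) C F
    (nUnitsEnd N (σ : L ≃+* L) - 1) (nEnd (nUnitsEnd N (σ : L ≃+* L)) p)
    (jlEnd S σ - 1) (nEnd (jlEnd S σ) p) (σC - 1) (nEnd σC p) (σF - 1) (nEnd σF p)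
    (jlDiagUnits S L) π κ
    (chq_sub_one_mul_nEnd _ p hE1) (chq_nEnd_mul_sub_one _ p hE1)
    (chq_sub_one_mul_nEnd _ p hJ1) (chq_nEnd_mul_sub_one _ p hJ1)
    (chq_sub_one_mul_nEnd _ p hσC) (chq_nEnd_mul_sub_one _ p hσC)
    (chq_sub_one_mul_nEnd _ p hσF) (chq_nEnd_mul_sub_one _ p hσF)
    (chq_jlDiagUnits_injective S hS) hker.symm hrange hsurj
    (chq_comm_sub_one _ _ _ (chq_jlDiagUnits_comm S σ))
    (chq_comm_nEnd _ _ _ (chq_jlDiagUnits_comm S σ) p)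
    (chq_comm_sub_one _ _ _ hπ) (chq_comm_nEnd _ _ _ hπ p)
    (chq_comm_sub_one _ _ _ hκ) (chq_comm_nEnd _ _ _ hκ p)
    _ _ hE2 hJ2
  have hp0 : (p : ℚ) ≠ 0 := Nat.cast_ne_zero.2 (Fact.out : p.Prime).ne_zero
  have hq : (p : ℚ) ^ (fixedPrimesAbove N (σ : L ≃+* L)).ncard /
      (p : ℚ) ^ (((fixedPrimesAbove N (σ : L ≃+* L)).ncard : ℤ) - 1) = p := by
    rw [zpow_sub₀ hp0, zpow_one, zpow_natCast]
    field_simp
  rw [hq] at key
  exact key

end Fermat.Agent.PT.G1
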