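/-
PT-G1 / HQ-four (helper59): the Herbrand quotient in a four-term exact sequence
`0 → E → J → C → F → 0` with `F` finite: `h(C) = h(J) / h(E)`.

`stmtFourTerm_of : StmtHexagon → StmtFinite → StmtFourTerm` (split at `I = im (J → C)`:
`0 → E → J → I → 0` and `0 → I → C → F → 0`).
-/
import Fermat.Agent.PT.G1.Plan

set_option autoImplicit false

namespace Fermat.Agent.PT.G1

/-- Abstract form: the sequence is split at a module `I` with `J ↠ I ↪ C`. -/
theorem four_aux (hHex : StmtHexagon) (hFin : StmtFinite)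
    {E J I C F : Type} [AddCommGroup E] [AddCommGroup J] [AddCommGroup I] [AddCommGroup C]
    [AddCommGroup F]
    {mE : Module ℤ E} {mJ : Module ℤ J} {mI : Module ℤ I} {mC : Module ℤ C} {mF : Module ℤ F}
    [Finite F]
    (DE NE : Module.End ℤ E) (DJ NJ : Module.End ℤ J) (DI NI : Module.End ℤ I)
    (DC NC : Module.End ℤ C) (DF NF : Module.End ℤ F)
    (f : E →ₗ[ℤ] J) (g' : J →ₗ[ℤ] I) (ι : I →ₗ[ℤ] C) (h : C →ₗ[ℤ] F)
    (hDNE : DE * NE = 0) (hNDE : NE * DE = 0) (hDNJ : DJ * NJ = 0) (hNDJ : NJ * DJ = 0)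
    (hDNC : DC * NC = 0) (hNDC : NC * DC = 0) (hDNF : DF * NF = 0) (hNDF : NF * DF = 0)
    (hf : Function.Injective f) (hfg : LinearMap.range f = LinearMap.ker g')
    (hg' : Function.Surjective g') (hι : Function.Injective ι)
    (hιh : LinearMap.range ι = LinearMap.ker h) (hh : Function.Surjective h)
    (cfD : f ∘ₗ DE = DJ ∘ₗ f) (cfN : f ∘ₗ NE = NJ ∘ₗ f)
    (cgD : g' ∘ₗ DJ = DI ∘ₗ g') (cgN : g' ∘ₗ NJ = NI ∘ₗ g')
    (cιD : ι ∘ₗ DI = DC ∘ₗ ι) (cιN : ι ∘ₗ NI = NC ∘ₗ ι)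
    (chD : h ∘ₗ DC = DF ∘ₗ h) (chN : h ∘ₗ NC = NF ∘ₗ h)
    (qE qJ : ℚ) (hE : HasHQ DE NE qE) (hJ : HasHQ DJ NJ qJ) : HasHQ DC NC (qJ / qE) := by
  have hDNI : DI * NI = 0 := by
    apply LinearMap.ext
    intro x
    apply hι
    have h1 : ι (DI (NI x)) = DC (NC (ι x)) := by
      have e1 := congrArg (fun φ : I →ₗ[ℤ] C => φ (NI x)) cιD
      have e2 := congrArg (fun φ : I →ₗ[ℤ] C => φ x) cιN
      simp only [LinearMap.comp_apply] at e1 e2
      rw [e1, e2]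
    have h2 : DC (NC (ι x)) = 0 := congrArg (fun φ : Module.End ℤ C => φ (ι x)) hDNC
    change ι (DI (NI x)) = ι 0
    rw [h1, h2, map_zero]
  have hNDI : NI * DI = 0 := by
    apply LinearMap.ext
    intro x
    apply hι
    have h1 : ι (NI (DI x)) = NC (DC (ι x)) := by
      have e1 := congrArg (fun φ : I →ₗ[ℤ] C => φ (DI x)) cιN
      have e2 := congrArg (fun φ : I →ₗ[ℤ] C => φ x) cιD
      simp only [LinearMap.comp_apply] at e1 e2
      rw [e1, e2]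
    have h2 : NC (DC (ι x)) = 0 := congrArg (fun φ : Module.End ℤ C => φ (ι x)) hNDC
    change ι (NI (DI x)) = ι 0
    rw [h1, h2, map_zero]
  have h1 : HasHQ DI NI (qJ / qE) :=
    (@hHex E J I _ _ _ mE mJ mI DE NE DJ NJ DI NI f g' hDNE hNDE hDNJ hNDJ hDNI hNDI hf hg' hfg
      cfD cfN cgD cgN qE qJ (qJ / qE)).2.1 hE hJ
  have hF : HasHQ DF NF 1 := @hFin F _ mF _ DF NF hDNF hNDF
  have h2 := (@hHex I C F _ _ _ mI mC mF DI NI DC NC DF NF ι h hDNI hNDI hDNC hNDC hDNF hNDF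
    hι hh hιh cιD cιN chD chN (qJ / qE) (qJ / qE) 1).1 h1 hF
  rwa [mul_one] at h2

theorem stmtFourTerm_of (hHex : StmtHexagon) (hFin : StmtFinite) : StmtFourTerm := by
  intro E J C F _ _ _ _ mE mJ mC mF _ DE NE DJ NJ DC NC DF NF f g h hDNE hNDE hDNJ hNDJ hDNC hNDC
    hDNF hNDF hf hfg hgh hh cfD cfN cgD cgN chD chN qE qJ hE hJ
  -- the image of `g` is stable under `DC`, `NC`
  have hDI : ∀ x ∈ LinearMap.range g, DC x ∈ LinearMap.range g := by
    rintro _ ⟨j, rfl⟩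
    exact ⟨DJ j, congrArg (fun φ : J →ₗ[ℤ] C => φ j) cgD⟩
  have hNI : ∀ x ∈ LinearMap.range g, NC x ∈ LinearMap.range g := by
    rintro _ ⟨j, rfl⟩
    exact ⟨NJ j, congrArg (fun φ : J →ₗ[ℤ] C => φ j) cgN⟩
  refine @four_aux hHex hFin E J ↥(LinearMap.range g) C F _ _ _ _ _ mE mJ
    (LinearMap.range g).module mC mF _ DE NE DJ NJ (DC.restrict hDI) (NC.restrict hNI) DC NC DF NF
    f g.rangeRestrict (LinearMap.range g).subtype h hDNE hNDE hDNJ hNDJ hDNC hNDC hDNF hNDF hf ?_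
    g.surjective_rangeRestrict (LinearMap.range g).injective_subtype ?_ hh cfD cfN ?_ ?_ ?_ ?_
    chD chN qE qJ hE hJ
  · exact hfg.trans (LinearMap.ker_rangeRestrict g).symm
  · rw [Submodule.range_subtype, hgh]
  · exact DFunLike.ext _ _ fun x => Subtype.ext (congrArg (fun φ : J →ₗ[ℤ] C => φ x) cgD)
  · exact DFunLike.ext _ _ fun x => Subtype.ext (congrArg (fun φ : J →ₗ[ℤ] C => φ x) cgN)
  · exact DFunLike.ext _ _ fun x => rfl
  · exact DFunLike.ext _ _ fun x => rfl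

end Fermat.Agent.PT.G1
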