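/-
PT-G1 / HQ-orbit (helper59): the Herbrand quotient of a semi-local module.

`stmtOrbit : StmtOrbit` — if `M = ∏_{t ∈ T} X t` and `σ` (`σ ^ p = 1`, `p` prime) permutes the
factors through a permutation `π` of `T`, `π ^ p = 1`, then `h(M, σ) = ∏_{π t = t} h(X t, σ|_{X t})`.

Proof.  `e` := projection onto the components at a set of representatives of the orbits of `π`.
Then `∑_{k<p} σ^k e σ^{-k} = 1` on the elements which vanish at the fixed points of `π`
("trace-one"), which gives `ker D = im N` and `ker N = im D` there (`D = σ - 1`, `N = ∑ σ^k`);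
so `ker D / im N` and `ker N / im D` are computed at the fixed points (`orb_hqCard_eq_prod`).
No scalar multiplication is used (only additive maps), so the `ℤ`-module instances do not matter.
-/
import Fermat.Agent.PT.G1.Plan

set_option autoImplicit false
set_option linter.unusedSectionVars false
set_option linter.unusedSimpArgs false

namespace Fermat.Agent.PT.G1

open Finset

section Core

variable {M : Type*} [AddCommGroup M] [Module ℤ M]

lemma orb_nEnd_apply (σ : Module.End ℤ M) (n : ℕ) (x : M) :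
    nEnd σ n x = ∑ i ∈ range n, (σ ^ i) x := by
  simp [nEnd, LinearMap.sum_apply]

lemma orb_sub_one_mul_nEnd (σ : Module.End ℤ M) (n : ℕ) : (σ - 1) * nEnd σ n = σ ^ n - 1 := by
  rw [nEnd]; exact mul_geom_sum σ n

lemma orb_nEnd_mul_sub_one (σ : Module.End ℤ M) (n : ℕ) : nEnd σ n * (σ - 1) = σ ^ n - 1 := by
  rw [nEnd]; exact geom_sum_mul σ n

lemma orb_pow_apply_of_fixed (σ : Module.End ℤ M) {x : M} (hx : σ x = x) (k : ℕ) :
    (σ ^ k) x = x := by
  induction k with
  | zero => rfl
  | succ k ih => rw [pow_succ, Module.End.mul_apply, hx, ih]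

/-- **trace-one lemma, (a)**: if `σ x = x` and `x = ∑ σ^k e σ'^k x` then `x = N (e x)`. -/
lemma orb_eq_nEnd_of_fixed (σ σ' e : Module.End ℤ M) (p : ℕ) (hσ' : σ' * σ = 1) (x : M)
    (hx : σ x = x) (hE : ∑ k ∈ range p, (σ ^ k) (e ((σ' ^ k) x)) = x) :
    nEnd σ p (e x) = x := by
  have hx' : σ' x = x := by
    have := congrArg (fun f : Module.End ℤ M => f x) hσ'
    simp only [Module.End.mul_apply, Module.End.one_apply] at this
    rwa [hx] at this
  rw [orb_nEnd_apply]
  conv_rhs => rw [← hE]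
  refine Finset.sum_congr rfl fun k _ => ?_
  rw [orb_pow_apply_of_fixed σ' hx' k]

/-- **trace-one lemma, (b)**: if `N x = 0` and `x = ∑ σ^k e σ'^k x` then `x ∈ im (σ - 1)`. -/
lemma orb_mem_range_of_nEnd_eq_zero (σ σ' e : Module.End ℤ M) (p : ℕ) (hp : 0 < p)
    (hσ' : σ' * σ = 1) (x : M)
    (hx : nEnd σ p x = 0) (hE : ∑ k ∈ range p, (σ ^ k) (e ((σ' ^ k) x)) = x) :
    x ∈ LinearMap.range (σ - 1 : Module.End ℤ M) := by
  -- `∑ σ'^k x = σ'^(p-1) N x = 0`
  have hpow : ∀ a b : ℕ, σ' ^ (a + b) * σ ^ b = σ' ^ a := by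
    intro a b
    induction b with
    | zero => simp
    | succ b ih =>
      rw [← add_assoc, pow_succ, pow_succ', mul_assoc, ← mul_assoc σ' σ, hσ', one_mul, ih]
  have hN' : ∑ k ∈ range p, (σ' ^ k) x = 0 := by
    have e1 : ∑ k ∈ range p, (σ' ^ k) x = (σ' ^ (p - 1)) (nEnd σ p x) := by
      rw [orb_nEnd_apply, map_sum, ← Finset.sum_range_reflect]
      refine Finset.sum_congr rfl fun k hk => ?_
      have hk' : k < p := Finset.mem_range.mp hk
      have := hpow (p - 1 - k) k
      rw [show p - 1 - k + k = p - 1 by omega] at this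
      rw [← Module.End.mul_apply, this]
    rw [e1, hx, map_zero]
  refine ⟨∑ k ∈ range p, nEnd σ k (e ((σ' ^ k) x)), ?_⟩
  rw [map_sum]
  have e2 : ∀ k, (σ - 1 : Module.End ℤ M) (nEnd σ k (e ((σ' ^ k) x)))
      = (σ ^ k) (e ((σ' ^ k) x)) - e ((σ' ^ k) x) := by
    intro k
    rw [← Module.End.mul_apply, orb_sub_one_mul_nEnd, LinearMap.sub_apply, Module.End.one_apply]
  simp only [e2]
  rw [Finset.sum_sub_distrib, hE, ← map_sum, hN', map_zero, sub_zero]

end Core

section Reps

variable {T : Type*}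

/-- the orbit of `t` under the powers of `π` -/
def orb_orbit (π : Equiv.Perm T) (t : T) : Set T := {u | ∃ k : ℕ, (π ^ k) t = u}

open Classical in
/-- choice of an element in a set (default `t₀`) -/
noncomputable def orb_pick (S : Set T) (t₀ : T) : T := if h : S.Nonempty then h.some else t₀

lemma orb_pick_mem {S : Set T} (h : S.Nonempty) (t₀ : T) : orb_pick S t₀ ∈ S := by
  rw [orb_pick, dif_pos h]; exact h.some_mem

lemma orb_pick_eq {S : Set T} (h : S.Nonempty) (t₀ t₁ : T) : orb_pick S t₀ = orb_pick S t₁ := by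
  rw [orb_pick, orb_pick, dif_pos h, dif_pos h]

/-- the chosen representative of the orbit of `t` -/
noncomputable def orb_rep (π : Equiv.Perm T) (t : T) : T := orb_pick (orb_orbit π t) t

lemma orb_orbit_nonempty (π : Equiv.Perm T) (t : T) : (orb_orbit π t).Nonempty := ⟨t, 0, rfl⟩

lemma orb_rep_mem (π : Equiv.Perm T) (t : T) : orb_rep π t ∈ orb_orbit π t :=
  orb_pick_mem (orb_orbit_nonempty π t) t

lemma orb_orbit_apply (π : Equiv.Perm T) {p : ℕ} (hp : 0 < p) (hπ : π ^ p = 1) (t : T) :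
    orb_orbit π (π t) = orb_orbit π t := by
  ext u
  constructor
  · rintro ⟨k, rfl⟩
    exact ⟨k + 1, by rw [pow_succ, Equiv.Perm.mul_apply]⟩
  · rintro ⟨k, rfl⟩
    refine ⟨k + (p - 1), ?_⟩
    rw [← Equiv.Perm.mul_apply, ← pow_succ, show k + (p - 1) + 1 = k + p by omega, pow_add, hπ,
      mul_one]

lemma orb_rep_apply (π : Equiv.Perm T) {p : ℕ} (hp : 0 < p) (hπ : π ^ p = 1) (t : T) :
    orb_rep π (π t) = orb_rep π t := by
  rw [orb_rep, orb_rep, orb_orbit_apply π hp hπ]
  exact orb_pick_eq (orb_orbit_nonempty π t) _ _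

lemma orb_rep_pow_apply (π : Equiv.Perm T) {p : ℕ} (hp : 0 < p) (hπ : π ^ p = 1) (k : ℕ) (t : T) :
    orb_rep π ((π ^ k) t) = orb_rep π t := by
  induction k with
  | zero => rfl
  | succ k ih => rw [pow_succ', Equiv.Perm.mul_apply, orb_rep_apply π hp hπ, ih]

/-- the set of chosen representatives -/
def orb_reps (π : Equiv.Perm T) : Set T := {u | orb_rep π u = u}

lemma orb_mem_image_iff (π : Equiv.Perm T) {p : ℕ} (hp : 0 < p) (hπ : π ^ p = 1) (k : ℕ) (t : T) :
    t ∈ (π ^ k) '' orb_reps π ↔ (π ^ k) (orb_rep π t) = t := by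
  constructor
  · rintro ⟨u, hu, rfl⟩
    rw [orb_rep_pow_apply π hp hπ, hu]
  · intro h
    refine ⟨orb_rep π t, ?_, h⟩
    show orb_rep π (orb_rep π t) = orb_rep π t
    conv_lhs => rw [← orb_rep_pow_apply π hp hπ k (orb_rep π t), h]

/-- a power `π ^ d`, `0 < d < p`, `p` prime, `π ^ p = 1`, has the same fixed points as `π` -/
lemma orb_fixed_of_pow_fixed (π : Equiv.Perm T) {p : ℕ} (hp : p.Prime) (hπ : π ^ p = 1)
    {d : ℕ} (hd0 : 0 < d) (hdp : d < p) {r : T} (hr : (π ^ d) r = r) : π r = r := by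
  have hcop : Nat.Coprime d p :=
    ((Nat.Prime.coprime_iff_not_dvd hp).mpr (Nat.not_dvd_of_pos_of_lt hd0 hdp)).symm
  have hb := Nat.gcd_eq_gcd_ab d p
  rw [hcop.gcd_eq_one, Nat.cast_one] at hb
  have e1 : π = (π ^ d) ^ (Nat.gcdA d p) := by
    have : π ^ (1 : ℤ) = (π ^ d) ^ (Nat.gcdA d p) * (π ^ p) ^ (Nat.gcdB d p) := by
      rw [hb, zpow_add, zpow_mul, zpow_mul, zpow_natCast, zpow_natCast]
    rwa [zpow_one, hπ, one_zpow, mul_one] at this
  rw [e1]
  exact Equiv.Perm.zpow_apply_eq_self_of_apply_eq_self hr _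

/-- for a non-fixed point, exactly one translate of the set of representatives contains it -/
lemma orb_exists_unique_index (π : Equiv.Perm T) {p : ℕ} (hp : p.Prime) (hπ : π ^ p = 1)
    {t : T} (ht : π t ≠ t) :
    ∃ k₀ ∈ range p, ∀ k ∈ range p, (t ∈ (π ^ k) '' orb_reps π ↔ k = k₀) := by
  obtain ⟨j, hj⟩ := orb_rep_mem π t
  have h1 : (π ^ (j * (p - 1))) (orb_rep π t) = t := by
    rw [← hj, ← Equiv.Perm.mul_apply, ← pow_add,
      show j * (p - 1) + j = p * j by
        have := hp.pos
        obtain ⟨q, rfl⟩ : ∃ q, p = q + 1 := ⟨p - 1, by omega⟩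
        simp only [Nat.add_sub_cancel]; ring,
      pow_mul, hπ, one_pow, Equiv.Perm.one_apply]
  have h2 : (π ^ (j * (p - 1) % p)) (orb_rep π t) = t := by
    rw [← pow_eq_pow_mod _ hπ]; exact h1
  have key : ∀ a b : ℕ, a < b → b < p → (π ^ a) (orb_rep π t) = t →
      (π ^ b) (orb_rep π t) = t → False := by
    intro a b hab hbp ha hb
    have e1 : (π ^ a) ((π ^ (b - a)) (orb_rep π t)) = (π ^ a) (orb_rep π t) := by
      rw [← Equiv.Perm.mul_apply, ← pow_add, show a + (b - a) = b by omega, hb, ha]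
    have e2 := (π ^ a).injective e1
    have e3 := orb_fixed_of_pow_fixed π hp hπ (by omega : 0 < b - a) (by omega) e2
    apply ht
    rw [← ha, ← Equiv.Perm.mul_apply, ← pow_succ', pow_succ, Equiv.Perm.mul_apply, e3]
  refine ⟨j * (p - 1) % p, Finset.mem_range.mpr (Nat.mod_lt _ hp.pos), fun k hk => ?_⟩
  rw [orb_mem_image_iff π hp.pos hπ]
  constructor
  · intro h
    by_contra hne
    rcases Nat.lt_or_gt_of_ne hne with hlt | hgt
    · exact key _ _ hlt (Nat.mod_lt _ hp.pos) h h2
    · exact key _ _ hgt (Finset.mem_range.mp hk) h2 h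
  · rintro rfl
    exact h2

end Reps

section Proj

variable {T : Type*} {X : T → Type*} [∀ t, AddCommGroup (X t)] [∀ t, Module ℤ (X t)]

open Classical in
/-- projection onto the components in `S`, as an additive map -/
noncomputable def orb_projAdd (S : Set T) : (∀ t, X t) →+ (∀ t, X t) where
  toFun x t := if t ∈ S then x t else 0
  map_zero' := by
    funext t
    by_cases h : t ∈ S <;> simp [h]
  map_add' x y := by
    funext t
    by_cases h : t ∈ S <;> simp [h]

/-- projection onto the components in `S` -/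
noncomputable def orb_proj (S : Set T) : Module.End ℤ (∀ t, X t) :=
  (orb_projAdd S).toIntLinearMap

lemma orb_proj_apply_of_mem {S : Set T} {t : T} (h : t ∈ S) (x : ∀ t, X t) :
    orb_proj S x t = x t := by
  simp [orb_proj, orb_projAdd, h]

lemma orb_proj_apply_of_not_mem {S : Set T} {t : T} (h : t ∉ S) (x : ∀ t, X t) :
    orb_proj S x t = 0 := by
  simp [orb_proj, orb_projAdd, h]

/-- `σ` moves the component at `t` to the component at `π t` -/
def OrbCompat (π : Equiv.Perm T) (σ : Module.End ℤ (∀ t, X t)) : Prop :=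
  ∀ (t : T) (x : ∀ t, X t), x t = 0 → σ x (π t) = 0

lemma OrbCompat.one : OrbCompat (X := X) (1 : Equiv.Perm T) 1 := fun _ _ h => h

lemma OrbCompat.mul {π π' : Equiv.Perm T} {σ σ' : Module.End ℤ (∀ t, X t)}
    (h : OrbCompat π σ) (h' : OrbCompat π' σ') : OrbCompat (π * π') (σ * σ') := by
  intro t x hx
  rw [Equiv.Perm.mul_apply, Module.End.mul_apply]
  exact h _ _ (h' t x hx)

lemma OrbCompat.pow {π : Equiv.Perm T} {σ : Module.End ℤ (∀ t, X t)}
    (h : OrbCompat π σ) (k : ℕ) : OrbCompat (π ^ k) (σ ^ k) := by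
  induction k with
  | zero => exact OrbCompat.one
  | succ k ih => rw [pow_succ, pow_succ]; exact ih.mul h

lemma OrbCompat.comm {π : Equiv.Perm T} {σ : Module.End ℤ (∀ t, X t)}
    (h : OrbCompat π σ) (S : Set T) (x : ∀ t, X t) :
    σ (orb_proj S x) = orb_proj (π '' S) (σ x) := by
  funext t
  obtain ⟨t', rfl⟩ := π.surjective t
  by_cases ht : t' ∈ S
  · rw [orb_proj_apply_of_mem (Set.mem_image_of_mem π ht)]
    have h0 : (x - orb_proj S x) t' = 0 := by
      rw [Pi.sub_apply, orb_proj_apply_of_mem ht, sub_self]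
    have := h t' _ h0
    rw [map_sub, Pi.sub_apply, sub_eq_zero] at this
    exact this.symm
  · have ht2 : π t' ∉ π '' S := by
      rintro ⟨u, hu, hut⟩
      exact ht (π.injective hut ▸ hu)
    rw [orb_proj_apply_of_not_mem ht2]
    exact h t' _ (orb_proj_apply_of_not_mem ht x)

/-- the sum of the projections onto the translates of the set of representatives is the
identity on the elements which vanish at the fixed points -/
lemma orb_sum_proj (π : Equiv.Perm T) {p : ℕ} (hp : p.Prime) (hπ : π ^ p = 1)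
    (x : ∀ t, X t) (hx : ∀ t, π t = t → x t = 0) :
    ∑ k ∈ range p, orb_proj ((π ^ k) '' orb_reps π) x = x := by
  funext t
  rw [Finset.sum_apply]
  by_cases ht : π t = t
  · rw [hx t ht]
    refine Finset.sum_eq_zero fun k _ => ?_
    by_cases h : t ∈ (π ^ k) '' orb_reps π
    · rw [orb_proj_apply_of_mem h, hx t ht]
    · rw [orb_proj_apply_of_not_mem h]
  · obtain ⟨k₀, hk₀, huniq⟩ := orb_exists_unique_index π hp hπ ht
    rw [Finset.sum_eq_single_of_mem k₀ hk₀]
    · exact orb_proj_apply_of_mem ((huniq k₀ hk₀).mpr rfl) x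
    · intro k hk hne
      exact orb_proj_apply_of_not_mem (fun h => hne ((huniq k hk).mp h)) x

/-- the trace-one identity: `∑ σ^k e σ'^k x = x` for `x` vanishing at the fixed points -/
lemma orb_trace_one {π : Equiv.Perm T} {σ σ' : Module.End ℤ (∀ t, X t)} (h : OrbCompat π σ)
    {p : ℕ} (hp : p.Prime) (hπ : π ^ p = 1) (hσσ' : σ * σ' = 1) (hσ'σ : σ' * σ = 1)
    (x : ∀ t, X t) (hx : ∀ t, π t = t → x t = 0) :
    ∑ k ∈ range p, (σ ^ k) (orb_proj (orb_reps π) ((σ' ^ k) x)) = x := by
  conv_rhs => rw [← orb_sum_proj π hp hπ x hx]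
  refine Finset.sum_congr rfl fun k _ => ?_
  have hcomm : Commute σ σ' := by
    rw [Commute, SemiconjBy, hσσ', hσ'σ]
  have e1 : (σ ^ k) ((σ' ^ k) x) = x := by
    rw [← Module.End.mul_apply, ← hcomm.mul_pow, hσσ', one_pow, Module.End.one_apply]
  rw [(h.pow k).comm, e1]

end Proj

/-- **Counting lemma** (module instances are implicit, to be found by unification): a family
of additive maps `φ s : A → B s` which detects `I` through the `J s` and is jointly surjective
modulo the `J s` identifies `A / I` with `∏ B s / J s`. -/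
theorem orb_card_quot_eq_prod {F : Type} [Fintype F] {A : Type} [AddCommGroup A]
    {mA : Module ℤ A} (I : Submodule ℤ A)
    {B : F → Type} [∀ s, AddCommGroup (B s)] {mB : ∀ s, Module ℤ (B s)}
    (J : ∀ s, Submodule ℤ (B s)) (φ : ∀ s, A →+ B s)
    (h1 : ∀ s x, x ∈ I → φ s x ∈ J s)
    (h2 : ∀ x, (∀ s, φ s x ∈ J s) → x ∈ I)
    (h3 : ∀ b : ∀ s, B s, ∃ x : A, ∀ s, φ s x - b s ∈ J s) :
    Nat.card (A ⧸ I) = ∏ s, Nat.card (B s ⧸ J s) := by
  classical
  let Φ : (A ⧸ I) → ∀ s, (B s ⧸ J s) :=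
    fun q s => Quotient.liftOn' q (fun x => (Submodule.Quotient.mk (φ s x) : B s ⧸ J s)) (by
      intro a b hab
      rw [Submodule.Quotient.eq, ← map_sub]
      exact h1 s _ ((Submodule.quotientRel_def I).mp hab))
  have hΦ : ∀ (x : A) (s : F),
      Φ (Submodule.Quotient.mk x) s = Submodule.Quotient.mk (φ s x) := fun x s => rfl
  have hinj : Function.Injective Φ := by
    intro q q' hqq'
    obtain ⟨x, rfl⟩ := Submodule.Quotient.mk_surjective _ q
    obtain ⟨x', rfl⟩ := Submodule.Quotient.mk_surjective _ q'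
    rw [Submodule.Quotient.eq]
    apply h2
    intro s
    have := congrFun hqq' s
    rw [hΦ, hΦ, Submodule.Quotient.eq, ← map_sub] at this
    exact this
  have hsurj : Function.Surjective Φ := by
    intro q
    choose y hy using fun s => Submodule.Quotient.mk_surjective _ (q s)
    obtain ⟨x, hx⟩ := h3 y
    refine ⟨Submodule.Quotient.mk x, ?_⟩
    funext s
    rw [hΦ, ← hy s, Submodule.Quotient.eq]
    exact hx s
  rw [Nat.card_congr (Equiv.ofBijective Φ ⟨hinj, hsurj⟩), Nat.card_pi]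

section Card

variable {T : Type} [Fintype T] {X : T → Type} [∀ t, AddCommGroup (X t)] [∀ t, Module ℤ (X t)]

open Classical in
/-- extension by zero of a family indexed by the points satisfying `P` -/
noncomputable def orb_ext (P : T → Prop) (y : ∀ s : {t // P t}, X s) : ∀ t, X t :=
  fun t => if h : P t then y ⟨t, h⟩ else 0

lemma orb_ext_apply_of_pos {P : T → Prop} (y : ∀ s : {t // P t}, X s) {t : T} (h : P t) :
    orb_ext P y t = y ⟨t, h⟩ := by
  simp [orb_ext, h]

lemma orb_ext_apply_of_neg {P : T → Prop} (y : ∀ s : {t // P t}, X s) {t : T} (h : ¬ P t) :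
    orb_ext P y t = 0 := by
  simp [orb_ext, h]

/-- **Localisation of the Herbrand numbers at a set of components.**  If `f`, `g` act
componentwise at the points of `P`, `f` preserves the elements supported in `P`, and the part
of `ker f` supported outside `P` is in `im g`, then `|ker f / im g|` is the product of the
local numbers at the points of `P`. -/
theorem orb_hqCard_eq_prod (P : T → Prop) [DecidablePred P]
    (f g : Module.End ℤ (∀ t, X t)) (fs gs : ∀ t, Module.End ℤ (X t))
    (hfg : f * g = 0)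
    (hf : ∀ (t : T), P t → ∀ (x : ∀ t, X t), f x t = fs t (x t))
    (hg : ∀ (t : T), P t → ∀ (x : ∀ t, X t), g x t = gs t (x t))
    (hf0 : ∀ x : ∀ t, X t, (∀ t, ¬ P t → x t = 0) → ∀ t, ¬ P t → f x t = 0)
    (hker : ∀ x : ∀ t, X t, (∀ t, P t → x t = 0) → f x = 0 → x ∈ LinearMap.range g) :
    hqCard f g = ∏ t ∈ Finset.univ.filter P, hqCard (fs t) (gs t) := by
  classical
  have hmemK : ∀ (x : ↥(LinearMap.ker f)) (s : {t // P t}),
      x.1 s.1 ∈ LinearMap.ker (fs s) := by
    intro x s
    rw [LinearMap.mem_ker, ← hf s s.2 x.1, LinearMap.mem_ker.mp x.2]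
    rfl
  -- the component maps
  let φ : ∀ s : {t // P t}, ↥(LinearMap.ker f) →+ ↥(LinearMap.ker (fs s)) :=
    fun s =>
      { toFun := fun x => ⟨x.1 s.1, hmemK x s⟩
        map_zero' := rfl
        map_add' := fun _ _ => rfl }
  have hφ : ∀ (s : {t // P t}) (x : ↥(LinearMap.ker f)),
      ((φ s x : ↥(LinearMap.ker (fs s))) : X s) = x.1 s.1 := fun s x => rfl
  have key := orb_card_quot_eq_prod (F := {t // P t})
    (B := fun s : {t // P t} => ↥(LinearMap.ker (fs s)))
    (mA := (LinearMap.ker f).module) (mB := fun s : {t // P t} => (LinearMap.ker (fs s)).module)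
    ((LinearMap.range g).submoduleOf (LinearMap.ker f))
    (fun s : {t // P t} => (LinearMap.range (gs s)).submoduleOf (LinearMap.ker (fs s))) φ
    (by
      rintro s x ⟨z, hz⟩
      exact ⟨z s.1, by rw [← hg s.1 s.2 z, hz]; rfl⟩)
    (by
      intro x hx
      have hx' : ∀ s : {t // P t}, ∃ y : X s, gs s y = x.1 s.1 := fun s => hx s
      choose y hy using hx'
      have h1 : ∀ t, P t → (x.1 - g (orb_ext P y)) t = 0 := by
        intro t ht
        rw [Pi.sub_apply, hg t ht, orb_ext_apply_of_pos _ ht, hy ⟨t, ht⟩, sub_self]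
      have h2 : f (x.1 - g (orb_ext P y)) = 0 := by
        rw [map_sub, LinearMap.mem_ker.mp x.2, ← Module.End.mul_apply, hfg,
          LinearMap.zero_apply, sub_zero]
      obtain ⟨z, hz⟩ := hker _ h1 h2
      refine ⟨z + orb_ext P y, ?_⟩
      rw [map_add, hz, sub_add_cancel]
      rfl)
    (by
      intro b
      have hx : f (orb_ext P (fun s => (b s : X s))) = 0 := by
        funext t
        by_cases ht : P t
        · rw [hf t ht, orb_ext_apply_of_pos _ ht]
          exact LinearMap.mem_ker.mp (b ⟨t, ht⟩).2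
        · exact hf0 _ (fun t ht => orb_ext_apply_of_neg _ ht) t ht
      refine ⟨⟨_, LinearMap.mem_ker.mpr hx⟩, fun s => ?_⟩
      have : φ s ⟨_, LinearMap.mem_ker.mpr hx⟩ = b s := by
        apply Subtype.ext
        rw [hφ]
        exact orb_ext_apply_of_pos (X := X) (fun s => (b s : X s)) s.2
      rw [this, sub_self]
      exact Submodule.zero_mem _)
  rw [hqCard, key]
  exact (Finset.prod_subtype (Finset.univ.filter P) (by simp)
    (fun t => hqCard (fs t) (gs t))).symm

end Card

/-- **HQ-orbit**: the Herbrand quotient of a semi-local module is the product of the Herbrand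
quotients at the fixed points. -/
theorem stmtOrbit : StmtOrbit := by
  intro p _ T _ _ X _ _ π σ τ q hπ hσ H1 H2 hq
  have hp : p.Prime := Fact.out
  have hp1 : p - 1 + 1 = p := Nat.sub_add_cancel hp.pos
  have hσσ' : σ * σ ^ (p - 1) = 1 := by rw [← pow_succ', hp1, hσ]
  have hσ'σ : σ ^ (p - 1) * σ = 1 := by rw [← pow_succ, hp1, hσ]
  have hcompat : OrbCompat π σ := H1
  have hDN : (σ - 1) * nEnd σ p = 0 := by rw [orb_sub_one_mul_nEnd, hσ, sub_self]
  have hND : nEnd σ p * (σ - 1) = 0 := by rw [orb_nEnd_mul_sub_one, hσ, sub_self]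
  -- componentwise action at the fixed points
  have hpow : ∀ (k : ℕ) (t : T), π t = t → ∀ x : ∀ t, X t, (σ ^ k) x t = ((τ t) ^ k) (x t) := by
    intro k t ht
    induction k with
    | zero => intro x; rfl
    | succ k ih =>
      intro x
      rw [pow_succ, Module.End.mul_apply, ih, H2 t ht, pow_succ, Module.End.mul_apply]
  have hDs : ∀ (t : T), π t = t → ∀ x : ∀ t, X t,
      (σ - 1 : Module.End ℤ (∀ t, X t)) x t = (τ t - 1 : Module.End ℤ (X t)) (x t) := by
    intro t ht x
    rw [LinearMap.sub_apply, Module.End.one_apply, Pi.sub_apply, H2 t ht, LinearMap.sub_apply,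
      Module.End.one_apply]
  have hNs : ∀ (t : T), π t = t → ∀ x : ∀ t, X t, nEnd σ p x t = nEnd (τ t) p (x t) := by
    intro t ht x
    rw [orb_nEnd_apply, orb_nEnd_apply, Finset.sum_apply]
    exact Finset.sum_congr rfl fun k _ => hpow k t ht x
  -- the elements supported at the fixed points
  have hσ0 : ∀ x : ∀ t, X t, (∀ t, ¬ π t = t → x t = 0) → ∀ t, ¬ π t = t → σ x t = 0 := by
    intro x hx t ht
    obtain ⟨t', rfl⟩ := π.surjective t
    exact H1 t' x (hx t' fun h => ht (congrArg π h))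
  have hσk0 : ∀ (k : ℕ) (x : ∀ t, X t), (∀ t, ¬ π t = t → x t = 0) →
      ∀ t, ¬ π t = t → (σ ^ k) x t = 0 := by
    intro k
    induction k with
    | zero => intro x hx t ht; exact hx t ht
    | succ k ih =>
      intro x hx t ht
      rw [pow_succ', Module.End.mul_apply]
      exact hσ0 _ (ih x hx) t ht
  have hD0 : ∀ x : ∀ t, X t, (∀ t, ¬ π t = t → x t = 0) →
      ∀ t, ¬ π t = t → (σ - 1 : Module.End ℤ (∀ t, X t)) x t = 0 := by
    intro x hx t ht
    rw [LinearMap.sub_apply, Module.End.one_apply, Pi.sub_apply, hσ0 x hx t ht, hx t ht, sub_zero]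
  have hN0 : ∀ x : ∀ t, X t, (∀ t, ¬ π t = t → x t = 0) →
      ∀ t, ¬ π t = t → nEnd σ p x t = 0 := by
    intro x hx t ht
    rw [orb_nEnd_apply, Finset.sum_apply]
    exact Finset.sum_eq_zero fun k _ => hσk0 k x hx t ht
  -- the elements supported outside the fixed points
  have hkerD : ∀ x : ∀ t, X t, (∀ t, π t = t → x t = 0) →
      (σ - 1 : Module.End ℤ (∀ t, X t)) x = 0 → x ∈ LinearMap.range (nEnd σ p) := by
    intro x hx hDx
    have hfix : σ x = x := by
      rw [LinearMap.sub_apply, Module.End.one_apply, sub_eq_zero] at hDx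
      exact hDx
    exact ⟨orb_proj (orb_reps π) x, orb_eq_nEnd_of_fixed σ (σ ^ (p - 1)) _ p hσ'σ x hfix
      (orb_trace_one hcompat hp hπ hσσ' hσ'σ x hx)⟩
  have hkerN : ∀ x : ∀ t, X t, (∀ t, π t = t → x t = 0) →
      nEnd σ p x = 0 → x ∈ LinearMap.range (σ - 1 : Module.End ℤ (∀ t, X t)) :=
    fun x hx hNx => orb_mem_range_of_nEnd_eq_zero σ (σ ^ (p - 1)) _ p hp.pos hσ'σ x hNx
      (orb_trace_one hcompat hp hπ hσσ' hσ'σ x hx)
  have e1 := orb_hqCard_eq_prod (fun t => π t = t) (σ - 1) (nEnd σ p) (fun t => τ t - 1)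
    (fun t => nEnd (τ t) p) hDN hDs hNs hD0 hkerD
  have e2 := orb_hqCard_eq_prod (fun t => π t = t) (nEnd σ p) (σ - 1) (fun t => nEnd (τ t) p)
    (fun t => τ t - 1) hND hNs hDs hN0 hkerN
  refine ⟨hσ, ?_, ?_, ?_⟩
  · rw [e1]
    exact Finset.prod_ne_zero_iff.mpr fun t ht => (hq t (Finset.mem_filter.mp ht).2).2.1
  · rw [e2]
    exact Finset.prod_ne_zero_iff.mpr fun t ht => (hq t (Finset.mem_filter.mp ht).2).2.2.1
  · rw [e1, e2, Nat.cast_prod, Nat.cast_prod, ← Finset.prod_mul_distrib]
    exact Finset.prod_congr rfl fun t ht => (hq t (Finset.mem_filter.mp ht).2).2.2.2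

end Fermat.Agent.PT.G1
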