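import Fermat.Agent.PT.G1.Plan2
import Fermat.Agent.PT.G1.Finite

/-!
# PT-G1, piece J-tens: the Herbrand quotient of `(ℚ_q ⊗ L)ˣ`

`stmtTensorHQ_of : StmtOrbit → StmtLocalHQ → StmtTensorHQ`.

Part 1: transport of `HasHQc` along a linear equivalence.
Part 2: a reduced Artinian ring `A` with an automorphism `s`, `s ^ p = 1`: the units of `A` are the
product of the units of the residue fields, `s` permutes the factors (HQ-orbit).
Part 3: `A = ℚ_q ⊗ L`.
-/

set_option autoImplicit false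

namespace Fermat.Agent.PT.G1

/-! ## Part 1: transport -/

section transport

variable {M M' : Type*} [AddCommGroup M] [AddCommGroup M'] [Module ℤ M] [Module ℤ M']

theorem tens_comp_pow (e : M →ₗ[ℤ] M') (σ : Module.End ℤ M) (σ' : Module.End ℤ M')
    (h : e ∘ₗ σ = σ' ∘ₗ e) (k : ℕ) : e ∘ₗ (σ ^ k) = (σ' ^ k) ∘ₗ e := by
  induction k with
  | zero => rfl
  | succ k ih =>
    rw [pow_succ, pow_succ]
    ext x
    have h1 : e (σ x) = σ' (e x) := LinearMap.congr_fun h x
    have h2 : e ((σ ^ k) (σ x)) = (σ' ^ k) (e (σ x)) := LinearMap.congr_fun ih (σ x)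
    change e ((σ ^ k) (σ x)) = (σ' ^ k) (σ' (e x))
    rw [h2, h1]

theorem tens_comp_nEnd (e : M →ₗ[ℤ] M') (σ : Module.End ℤ M) (σ' : Module.End ℤ M')
    (h : e ∘ₗ σ = σ' ∘ₗ e) (n : ℕ) : e ∘ₗ (nEnd σ n) = (nEnd σ' n) ∘ₗ e := by
  unfold nEnd
  ext x
  simp only [LinearMap.comp_apply, LinearMap.sum_apply, map_sum]
  refine Finset.sum_congr rfl fun i _ => ?_
  exact LinearMap.congr_fun (tens_comp_pow e σ σ' h i) x

theorem tens_comp_sub_one (e : M →ₗ[ℤ] M') (σ : Module.End ℤ M) (σ' : Module.End ℤ M')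
    (h : e ∘ₗ σ = σ' ∘ₗ e) : e ∘ₗ (σ - 1) = (σ' - 1) ∘ₗ e := by
  ext x
  have h1 : e (σ x) = σ' (e x) := LinearMap.congr_fun h x
  simp only [LinearMap.comp_apply, LinearMap.sub_apply, Module.End.one_apply, map_sub, h1]

/-- transport of the Herbrand quotient along an isomorphism -/
theorem tens_hasHQc_congr (e : M ≃ₗ[ℤ] M') (σ : Module.End ℤ M) (σ' : Module.End ℤ M')
    (h : e.toLinearMap ∘ₗ σ = σ' ∘ₗ e.toLinearMap) (n : ℕ) (q : ℚ) (H : HasHQc σ' n q) :
    HasHQc σ n q := by
  obtain ⟨H1, H2, H3, H4⟩ := H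
  have hD := tens_comp_sub_one e.toLinearMap σ σ' h
  have hN := tens_comp_nEnd e.toLinearMap σ σ' h n
  have c1 : hqCard (σ - 1) (nEnd σ n) = hqCard (σ' - 1) (nEnd σ' n) :=
    fin_card_quot_congr (σ - 1) (nEnd σ n) (σ' - 1) (nEnd σ' n) e hD hN
  have c2 : hqCard (nEnd σ n) (σ - 1) = hqCard (nEnd σ' n) (σ' - 1) :=
    fin_card_quot_congr (nEnd σ n) (σ - 1) (nEnd σ' n) (σ' - 1) e hN hD
  refine ⟨?_, ?_, ?_, ?_⟩
  · ext x
    apply e.injective
    have := LinearMap.congr_fun (tens_comp_pow e.toLinearMap σ σ' h n) x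
    simp only [LinearMap.comp_apply, LinearEquiv.coe_coe] at this
    rw [this, H1]
    rfl
  · rw [c1]; exact H2
  · rw [c2]; exact H3
  · rw [c1, c2]; exact H4

end transport

/-! ## Part 2: reduced Artinian rings -/

theorem tens_unitsEnd_apply {R : Type*} [CommMonoid R] (s : R →* R) (u : Rˣ) :
    unitsEnd s (Additive.ofMul u) = Additive.ofMul (Units.map s u) := rfl

section artinian

variable (A : Type) [CommRing A] [IsArtinianRing A] [IsReduced A]

/-- the units of a reduced Artinian ring are the product of the units of its residue fields -/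
noncomputable def tensUnitsEquiv : Aˣ ≃* (∀ t : MaximalSpectrum A, (A ⧸ t.asIdeal)ˣ) :=
  (Units.mapEquiv (IsArtinianRing.equivPi A).toRingEquiv.toMulEquiv).trans MulEquiv.piUnits

theorem tensUnitsEquiv_apply (u : Aˣ) (t : MaximalSpectrum A) :
    ((tensUnitsEquiv A u t : (A ⧸ t.asIdeal)ˣ) : A ⧸ t.asIdeal) =
      Ideal.Quotient.mk t.asIdeal (u : A) := by
  simp [tensUnitsEquiv, IsArtinianRing.equivPi_apply]

/-- additive version -/
noncomputable def tensAddEquiv :
    Additive Aˣ ≃+ (∀ t : MaximalSpectrum A, Additive (A ⧸ t.asIdeal)ˣ) where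
  toFun x t := Additive.ofMul (tensUnitsEquiv A (Additive.toMul x) t)
  invFun y := Additive.ofMul ((tensUnitsEquiv A).symm fun t => Additive.toMul (y t))
  left_inv x := by
    apply Additive.toMul.injective
    simp
  right_inv y := by
    funext t
    simp
  map_add' x y := by
    funext t
    simp [map_mul]

theorem tensAddEquiv_apply (u : Aˣ) (t : MaximalSpectrum A) :
    ((Additive.toMul (tensAddEquiv A (Additive.ofMul u) t) : (A ⧸ t.asIdeal)ˣ) : A ⧸ t.asIdeal) =
      Ideal.Quotient.mk t.asIdeal (u : A) :=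
  tensUnitsEquiv_apply A u t

/-- linear version -/
noncomputable def tensLin :
    Additive Aˣ ≃ₗ[ℤ] (∀ t : MaximalSpectrum A, Additive (A ⧸ t.asIdeal)ˣ) :=
  (tensAddEquiv A).toIntLinearEquiv

theorem tensLin_apply (u : Aˣ) (t : MaximalSpectrum A) :
    ((Additive.toMul (tensLin A (Additive.ofMul u) t) : (A ⧸ t.asIdeal)ˣ) : A ⧸ t.asIdeal) =
      Ideal.Quotient.mk t.asIdeal (u : A) :=
  tensUnitsEquiv_apply A u t

/-- the conjugate of `unitsEnd s` on the product -/
noncomputable def tensConj (s : A →* A) :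
    Module.End ℤ (∀ t : MaximalSpectrum A, Additive (A ⧸ t.asIdeal)ˣ) :=
  (tensLin A).toLinearMap ∘ₗ unitsEnd s ∘ₗ (tensLin A).symm.toLinearMap

theorem tensLin_comp (s : A →* A) :
    (tensLin A).toLinearMap ∘ₗ unitsEnd s = tensConj A s ∘ₗ (tensLin A).toLinearMap := by
  ext x
  simp [tensConj]

theorem tensConj_apply (s : A →* A) (u : Aˣ) (t : MaximalSpectrum A) :
    ((Additive.toMul (tensConj A s (tensLin A (Additive.ofMul u)) t) : (A ⧸ t.asIdeal)ˣ) :
      A ⧸ t.asIdeal) = Ideal.Quotient.mk t.asIdeal (s (u : A)) := by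
  have h : tensConj A s (tensLin A (Additive.ofMul u)) =
      tensLin A (Additive.ofMul (Units.map s u)) := by
    simp [tensConj, tens_unitsEnd_apply]
  rw [h, tensLin_apply]
  rfl

end artinian


section perm

variable (A : Type) [CommRing A]

/-- the action of a ring automorphism on the maximal spectrum: `t ↦ s(t)` -/
noncomputable def tensPerm (s : A ≃+* A) : Equiv.Perm (MaximalSpectrum A) where
  toFun t := ⟨Ideal.comap s.symm t.asIdeal,
    haveI := t.isMaximal
    Ideal.comap_isMaximal_of_equiv s.symm⟩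
  invFun t := ⟨Ideal.comap s t.asIdeal,
    haveI := t.isMaximal
    Ideal.comap_isMaximal_of_equiv s⟩
  left_inv t := by
    apply MaximalSpectrum.ext
    ext x
    change s.symm (s x) ∈ t.asIdeal ↔ x ∈ t.asIdeal
    rw [RingEquiv.symm_apply_apply]
  right_inv t := by
    apply MaximalSpectrum.ext
    ext x
    change s (s.symm x) ∈ t.asIdeal ↔ x ∈ t.asIdeal
    rw [RingEquiv.apply_symm_apply]

theorem tens_mem_tensPerm (s : A ≃+* A) (t : MaximalSpectrum A) (x : A) :
    x ∈ (tensPerm A s t).asIdeal ↔ s.symm x ∈ t.asIdeal := Iff.rfl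

theorem tens_apply_mem_tensPerm (s : A ≃+* A) (t : MaximalSpectrum A) {x : A} (hx : x ∈ t.asIdeal) :
    s x ∈ (tensPerm A s t).asIdeal := by
  rw [tens_mem_tensPerm, RingEquiv.symm_apply_apply]
  exact hx

theorem tensPerm_eq_self_iff (s : A ≃+* A) (t : MaximalSpectrum A) :
    tensPerm A s t = t ↔ ∀ x ∈ t.asIdeal, s x ∈ t.asIdeal := by
  constructor
  · intro h x hx
    have := tens_apply_mem_tensPerm A s t hx
    rwa [h] at this
  · intro h
    apply MaximalSpectrum.ext
    have hle : (tensPerm A s t).asIdeal ≤ t.asIdeal := by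
      intro x hx
      rw [tens_mem_tensPerm] at hx
      have := h _ hx
      rwa [RingEquiv.apply_symm_apply] at this
    exact (tensPerm A s t).isMaximal.eq_of_le t.isMaximal.ne_top hle

theorem tens_mem_tensPerm_pow (s : A ≃+* A) (k : ℕ) (t : MaximalSpectrum A) (x : A) :
    x ∈ ((tensPerm A s ^ k) t).asIdeal ↔ (⇑s.symm)^[k] x ∈ t.asIdeal := by
  induction k generalizing x with
  | zero => rfl
  | succ k ih =>
    rw [pow_succ', Equiv.Perm.mul_apply, tens_mem_tensPerm, ih, Function.iterate_succ_apply]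

theorem tensPerm_pow_eq_one (s : A ≃+* A) (p : ℕ) (hs : ∀ a, (⇑s)^[p] a = a) :
    tensPerm A s ^ p = 1 := by
  apply Equiv.ext
  intro t
  apply MaximalSpectrum.ext
  ext x
  rw [tens_mem_tensPerm_pow]
  have h1 : (⇑s.symm)^[p] x = x := by
    have h2 : (⇑s.symm)^[p] ((⇑s)^[p] x) = x :=
      Function.LeftInverse.iterate s.symm_apply_apply p x
    rwa [hs x] at h2
  rw [h1]
  rfl

end perm

section main

variable (A : Type) [CommRing A] [IsArtinianRing A] [IsReduced A]

omit [IsArtinianRing A] [IsReduced A] in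
theorem tens_unitsEnd_pow_apply (s : A →* A) (k : ℕ) (u : Aˣ) :
    ((Additive.toMul ((unitsEnd s ^ k) (Additive.ofMul u)) : Aˣ) : A) = (⇑s)^[k] (u : A) := by
  induction k generalizing u with
  | zero => rfl
  | succ k ih =>
    rw [pow_succ, Module.End.mul_apply, tens_unitsEnd_apply, ih, Function.iterate_succ_apply]
    rfl

omit [IsArtinianRing A] [IsReduced A] in
theorem tens_unitsEnd_pow_eq_one (s : A →* A) (p : ℕ) (hs : ∀ a, (⇑s)^[p] a = a) :
    unitsEnd s ^ p = 1 := by
  refine LinearMap.ext fun x => ?_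
  apply Additive.toMul.injective
  apply Units.ext
  have := tens_unitsEnd_pow_apply A s p (Additive.toMul x)
  rw [hs] at this
  exact this

theorem tensConj_pow_eq_one (s : A →* A) (p : ℕ) (hs : ∀ a, (⇑s)^[p] a = a) :
    tensConj A s ^ p = 1 := by
  have h := tens_comp_pow (tensLin A).toLinearMap (unitsEnd s) (tensConj A s) (tensLin_comp A s) p
  rw [tens_unitsEnd_pow_eq_one A s p hs] at h
  refine LinearMap.ext fun x => ?_
  obtain ⟨y, rfl⟩ := (tensLin A).surjective x
  have := LinearMap.congr_fun h y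
  simp only [LinearMap.comp_apply, LinearEquiv.coe_coe, Module.End.one_apply] at this
  rw [← this]
  rfl

/-- the value at `t` of an element of the product, as a class of a unit of `A` -/
theorem tens_exists_unit (x : ∀ t : MaximalSpectrum A, Additive (A ⧸ t.asIdeal)ˣ) :
    ∃ u : Aˣ, x = tensLin A (Additive.ofMul u) :=
  ⟨Additive.toMul ((tensLin A).symm x), ((tensLin A).apply_symm_apply x).symm⟩

/-- **abstract J-tens**: Herbrand quotient of the units of a reduced Artinian ring under an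
automorphism of order dividing `p`, from HQ-orbit and the Herbrand quotients of the residue
fields at the stable maximal ideals. -/
theorem tens_hasHQc_of_orbit (hO : StmtOrbit) (p : ℕ) [Fact p.Prime] (s : A ≃+* A)
    (hs : ∀ a, (⇑s)^[p] a = a) (c : ℚ)
    (τ : ∀ t : MaximalSpectrum A, (A ⧸ t.asIdeal) →* (A ⧸ t.asIdeal))
    (hτ : ∀ t : MaximalSpectrum A, (∀ x ∈ t.asIdeal, s x ∈ t.asIdeal) →
      ∀ a : A, τ t (Ideal.Quotient.mk t.asIdeal a) = Ideal.Quotient.mk t.asIdeal (s a))
    (hc : ∀ t : MaximalSpectrum A, (∀ x ∈ t.asIdeal, s x ∈ t.asIdeal) →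
      HasHQc (unitsEnd (τ t)) p c) :
    HasHQc (unitsEnd ((s : A →+* A) : A →* A)) p
      (c ^ {t : MaximalSpectrum A | ∀ x ∈ t.asIdeal, s x ∈ t.asIdeal}.ncard) := by
  classical
  haveI : Fintype (MaximalSpectrum A) := Fintype.ofFinite _
  set s' : A →* A := ((s : A →+* A) : A →* A) with hs'
  have hs'' : ∀ a, (⇑s')^[p] a = a := hs
  apply tens_hasHQc_congr (tensLin A) _ (tensConj A s') (tensLin_comp A s') p _
  have key := hO p (MaximalSpectrum A) (fun t => Additive (A ⧸ t.asIdeal)ˣ) (tensPerm A s)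
    (tensConj A s') (fun t => unitsEnd (τ t)) (fun _ => c)
    (tensPerm_pow_eq_one A s p hs) (tensConj_pow_eq_one A s' p hs'') ?_ ?_ ?_
  · have hcard : (Finset.univ.filter fun t : MaximalSpectrum A => tensPerm A s t = t).card =
        {t : MaximalSpectrum A | ∀ x ∈ t.asIdeal, s x ∈ t.asIdeal}.ncard := by
      rw [Set.ncard_eq_toFinset_card']
      congr 1
      ext t
      simp only [Finset.mem_filter, Finset.mem_univ, true_and, Set.mem_toFinset, Set.mem_ofPred_eq]
      exact tensPerm_eq_self_iff A s t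
    rw [Finset.prod_const, hcard] at key
    exact key
  · intro t x hx
    obtain ⟨u, rfl⟩ := tens_exists_unit A x
    apply Additive.toMul.injective
    apply Units.ext
    rw [tensConj_apply]
    have h1 : Ideal.Quotient.mk t.asIdeal (u : A) = 1 := by
      rw [← tensLin_apply A u t, hx]
      rfl
    have h2 : (u : A) - 1 ∈ t.asIdeal := by
      rw [← Ideal.Quotient.eq_zero_iff_mem, map_sub, h1, map_one, sub_self]
    have h3 := tens_apply_mem_tensPerm A s t h2
    rw [map_sub, map_one, ← Ideal.Quotient.eq_zero_iff_mem, map_sub, map_one, sub_eq_zero] at h3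
    exact h3
  · intro t ht x
    obtain ⟨u, rfl⟩ := tens_exists_unit A x
    apply Additive.toMul.injective
    apply Units.ext
    rw [tensConj_apply]
    have hst := (tensPerm_eq_self_iff A s t).1 ht
    have h1 : ((Additive.toMul (unitsEnd (τ t) (tensLin A (Additive.ofMul u) t)) :
        (A ⧸ t.asIdeal)ˣ) : A ⧸ t.asIdeal) =
        τ t ((Additive.toMul (tensLin A (Additive.ofMul u) t) : (A ⧸ t.asIdeal)ˣ) :
          A ⧸ t.asIdeal) := rfl
    rw [h1, tensLin_apply, hτ t hst]
    rfl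
  · intro t ht
    exact hc t ((tensPerm_eq_self_iff A s t).1 ht)

end main

/-! ## Part 3: `A = ℚ_q ⊗ L` -/

section semi

open TensorProduct NumberField

variable (q : ℕ) [Fact q.Prime] {L : Type} [Field L] [NumberField L]

theorem tens_semiAlg_isReduced (L : Type) [Field L] [NumberField L] : IsReduced (semiAlg q L) := by
  have _i : Algebra.FormallyUnramified ℚ L := Algebra.FormallyUnramified.of_isSeparable ℚ L
  exact Algebra.FormallyUnramified.isReduced_of_field ℚ_[q] (semiAlg q L)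

theorem tens_semiAlg_isArtinian (L : Type) [Field L] [NumberField L] :
    IsArtinianRing (semiAlg q L) :=
  IsArtinianRing.of_finite ℚ_[q] (semiAlg q L)

/-- `semiMap` as an algebra automorphism -/
noncomputable def tens_semiEquiv (σ : L ≃ₐ[ℚ] L) : semiAlg q L ≃ₐ[ℚ_[q]] semiAlg q L :=
  Algebra.TensorProduct.congr AlgEquiv.refl σ

theorem tens_semiEquiv_apply (σ : L ≃ₐ[ℚ] L) (z : semiAlg q L) :
    tens_semiEquiv q σ z = semiMap q σ z := rfl

theorem tens_semiMap_tmul (σ : L ≃ₐ[ℚ] L) (a : ℚ_[q]) (x : L) :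
    semiMap q σ (a ⊗ₜ[ℚ] x) = a ⊗ₜ[ℚ] σ x := rfl

theorem tens_semiMap_mul (σ τ : L ≃ₐ[ℚ] L) (z : semiAlg q L) :
    semiMap q (σ * τ) z = semiMap q σ (semiMap q τ z) := by
  induction z using TensorProduct.induction_on with
  | zero => simp
  | tmul a x => rfl
  | add x y hx hy => rw [map_add, map_add, map_add, hx, hy]

theorem tens_semiMap_one (z : semiAlg q L) : semiMap q (1 : L ≃ₐ[ℚ] L) z = z := by
  induction z using TensorProduct.induction_on with
  | zero => simp
  | tmul a x => rfl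
  | add x y hx hy => rw [map_add, hx, hy]

theorem tens_semiMap_iterate (σ : L ≃ₐ[ℚ] L) (k : ℕ) (z : semiAlg q L) :
    (⇑(semiMap q σ))^[k] z = semiMap q (σ ^ k) z := by
  induction k generalizing z with
  | zero => rw [Function.iterate_zero, id, pow_zero, tens_semiMap_one]
  | succ k ih => rw [Function.iterate_succ_apply, ih, pow_succ, tens_semiMap_mul]

theorem tens_semiMap_iterate_eq (σ : L ≃ₐ[ℚ] L) (p : ℕ) (hσ : σ ^ p = 1) (z : semiAlg q L) :
    (⇑(semiMap q σ))^[p] z = z := by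
  rw [tens_semiMap_iterate, hσ, tens_semiMap_one]

end semi

section final

open TensorProduct NumberField

variable (q : ℕ) [Fact q.Prime] {L : Type} [Field L] [NumberField L]

theorem tens_semi_map_eq (σ : L ≃ₐ[ℚ] L) (t : MaximalSpectrum (semiAlg q L))
    (h : ∀ x ∈ t.asIdeal, semiMap q σ x ∈ t.asIdeal) :
    t.asIdeal = Ideal.map (tens_semiEquiv q σ : semiAlg q L →+* semiAlg q L) t.asIdeal := by
  have hle : Ideal.map (tens_semiEquiv q σ : semiAlg q L →+* semiAlg q L) t.asIdeal ≤ t.asIdeal := by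
    rw [Ideal.map_le_iff_le_comap]
    intro x hx
    exact h x hx
  haveI := t.isMaximal
  have hmax : (Ideal.map (tens_semiEquiv q σ : semiAlg q L →+* semiAlg q L) t.asIdeal).IsMaximal :=
    Ideal.map_isMaximal_of_equiv (tens_semiEquiv q σ)
  exact (hmax.eq_of_le t.isMaximal.ne_top hle).symm

/-- the residue automorphism at a stable maximal ideal -/
noncomputable def tens_semiResEquiv (σ : L ≃ₐ[ℚ] L) (t : MaximalSpectrum (semiAlg q L))
    (h : ∀ x ∈ t.asIdeal, semiMap q σ x ∈ t.asIdeal) :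
    (semiAlg q L ⧸ t.asIdeal) ≃ₐ[ℚ_[q]] (semiAlg q L ⧸ t.asIdeal) :=
  Ideal.quotientEquivAlg t.asIdeal t.asIdeal (tens_semiEquiv q σ) (tens_semi_map_eq q σ t h)

theorem tens_semiResEquiv_mk (σ : L ≃ₐ[ℚ] L) (t : MaximalSpectrum (semiAlg q L))
    (h : ∀ x ∈ t.asIdeal, semiMap q σ x ∈ t.asIdeal) (a : semiAlg q L) :
    tens_semiResEquiv q σ t h (Ideal.Quotient.mk t.asIdeal a) =
      Ideal.Quotient.mk t.asIdeal (semiMap q σ a) :=
  Ideal.quotientEquivAlg_mk _ _ _ a

theorem tens_semiResEquiv_pow_mk (σ : L ≃ₐ[ℚ] L) (t : MaximalSpectrum (semiAlg q L))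
    (h : ∀ x ∈ t.asIdeal, semiMap q σ x ∈ t.asIdeal) (k : ℕ) (a : semiAlg q L) :
    (tens_semiResEquiv q σ t h ^ k) (Ideal.Quotient.mk t.asIdeal a) =
      Ideal.Quotient.mk t.asIdeal ((⇑(semiMap q σ))^[k] a) := by
  induction k generalizing a with
  | zero => rfl
  | succ k ih =>
    rw [pow_succ, AlgEquiv.mul_apply, tens_semiResEquiv_mk, ih, Function.iterate_succ_apply]

theorem tens_semiResEquiv_orderOf (p : ℕ) [Fact p.Prime] (σ : L ≃ₐ[ℚ] L) (hσ : orderOf σ = p)
    (t : MaximalSpectrum (semiAlg q L))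
    (h : ∀ x ∈ t.asIdeal, semiMap q σ x ∈ t.asIdeal) :
    orderOf (tens_semiResEquiv q σ t h) = p := by
  have hp : σ ^ p = 1 := hσ ▸ pow_orderOf_eq_one σ
  apply orderOf_eq_prime
  · apply AlgEquiv.ext
    intro y
    obtain ⟨a, rfl⟩ := Ideal.Quotient.mk_surjective y
    rw [tens_semiResEquiv_pow_mk, tens_semiMap_iterate_eq q σ p hp]
    rfl
  · intro h1
    have hne : σ ≠ 1 := by
      intro h2
      rw [h2, orderOf_one] at hσ
      exact (Fact.out : p.Prime).one_lt.ne hσ
    apply hne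
    apply AlgEquiv.ext
    intro x
    haveI := t.isMaximal
    let ι : L →+* (semiAlg q L ⧸ t.asIdeal) :=
      (Ideal.Quotient.mk t.asIdeal).comp
        (Algebra.TensorProduct.includeRight : L →ₐ[ℚ] semiAlg q L).toRingHom
    have hι : Function.Injective ι := ι.injective
    apply hι
    have h3 := congrArg (fun f : (semiAlg q L ⧸ t.asIdeal) ≃ₐ[ℚ_[q]] (semiAlg q L ⧸ t.asIdeal) =>
      f (Ideal.Quotient.mk t.asIdeal ((1 : ℚ_[q]) ⊗ₜ[ℚ] x))) h1
    simp only [tens_semiResEquiv_mk, tens_semiMap_tmul, AlgEquiv.one_apply] at h3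
    exact h3

end final

section assembly

open TensorProduct NumberField

/-- **J-tens**: the Herbrand quotient of `(ℚ_q ⊗ L)ˣ` under `σ` of prime order `p` is `p ^ f`,
`f` the number of `σ`-stable maximal ideals. -/
theorem stmtTensorHQ_of (hO : StmtOrbit) (hL : StmtLocalHQ) : StmtTensorHQ := by
  intro q _ p _ L _ _ σ hσ
  classical
  haveI := tens_semiAlg_isReduced q L
  haveI := tens_semiAlg_isArtinian q L
  have hp : σ ^ p = 1 := hσ ▸ pow_orderOf_eq_one σ
  let τ : ∀ t : MaximalSpectrum (semiAlg q L),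
      (semiAlg q L ⧸ t.asIdeal) →* (semiAlg q L ⧸ t.asIdeal) := fun t =>
    if h : ∀ x ∈ t.asIdeal, semiMap q σ x ∈ t.asIdeal then
      ((tens_semiResEquiv q σ t h : (semiAlg q L ⧸ t.asIdeal) ≃ₐ[ℚ_[q]] (semiAlg q L ⧸ t.asIdeal)) :
        (semiAlg q L ⧸ t.asIdeal) →* (semiAlg q L ⧸ t.asIdeal))
    else 1
  have key := tens_hasHQc_of_orbit (semiAlg q L) hO p (tens_semiEquiv q σ).toRingEquiv
    (tens_semiMap_iterate_eq q σ p hp) (p : ℚ) τ ?_ ?_
  · have hset : (fixedMax q σ).ncard =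
        {t : MaximalSpectrum (semiAlg q L) |
          ∀ x ∈ t.asIdeal, (tens_semiEquiv q σ).toRingEquiv x ∈ t.asIdeal}.ncard := by
      rw [← Set.ncard_image_of_injective _
        (f := fun t : MaximalSpectrum (semiAlg q L) => t.asIdeal)
        (fun a b hab => MaximalSpectrum.ext hab)]
      congr 1
      ext 𝔪
      constructor
      · rintro ⟨hmax, hst⟩
        exact ⟨⟨𝔪, hmax⟩, hst, rfl⟩
      · rintro ⟨t, ht, rfl⟩
        exact ⟨t.isMaximal, ht⟩
    rw [hset]
    exact key
  · intro t ht a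
    have : τ t = ((tens_semiResEquiv q σ t ht :
        (semiAlg q L ⧸ t.asIdeal) ≃ₐ[ℚ_[q]] (semiAlg q L ⧸ t.asIdeal)) :
        (semiAlg q L ⧸ t.asIdeal) →* (semiAlg q L ⧸ t.asIdeal)) := dif_pos ht
    rw [this]
    exact tens_semiResEquiv_mk q σ t ht a
  · intro t ht
    have : τ t = ((tens_semiResEquiv q σ t ht :
        (semiAlg q L ⧸ t.asIdeal) ≃ₐ[ℚ_[q]] (semiAlg q L ⧸ t.asIdeal)) :
        (semiAlg q L ⧸ t.asIdeal) →* (semiAlg q L ⧸ t.asIdeal)) := dif_pos ht
    rw [this]
    haveI := t.isMaximal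
    letI : Field (semiAlg q L ⧸ t.asIdeal) := Ideal.Quotient.field t.asIdeal
    exact hL q p (semiAlg q L ⧸ t.asIdeal) (tens_semiResEquiv q σ t ht)
      (tens_semiResEquiv_orderOf q p σ hσ t ht)

end assembly

end Fermat.Agent.PT.G1
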