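import Fermat.Agent.PT.G1.Plan2
import Fermat.Agent.PT.G1.TensorHQ
import Fermat.Agent.PT.G1.Orbit

/-!
# PT-G1, piece J-main: `h(⟨σ⟩, J_L) = p ^ f`

`J_L = ∏_{q ∈ S} (ℚ_q ⊗ L)ˣ`; HQ-orbit with the trivial permutation of `S`, J-tens at each `q`,
T-cnt and U-split for the exponent.
-/

set_option autoImplicit false

namespace Fermat.Agent.PT.G1

open NumberField TensorProduct

section

variable (S : Finset Nat.Primes) {L : Type} [Field L] [NumberField L]

/-- `Additive (∏ G_q) ≃ ∏ Additive G_q` -/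
noncomputable def jmAddEquiv (L : Type) [Field L] [NumberField L] :
    Additive (JL S L) ≃+ (∀ q : ↥S, Additive (semiAlg ((q : Nat.Primes) : ℕ) L)ˣ) where
  toFun x q := Additive.ofMul (Additive.toMul x q)
  invFun y := Additive.ofMul fun q => Additive.toMul (y q)
  left_inv _ := rfl
  right_inv _ := rfl
  map_add' _ _ := rfl

/-- linear version -/
noncomputable def jmLin (L : Type) [Field L] [NumberField L] :
    Additive (JL S L) ≃ₗ[ℤ] (∀ q : ↥S, Additive (semiAlg ((q : Nat.Primes) : ℕ) L)ˣ) :=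
  (jmAddEquiv S L).toIntLinearEquiv

/-- the conjugate of `jlEnd` on the product of the additive groups -/
noncomputable def jmConj (σ : L ≃ₐ[ℚ] L) :
    Module.End ℤ (∀ q : ↥S, Additive (semiAlg ((q : Nat.Primes) : ℕ) L)ˣ) :=
  (jmLin S L).toLinearMap ∘ₗ jlEnd S σ ∘ₗ (jmLin S L).symm.toLinearMap

theorem jmLin_comp (σ : L ≃ₐ[ℚ] L) :
    (jmLin S L).toLinearMap ∘ₗ jlEnd S σ = jmConj S σ ∘ₗ (jmLin S L).toLinearMap := by
  refine LinearMap.ext fun x => ?_
  simp [jmConj]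

theorem jmConj_apply (σ : L ≃ₐ[ℚ] L)
    (x : ∀ q : ↥S, Additive (semiAlg ((q : Nat.Primes) : ℕ) L)ˣ) (q : ↥S) :
    jmConj S σ x q =
      unitsEnd (semiMap ((q : Nat.Primes) : ℕ) σ :
        semiAlg ((q : Nat.Primes) : ℕ) L →* semiAlg ((q : Nat.Primes) : ℕ) L) (x q) := rfl

theorem jmConj_pow_apply (σ : L ≃ₐ[ℚ] L) (k : ℕ)
    (x : ∀ q : ↥S, Additive (semiAlg ((q : Nat.Primes) : ℕ) L)ˣ) (q : ↥S) :
    (jmConj S σ ^ k) x q =
      (unitsEnd (semiMap ((q : Nat.Primes) : ℕ) σ :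
        semiAlg ((q : Nat.Primes) : ℕ) L →* semiAlg ((q : Nat.Primes) : ℕ) L) ^ k) (x q) := by
  induction k generalizing x with
  | zero => rfl
  | succ k ih =>
    rw [pow_succ, pow_succ, Module.End.mul_apply, Module.End.mul_apply, ih, jmConj_apply]

end

/-- J-main from HQ-orbit (trivial permutation), J-tens, T-cnt and U-split. -/
theorem stmtJMain_of_orbit (hO : StmtOrbit) (hT : StmtTensorHQ) (hM : StmtMaxSpecCount)
    (hS : StmtPrimeSplit) : StmtJMain := by
  intro p _ L _ _ σ hσ S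
  classical
  apply tens_hasHQc_congr (jmLin S L) _ (jmConj S σ) (jmLin_comp S σ) p _
  have hq : ∀ q : ↥S, HasHQc
      (unitsEnd (semiMap ((q : Nat.Primes) : ℕ) σ :
        semiAlg ((q : Nat.Primes) : ℕ) L →* semiAlg ((q : Nat.Primes) : ℕ) L)) p
      ((p : ℚ) ^ (fixedMax ((q : Nat.Primes) : ℕ) σ).ncard) :=
    fun q => hT ((q : Nat.Primes) : ℕ) p L σ hσ
  have key := hO p (↥S) (fun q => Additive (semiAlg ((q : Nat.Primes) : ℕ) L)ˣ) 1
    (jmConj S σ)
    (fun q => unitsEnd (semiMap ((q : Nat.Primes) : ℕ) σ :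
        semiAlg ((q : Nat.Primes) : ℕ) L →* semiAlg ((q : Nat.Primes) : ℕ) L))
    (fun q => (p : ℚ) ^ (fixedMax ((q : Nat.Primes) : ℕ) σ).ncard)
    (one_pow p) ?_ ?_ ?_ ?_
  · have e1 : (Finset.univ.filter fun q : ↥S => (1 : Equiv.Perm ↥S) q = q) = Finset.univ := by
      ext q
      simp
    rw [e1, Finset.prod_pow_eq_pow_sum] at key
    have e2 : (fixedPrimesAbove (∏ q ∈ S, (q : ℕ)) (σ : L ≃+* L)).ncard =
        ∑ q : ↥S, (fixedMax ((q : Nat.Primes) : ℕ) σ).ncard := by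
      rw [hS L (σ : L ≃+* L) S, ← Finset.sum_coe_sort S]
      refine Finset.sum_congr rfl fun q _ => ?_
      exact (hM ((q : Nat.Primes) : ℕ) L σ).symm
    rw [e2]
    exact key
  · refine LinearMap.ext fun x => ?_
    funext q
    rw [jmConj_pow_apply, (hq q).1]
    rfl
  · intro q x hx
    change jmConj S σ x q = 0
    rw [jmConj_apply, hx, map_zero]
  · intro q _ x
    exact jmConj_apply S σ x q
  · intro q _
    exact hq q

/-- J-main in the form of the piece table. -/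
theorem stmtJMain_of (_hH : StmtHexagon) (hT : StmtTensorHQ)
    (hM : StmtMaxSpecCount) (hS : StmtPrimeSplit) : StmtJMain :=
  stmtJMain_of_orbit stmtOrbit hT hM hS

end Fermat.Agent.PT.G1
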