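import Fermat.Agent.PT.G1.Plan2
import Fermat.Agent.PT.G1.PrimeCount

/-!
# PT-G1, piece U-split: stable primes dividing a squarefree `N`

The `σ`-stable primes of `𝓞 L` dividing `N = ∏_{q ∈ S} q` are the `σ`-stable primes over the
`q ∈ S`, and a prime lies over only one `q`.
-/

set_option autoImplicit false

namespace Fermat.Agent.PT.G1

open NumberField

section

variable {L : Type*} [Field L] (σ : L ≃+* L)

theorem psplit_mem_mul_iff (a b : ℕ) (P : Ideal (𝓞 L)) :
    P ∈ fixedPrimesAbove (a * b) σ ↔ P ∈ fixedPrimesAbove a σ ∨ P ∈ fixedPrimesAbove b σ := by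
  constructor
  · rintro ⟨hP, hab, hσ⟩
    rw [Nat.cast_mul] at hab
    rcases hP.mem_or_mem hab with h | h
    · exact Or.inl ⟨hP, h, hσ⟩
    · exact Or.inr ⟨hP, h, hσ⟩
  · rintro (⟨hP, ha, hσ⟩ | ⟨hP, hb, hσ⟩)
    · refine ⟨hP, ?_, hσ⟩
      rw [Nat.cast_mul]
      exact P.mul_mem_right _ ha
    · refine ⟨hP, ?_, hσ⟩
      rw [Nat.cast_mul]
      exact P.mul_mem_left _ hb

theorem psplit_mul_eq (a b : ℕ) :
    fixedPrimesAbove (a * b) σ = fixedPrimesAbove a σ ∪ fixedPrimesAbove b σ := by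
  ext P
  rw [Set.mem_union]
  exact psplit_mem_mul_iff σ a b P

theorem psplit_disjoint {a b : ℕ} (hab : Nat.Coprime a b) :
    Disjoint (fixedPrimesAbove a σ) (fixedPrimesAbove b σ) := by
  rw [Set.disjoint_left]
  rintro P ⟨hP, ha, -⟩ ⟨-, hb, -⟩
  apply hP.ne_top
  rw [Ideal.eq_top_iff_one]
  have h1 : ((a : ℤ).gcd (b : ℤ) : ℤ) = 1 := by
    rw [Int.gcd_natCast_natCast]
    exact_mod_cast hab
  have h2 := Int.gcd_eq_gcd_ab (a : ℤ) (b : ℤ)
  rw [h1] at h2
  have h3 : (1 : 𝓞 L) = (a : 𝓞 L) * ((Int.gcdA a b : ℤ) : 𝓞 L) +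
      (b : 𝓞 L) * ((Int.gcdB a b : ℤ) : 𝓞 L) := by
    have := congrArg (fun z : ℤ => (z : 𝓞 L)) h2
    simpa using this
  rw [h3]
  exact P.add_mem (P.mul_mem_right _ ha) (P.mul_mem_right _ hb)

theorem psplit_one : fixedPrimesAbove 1 σ = ∅ := by
  ext P
  simp only [Set.mem_empty_iff_false, iff_false]
  rintro ⟨hP, h1, -⟩
  apply hP.ne_top
  rw [Ideal.eq_top_iff_one]
  simpa using h1

end

/-- **U-split.** -/
theorem stmtPrimeSplit : StmtPrimeSplit := by
  classical
  intro L _ _ σ S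
  induction S using Finset.induction_on with
  | empty =>
    simp only [Finset.prod_empty, Finset.sum_empty]
    rw [psplit_one]
    exact Set.ncard_empty _
  | insert q S hq ih =>
    rw [Finset.prod_insert hq, Finset.sum_insert hq, psplit_mul_eq, ← ih]
    have hcop : Nat.Coprime (q : ℕ) (∏ x ∈ S, (x : ℕ)) := by
      apply Nat.Coprime.prod_right
      intro x hx
      rw [Nat.coprime_primes q.2 x.2]
      intro h
      exact hq (by rwa [Subtype.ext h])
    have hfin1 : (fixedPrimesAbove (q : ℕ) σ).Finite :=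
      (pc_primesAbove_finite L q.2.ne_zero).subset (pc_fixedPrimesAbove_subset _ σ)
    have hfin2 : (fixedPrimesAbove (∏ x ∈ S, (x : ℕ)) σ).Finite := by
      refine (pc_primesAbove_finite L ?_).subset (pc_fixedPrimesAbove_subset _ σ)
      exact Finset.prod_ne_zero_iff.mpr fun x _ => x.2.ne_zero
    exact Set.ncard_union_eq (psplit_disjoint σ hcop) hfin1 hfin2

end Fermat.Agent.PT.G1
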