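import Fermat.Agent.PT.G1.Plan

/-!
# PT-G1, piece U-main: the Herbrand quotient of the `N`-units

`stmtUnitsHQ_of : StmtRank → StmtUnitRank → StmtUnitFixed → StmtInfCount → StmtPrimeCount →
StmtUnitsHQ`: for `σ` of odd prime order `p` on a number field `L`, `h(E_N) = p ^ (f - 1)`,
`f = #{P ∣ N : σ P ⊆ P}`.  `K` is the fixed field of `⟨σ⟩`; `L/K` is cyclic of degree `p`.
-/

set_option autoImplicit false

namespace Fermat.Agent.PT.G1

open NumberField IntermediateField

section functoriality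

variable {L : Type*} [Field L]

theorem uhq_nUnitsEnd_apply (N : ℕ) (σ : L ≃+* L) (u : Additive (nUnits N L)) :
    nUnitsEnd N σ u = Additive.ofMul (nUnitsHom N σ (Additive.toMul u)) := rfl

theorem uhq_nUnitsEnd_one (N : ℕ) : nUnitsEnd N (1 : L ≃+* L) = 1 := by
  apply LinearMap.ext
  intro u
  rw [uhq_nUnitsEnd_apply]
  apply Additive.toMul.injective
  apply Subtype.ext
  apply Units.ext
  rfl

theorem uhq_nUnitsEnd_mul (N : ℕ) (σ τ : L ≃+* L) :
    nUnitsEnd N (σ * τ) = nUnitsEnd N σ * nUnitsEnd N τ := by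
  apply LinearMap.ext
  intro u
  rw [uhq_nUnitsEnd_apply]
  apply Additive.toMul.injective
  apply Subtype.ext
  apply Units.ext
  rfl

theorem uhq_nUnitsEnd_pow (N : ℕ) (σ : L ≃+* L) (n : ℕ) :
    nUnitsEnd N (σ ^ n) = nUnitsEnd N σ ^ n := by
  induction n with
  | zero => rw [pow_zero, pow_zero, uhq_nUnitsEnd_one]
  | succ n ih => rw [pow_succ, pow_succ, uhq_nUnitsEnd_mul, ih]

end functoriality

section fixedField

variable {L : Type} [Field L] [NumberField L]

/-- `L` is Galois over the fixed field of any subgroup of `Aut(L/ℚ)`. -/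
theorem uhq_isGalois_fixedField (H : Subgroup (L ≃ₐ[ℚ] L)) :
    IsGalois (IntermediateField.fixedField H) L := by
  apply IsGalois.of_card_aut_eq_finrank
  rw [IntermediateField.finrank_fixedField_eq_card H,
    ← Nat.card_congr (IntermediateField.fixingSubgroupEquiv
      (IntermediateField.fixedField H)).toEquiv,
    IntermediateField.fixingSubgroup_fixedField H]

theorem uhq_orderOf_toRatAlgEquiv (σ : L ≃+* L) : orderOf σ.toRatAlgEquiv = orderOf σ := by
  let f : (L ≃ₐ[ℚ] L) →* (L ≃+* L) :=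
    { toFun := fun τ => (τ : L ≃+* L)
      map_one' := rfl
      map_mul' := fun _ _ => rfl }
  have hf : Function.Injective f := by
    intro a b hab
    ext x
    exact congrArg (fun g : L ≃+* L => g x) hab
  have : f σ.toRatAlgEquiv = σ := by
    ext x
    rfl
  rw [← orderOf_injective f hf, this]

end fixedField

theorem stmtUnitsHQ_of (hR : StmtRank) (hU : StmtUnitRank) (hF : StmtUnitFixed)
    (hI : StmtInfCount) (hC : StmtPrimeCount) : StmtUnitsHQ := by
  intro p _ hp2 L _ _ σ hσ N hN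
  have hp : p.Prime := Fact.out
  -- the fixed field `K` of `⟨σ⟩`
  set σ' : L ≃ₐ[ℚ] L := σ.toRatAlgEquiv with hσ'
  set K : IntermediateField ℚ L := IntermediateField.fixedField (Subgroup.zpowers σ') with hK
  have hfix : K.fixingSubgroup = Subgroup.zpowers σ' :=
    IntermediateField.fixingSubgroup_fixedField (Subgroup.zpowers σ')
  haveI : IsGalois K L := uhq_isGalois_fixedField (Subgroup.zpowers σ')
  have hdeg : Module.finrank K L = p := by
    rw [hK, IntermediateField.finrank_fixedField_eq_card, Nat.card_zpowers,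
      uhq_orderOf_toRatAlgEquiv, hσ]
  have hσK : σ' ∈ K.fixingSubgroup := by
    rw [hfix]
    exact Subgroup.mem_zpowers σ'
  set σK : L ≃ₐ[K] L := IntermediateField.fixingSubgroupEquiv K ⟨σ', hσK⟩ with hσKdef
  have hcoe : (σK : L ≃+* L) = σ := by
    ext x
    rfl
  have hgen : ∀ τ : L ≃ₐ[K] L, τ ∈ Subgroup.zpowers σK := by
    intro τ
    obtain ⟨⟨τ', hτ'⟩, rfl⟩ := (IntermediateField.fixingSubgroupEquiv K).surjective τ
    have hmem : τ' ∈ Subgroup.zpowers σ' := by rwa [hfix] at hτ'
    obtain ⟨k, hk⟩ := Subgroup.mem_zpowers_iff.mp hmem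
    refine Subgroup.mem_zpowers_iff.mpr ⟨k, ?_⟩
    rw [hσKdef, ← map_zpow]
    congr 1
    apply Subtype.ext
    simpa using hk
  -- the inputs
  have h1 := hU L N hN
  have h2 := hU K N hN
  have h3 := hF K L σK hgen N hN
  have h4 := hI p (hp.odd_of_ne_two hp2) K L hdeg
  have h5 := hC p K L σK hdeg hgen N hN
  rw [hcoe] at h3 h5
  haveI := h1.1
  have hpow : nUnitsEnd N σ ^ p = 1 := by
    rw [← uhq_nUnitsEnd_pow, ← hσ, pow_orderOf_eq_one, uhq_nUnitsEnd_one]
  refine hR p (Additive (nUnits N L)) (nUnitsEnd N σ) hpow _ ?_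
  rw [h3, h1.2, h2.2]
  have h4' : ((Units.rank L : ℤ) + 1) = (p : ℤ) * ((Units.rank K : ℤ) + 1) := by
    exact_mod_cast h4
  have h5' : ((primesAbove N L).ncard : ℤ) + ((p : ℤ) - 1) * (fixedPrimesAbove N σ).ncard =
      (p : ℤ) * (primesAbove N K).ncard := by
    have := congrArg (fun n : ℕ => (n : ℤ)) h5
    simp only [Nat.cast_add, Nat.cast_mul, Nat.cast_sub hp.one_lt.le, Nat.cast_one] at this
    exact this
  push_cast
  linear_combination h4' + h5'

end Fermat.Agent.PT.G1
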