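/-
PT-G1 piece T-cnt (helper26): the `σ`-stable maximal ideals of `ℚ_q ⊗ L` correspond to the
`σ`-stable primes of `𝓞 L` over `q` (`stmtMaxSpecCount`).

Route: for a `ℚ_q`-algebra map `π : ℚ_q ⊗ L → F` to a finite extension `F` of `ℚ_q` put
`Φ(π) = {x ∈ 𝓞 L : ‖π (1 ⊗ x)‖_sp < 1}` (spectral norm of Mathlib).
* `Φ(π)` is a prime of `𝓞 L` containing `q`;
* injectivity: approximation of elements of `ℚ_q ⊗ L` by elements of `L` (`Padic.rat_dense`)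
  and the fact that every element of `L` is `n / d` or `d / n` with `d ∉ P`;
* surjectivity: prime avoidance and the product formula for the norm of the reduced artinian
  ring `ℚ_q ⊗ L`;
* equivariance: the spectral norm is invariant under `ℚ_q`-algebra maps.
-/
import Fermat.Agent.PT.G1.Plan2
import Fermat.Agent.PT.L.Val

set_option autoImplicit false
set_option linter.unusedSectionVars false
set_option linter.style.haveILetI false

namespace Fermat.Agent.PT.G1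

open NumberField TensorProduct Polynomial

section Basic

variable (q : ℕ) [Fact q.Prime] {F : Type} [Field F] [Algebra ℚ_[q] F]
  [FiniteDimensional ℚ_[q] F]

/-- The spectral norm of a finite extension of `ℚ_q` is multiplicative. -/
theorem mc_sn_mul (x y : F) :
    spectralNorm ℚ_[q] F (x * y) = spectralNorm ℚ_[q] F x * spectralNorm ℚ_[q] F y :=
  spectralAlgNorm_mul x y

theorem mc_sn_add_le (x y : F) :
    spectralNorm ℚ_[q] F (x + y) ≤ max (spectralNorm ℚ_[q] F x) (spectralNorm ℚ_[q] F y) :=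
  isNonarchimedean_spectralNorm x y

theorem mc_sn_neg (x : F) : spectralNorm ℚ_[q] F (-x) = spectralNorm ℚ_[q] F x :=
  spectralNorm_neg (Algebra.IsAlgebraic.isAlgebraic x)

theorem mc_sn_sub_le (x y : F) :
    spectralNorm ℚ_[q] F (x - y) ≤ max (spectralNorm ℚ_[q] F x) (spectralNorm ℚ_[q] F y) := by
  rw [sub_eq_add_neg, ← mc_sn_neg q y]
  exact mc_sn_add_le q x (-y)

theorem mc_sn_smul (a : ℚ_[q]) (x : F) :
    spectralNorm ℚ_[q] F (a • x) = ‖a‖ * spectralNorm ℚ_[q] F x := by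
  rw [spectralNorm_smul a (Algebra.IsAlgebraic.isAlgebraic x)]
  rfl

theorem mc_sn_eq_zero {x : F} (h : spectralNorm ℚ_[q] F x = 0) : x = 0 :=
  eq_zero_of_map_spectralNorm_eq_zero h (Algebra.IsAlgebraic.isAlgebraic x)

/-- The spectral norm is invariant under `ℚ_q`-algebra maps. -/
theorem mc_sn_algHom {F' : Type} [Field F'] [Algebra ℚ_[q] F'] (f : F →ₐ[ℚ_[q]] F') (x : F) :
    spectralNorm ℚ_[q] F' (f x) = spectralNorm ℚ_[q] F x := by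
  unfold spectralNorm
  rw [minpoly.algHom_eq f f.injective]

/-- An element which is integral over `ℤ` has spectral norm at most `1`. -/
theorem mc_sn_le_one_of_isIntegral {x : F} (hx : IsIntegral ℤ x) :
    spectralNorm ℚ_[q] F x ≤ 1 := by
  apply Fermat.Agent.PT.L.l0a_spectralNorm_le_one_of_integral q F x
  obtain ⟨P, hP, hPx⟩ := hx
  refine ⟨P.map (Int.castRingHom ℤ_[q]), hP.map _, ?_⟩
  rw [eval₂_map]
  have : ((algebraMap ℚ_[q] F).comp (PadicInt.Coe.ringHom (p := q))).comp (Int.castRingHom ℤ_[q])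
      = algebraMap ℤ F := RingHom.ext_int _ _
  rw [this]
  exact hPx

/-- `1` is the only value of the norm at `z` if `z - 1` is small. -/
theorem mc_sn_eq_one_of_sub_lt {z : F} (h : spectralNorm ℚ_[q] F (z - 1) < 1) :
    spectralNorm ℚ_[q] F z = 1 := by
  apply le_antisymm
  · have := mc_sn_add_le q (z - 1) 1
    rw [sub_add_cancel, spectralNorm_one] at this
    exact this.trans (max_le h.le le_rfl)
  · by_contra hlt
    rw [not_le] at hlt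
    have := mc_sn_sub_le q z (z - 1)
    rw [sub_sub_cancel, spectralNorm_one] at this
    exact absurd this (not_le.mpr (max_lt hlt h))

end Basic

section Abs

variable (q : ℕ) [Fact q.Prime] {F : Type} [Field F] [Algebra ℚ_[q] F]
  [FiniteDimensional ℚ_[q] F] {L : Type} [Field L] [NumberField L]

/-- The absolute value on `L` attached to a point `π : ℚ_q ⊗ L → F`. -/
noncomputable def mcAbs (π : semiAlg q L →ₐ[ℚ_[q]] F) (x : L) : ℝ :=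
  spectralNorm ℚ_[q] F (π ((1 : ℚ_[q]) ⊗ₜ[ℚ] x))

variable (π : semiAlg q L →ₐ[ℚ_[q]] F)

theorem mcAbs_nonneg (x : L) : 0 ≤ mcAbs q π x := spectralNorm_nonneg _

theorem mcAbs_zero : mcAbs q π 0 = 0 := by
  unfold mcAbs
  rw [TensorProduct.tmul_zero, map_zero, spectralNorm_zero]

theorem mcAbs_one : mcAbs q π 1 = 1 := by
  unfold mcAbs
  rw [← Algebra.TensorProduct.one_def, map_one, spectralNorm_one]

theorem mcAbs_mul (x y : L) : mcAbs q π (x * y) = mcAbs q π x * mcAbs q π y := by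
  unfold mcAbs
  rw [← mc_sn_mul, ← map_mul, Algebra.TensorProduct.tmul_mul_tmul, mul_one]

theorem mcAbs_add_le (x y : L) : mcAbs q π (x + y) ≤ max (mcAbs q π x) (mcAbs q π y) := by
  unfold mcAbs
  rw [TensorProduct.tmul_add, map_add]
  exact mc_sn_add_le q _ _

theorem mcAbs_neg (x : L) : mcAbs q π (-x) = mcAbs q π x := by
  unfold mcAbs
  rw [TensorProduct.tmul_neg, map_neg, mc_sn_neg]

theorem mcAbs_sub_le (x y : L) : mcAbs q π (x - y) ≤ max (mcAbs q π x) (mcAbs q π y) := by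
  rw [sub_eq_add_neg, ← mcAbs_neg q π y]
  exact mcAbs_add_le q π x (-y)

theorem mcAbs_eq_zero {x : L} (h : mcAbs q π x = 0) : x = 0 := by
  have h1 := mc_sn_eq_zero q h
  by_contra hx
  have h2 : mcAbs q π (x * x⁻¹) = 0 := by
    rw [mcAbs_mul, h, zero_mul]
  rw [mul_inv_cancel₀ hx, mcAbs_one] at h2
  exact one_ne_zero h2

theorem mcAbs_pos {x : L} (hx : x ≠ 0) : 0 < mcAbs q π x :=
  lt_of_le_of_ne (mcAbs_nonneg q π x) fun h => hx (mcAbs_eq_zero q π h.symm)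

theorem mcAbs_rat (r : ℚ) : mcAbs q π (algebraMap ℚ L r) = ‖(r : ℚ_[q])‖ := by
  unfold mcAbs
  have h : (1 : ℚ_[q]) ⊗ₜ[ℚ] (algebraMap ℚ L r) = algebraMap ℚ_[q] (semiAlg q L) (r : ℚ_[q]) := by
    rw [Algebra.TensorProduct.algebraMap_apply, Algebra.algebraMap_eq_smul_one r,
      TensorProduct.tmul_smul, TensorProduct.smul_tmul']
    congr 1
    rw [Algebra.smul_def, mul_one]
    rfl
  rw [h, AlgHom.commutes, spectralNorm_extends]

theorem mcAbs_q : mcAbs q π (q : L) < 1 := by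
  have h : (q : L) = algebraMap ℚ L (q : ℚ) := by simp
  rw [h, mcAbs_rat]
  have : ((q : ℚ) : ℚ_[q]) = (q : ℚ_[q]) := by norm_cast
  rw [this, Padic.norm_p]
  have hq : (1 : ℝ) < q := by exact_mod_cast (Fact.out : q.Prime).one_lt
  exact inv_lt_one_of_one_lt₀ hq

theorem mcAbs_int (x : 𝓞 L) : mcAbs q π (x : L) ≤ 1 := by
  unfold mcAbs
  apply mc_sn_le_one_of_isIntegral
  have h1 : IsIntegral ℤ (x : L) := RingOfIntegers.isIntegral_coe x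
  have h2 : IsIntegral ℤ ((1 : ℚ_[q]) ⊗ₜ[ℚ] (x : L)) :=
    map_isIntegral_int (Algebra.TensorProduct.includeRight : L →ₐ[ℚ] semiAlg q L) h1
  exact map_isIntegral_int π h2

/-- The prime of `𝓞 L` attached to a point `π : ℚ_q ⊗ L → F`. -/
noncomputable def mcPrime : Ideal (𝓞 L) where
  carrier := {x | mcAbs q π (x : L) < 1}
  zero_mem' := by
    show mcAbs q π ((0 : 𝓞 L) : L) < 1
    rw [RingOfIntegers.coe_eq_algebraMap, map_zero, mcAbs_zero]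
    exact one_pos
  add_mem' := by
    intro a b ha hb
    show mcAbs q π ((a + b : 𝓞 L) : L) < 1
    rw [RingOfIntegers.coe_eq_algebraMap, map_add]
    exact (mcAbs_add_le q π _ _).trans_lt (max_lt ha hb)
  smul_mem' := by
    intro c x hx
    show mcAbs q π ((c * x : 𝓞 L) : L) < 1
    rw [RingOfIntegers.coe_eq_algebraMap, map_mul, mcAbs_mul]
    calc mcAbs q π (c : L) * mcAbs q π (x : L) ≤ 1 * mcAbs q π (x : L) :=
          mul_le_mul_of_nonneg_right (mcAbs_int q π c) (mcAbs_nonneg q π _)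
      _ < 1 := by rw [one_mul]; exact hx

theorem mem_mcPrime {x : 𝓞 L} : x ∈ mcPrime q π ↔ mcAbs q π (x : L) < 1 := Iff.rfl

theorem mcAbs_eq_one_of_notMem {x : 𝓞 L} (hx : x ∉ mcPrime q π) : mcAbs q π (x : L) = 1 :=
  le_antisymm (mcAbs_int q π x) (not_lt.mp hx)

theorem mcPrime_isPrime : (mcPrime q π).IsPrime := by
  refine ⟨?_, ?_⟩
  · rw [Ne, Ideal.eq_top_iff_one, mem_mcPrime, RingOfIntegers.coe_eq_algebraMap, map_one,
      mcAbs_one]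
    exact lt_irrefl 1
  · intro x y hxy
    by_contra hcon
    rw [not_or] at hcon
    rw [mem_mcPrime, RingOfIntegers.coe_eq_algebraMap, map_mul, mcAbs_mul,
      ← RingOfIntegers.coe_eq_algebraMap, ← RingOfIntegers.coe_eq_algebraMap,
      mcAbs_eq_one_of_notMem q π hcon.1,
      mcAbs_eq_one_of_notMem q π hcon.2, one_mul] at hxy
    exact lt_irrefl 1 hxy

theorem q_mem_mcPrime : (q : 𝓞 L) ∈ mcPrime q π := by
  rw [mem_mcPrime, RingOfIntegers.coe_eq_algebraMap, map_natCast]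
  exact mcAbs_q q π

theorem mcPrime_ne_bot : mcPrime q π ≠ ⊥ := by
  intro h
  have h1 := q_mem_mcPrime q π
  rw [h, Ideal.mem_bot] at h1
  have : (q : 𝓞 L) ≠ 0 := by
    exact_mod_cast (Fact.out : q.Prime).ne_zero
  exact this h1

theorem mcPrime_isMaximal : (mcPrime q π).IsMaximal :=
  (mcPrime_isPrime q π).isMaximal (mcPrime_ne_bot q π)

end Abs

section Injective

variable (q : ℕ) [Fact q.Prime] {F₁ F₂ : Type} [Field F₁] [Algebra ℚ_[q] F₁]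
  [FiniteDimensional ℚ_[q] F₁] [Field F₂] [Algebra ℚ_[q] F₂] [FiniteDimensional ℚ_[q] F₂]
  {L : Type} [Field L] [NumberField L]
  (π₁ : semiAlg q L →ₐ[ℚ_[q]] F₁) (π₂ : semiAlg q L →ₐ[ℚ_[q]] F₂)

/-- One-point approximation of a pure tensor. -/
theorem mc_approx_tmul_aux {F : Type} [Field F] [Algebra ℚ_[q] F] [FiniteDimensional ℚ_[q] F]
    (π : semiAlg q L →ₐ[ℚ_[q]] F) (c : ℚ_[q]) (r : ℚ) (x : L) :
    spectralNorm ℚ_[q] F (π ((1 : ℚ_[q]) ⊗ₜ[ℚ] (r • x) - c ⊗ₜ[ℚ] x)) =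
      ‖c - (r : ℚ_[q])‖ * mcAbs q π x := by
  have h1 : (1 : ℚ_[q]) ⊗ₜ[ℚ] (r • x) - c ⊗ₜ[ℚ] x = ((r : ℚ_[q]) - c) • ((1 : ℚ_[q]) ⊗ₜ[ℚ] x) := by
    rw [TensorProduct.smul_tmul', smul_eq_mul, mul_one, TensorProduct.sub_tmul,
      ← TensorProduct.smul_tmul]
    congr 2
    rw [Algebra.smul_def, mul_one]
    rfl
  rw [h1, map_smul, mc_sn_smul, ← norm_neg, neg_sub]
  rfl

/-- Elements of `ℚ_q ⊗ L` are approximated by elements of `L`, at two points simultaneously. -/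
theorem mc_approx (a : semiAlg q L) {ε : ℝ} (hε : 0 < ε) :
    ∃ y : L, spectralNorm ℚ_[q] F₁ (π₁ ((1 : ℚ_[q]) ⊗ₜ[ℚ] y - a)) < ε ∧
      spectralNorm ℚ_[q] F₂ (π₂ ((1 : ℚ_[q]) ⊗ₜ[ℚ] y - a)) < ε := by
  induction a using TensorProduct.induction_on with
  | zero =>
    refine ⟨0, ?_, ?_⟩ <;>
    · rw [TensorProduct.tmul_zero, sub_zero, map_zero, spectralNorm_zero]
      exact hε
  | tmul c x =>
    set M : ℝ := max (mcAbs q π₁ x) (mcAbs q π₂ x) + 1 with hM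
    have hM0 : 0 < M := by
      have := mcAbs_nonneg q π₁ x
      have := le_max_left (mcAbs q π₁ x) (mcAbs q π₂ x)
      linarith
    obtain ⟨r, hr⟩ := Padic.rat_dense q c (div_pos hε hM0)
    refine ⟨r • x, ?_, ?_⟩
    · rw [mc_approx_tmul_aux]
      have h1 : mcAbs q π₁ x < M := by
        have := le_max_left (mcAbs q π₁ x) (mcAbs q π₂ x)
        linarith
      calc ‖c - (r : ℚ_[q])‖ * mcAbs q π₁ x ≤ ‖c - (r : ℚ_[q])‖ * M :=
            mul_le_mul_of_nonneg_left h1.le (norm_nonneg _)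
        _ < ε / M * M := mul_lt_mul_of_pos_right hr hM0
        _ = ε := div_mul_cancel₀ ε hM0.ne'
    · rw [mc_approx_tmul_aux]
      have h1 : mcAbs q π₂ x < M := by
        have := le_max_right (mcAbs q π₁ x) (mcAbs q π₂ x)
        linarith
      calc ‖c - (r : ℚ_[q])‖ * mcAbs q π₂ x ≤ ‖c - (r : ℚ_[q])‖ * M :=
            mul_le_mul_of_nonneg_left h1.le (norm_nonneg _)
        _ < ε / M * M := mul_lt_mul_of_pos_right hr hM0
        _ = ε := div_mul_cancel₀ ε hM0.ne'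
  | add a b ha hb =>
    obtain ⟨y₁, h11, h12⟩ := ha
    obtain ⟨y₂, h21, h22⟩ := hb
    refine ⟨y₁ + y₂, ?_, ?_⟩
    · have : (1 : ℚ_[q]) ⊗ₜ[ℚ] (y₁ + y₂) - (a + b) =
          ((1 : ℚ_[q]) ⊗ₜ[ℚ] y₁ - a) + ((1 : ℚ_[q]) ⊗ₜ[ℚ] y₂ - b) := by
        rw [TensorProduct.tmul_add]; abel
      rw [this, map_add]
      exact (mc_sn_add_le q _ _).trans_lt (max_lt h11 h21)
    · have : (1 : ℚ_[q]) ⊗ₜ[ℚ] (y₁ + y₂) - (a + b) =
          ((1 : ℚ_[q]) ⊗ₜ[ℚ] y₁ - a) + ((1 : ℚ_[q]) ⊗ₜ[ℚ] y₂ - b) := by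
        rw [TensorProduct.tmul_add]; abel
      rw [this, map_add]
      exact (mc_sn_add_le q _ _).trans_lt (max_lt h12 h22)

/-- **Injectivity**: the prime determines the kernel of the point. -/
theorem mc_ker_le (h2 : Function.Surjective π₂) (h : mcPrime q π₁ = mcPrime q π₂) :
    RingHom.ker (π₁ : semiAlg q L →+* F₁) ≤ RingHom.ker (π₂ : semiAlg q L →+* F₂) := by
  by_contra hcon
  obtain ⟨e₀, he₁, he₂⟩ := Set.not_subset.mp hcon
  have he₁' : π₁ e₀ = 0 := he₁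
  have he₂' : π₂ e₀ ≠ 0 := he₂
  obtain ⟨b, hb⟩ := h2 (π₂ e₀)⁻¹
  obtain ⟨y, hy₁, hy₂⟩ := mc_approx q π₁ π₂ (e₀ * b) one_pos
  have hy₁' : mcAbs q π₁ y < 1 := by
    unfold mcAbs
    rwa [map_sub, map_mul, he₁', zero_mul, sub_zero] at hy₁
  have hy₂' : mcAbs q π₂ y = 1 := by
    unfold mcAbs
    rw [map_sub, map_mul, hb, mul_inv_cancel₀ he₂'] at hy₂
    exact mc_sn_eq_one_of_sub_lt q hy₂
  let v : IsDedekindDomain.HeightOneSpectrum (𝓞 L) :=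
    ⟨mcPrime q π₁, mcPrime_isPrime q π₁, mcPrime_ne_bot q π₁⟩
  obtain ⟨n, d, hnd | hnd⟩ := v.exists_primeCompl_mul_eq_or_mul_eq (K := L) y
  · have hd₁ : (d : 𝓞 L) ∉ mcPrime q π₁ := d.2
    have hd₂ : (d : 𝓞 L) ∉ mcPrime q π₂ := h ▸ hd₁
    have e₁ := congrArg (mcAbs q π₁) hnd
    have e₂ := congrArg (mcAbs q π₂) hnd
    rw [mcAbs_mul, ← RingOfIntegers.coe_eq_algebraMap, ← RingOfIntegers.coe_eq_algebraMap,
      mcAbs_eq_one_of_notMem q _ hd₁, mul_one] at e₁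
    rw [mcAbs_mul, ← RingOfIntegers.coe_eq_algebraMap, ← RingOfIntegers.coe_eq_algebraMap,
      mcAbs_eq_one_of_notMem q _ hd₂, mul_one, hy₂'] at e₂
    have hn₁ : n ∈ mcPrime q π₁ := by
      rw [mem_mcPrime, ← e₁]; exact hy₁'
    rw [h, mem_mcPrime, ← e₂] at hn₁
    exact lt_irrefl 1 hn₁
  · have hd₁ : (d : 𝓞 L) ∉ mcPrime q π₁ := d.2
    have e₁ := congrArg (mcAbs q π₁) hnd
    rw [mcAbs_mul, ← RingOfIntegers.coe_eq_algebraMap, ← RingOfIntegers.coe_eq_algebraMap,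
      mcAbs_eq_one_of_notMem q _ hd₁] at e₁
    have : mcAbs q π₁ y * mcAbs q π₁ (n : L) < 1 := by
      calc mcAbs q π₁ y * mcAbs q π₁ (n : L) ≤ mcAbs q π₁ y * 1 :=
            mul_le_mul_of_nonneg_left (mcAbs_int q π₁ n) (mcAbs_nonneg q π₁ y)
        _ < 1 := by rw [mul_one]; exact hy₁'
    rw [e₁] at this
    exact lt_irrefl 1 this

end Injective

section Norm

/-- The norm of a product algebra. -/
theorem mc_norm_prod {K S T : Type*} [Field K] [CommRing S] [CommRing T] [Algebra K S]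
    [Algebra K T] [Module.Finite K S] [Module.Finite K T] (s : S) (t : T) :
    Algebra.norm K ((s, t) : S × T) = Algebra.norm K s * Algebra.norm K t := by
  rw [Algebra.norm_apply, Algebra.norm_apply, Algebra.norm_apply, ← LinearMap.det_prodMap]
  congr 1

/-- The norm of a quotient by an intersection of maximal ideals. -/
theorem mc_norm_quot_inf {K A : Type*} [Field K] [CommRing A] [Algebra K A] [Module.Finite K A]
    (a : A) (s : Finset (Ideal A)) (hs : ∀ 𝔪 ∈ s, 𝔪.IsMaximal) :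
    ∀ J : Ideal A, J = s.inf id →
      Algebra.norm K (Ideal.Quotient.mk J a) =
        ∏ 𝔪 ∈ s, Algebra.norm K (Ideal.Quotient.mk 𝔪 a) := by
  classical
  induction s using Finset.induction_on with
  | empty =>
    intro J hJ
    rw [Finset.inf_empty] at hJ
    subst hJ
    rw [Finset.prod_empty, Algebra.norm_apply]
    haveI : Subsingleton (A ⧸ (⊤ : Ideal A)) := Ideal.Quotient.subsingleton_iff.mpr rfl
    exact LinearMap.det_eq_one_of_subsingleton _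
  | insert 𝔪 s h𝔪 ih =>
    intro J hJ
    rw [Finset.inf_insert, id] at hJ
    subst hJ
    have h𝔪max : 𝔪.IsMaximal := hs 𝔪 (Finset.mem_insert_self _ _)
    have hs' : ∀ 𝔫 ∈ s, 𝔫.IsMaximal := fun 𝔫 h𝔫 => hs 𝔫 (Finset.mem_insert_of_mem h𝔫)
    have hcop : IsCoprime 𝔪 (s.inf id) := by
      rw [Ideal.isCoprime_iff_sup_eq]
      by_contra hne
      have hle : s.inf id ≤ 𝔪 := by
        have h1 : 𝔪 = 𝔪 ⊔ s.inf id := h𝔪max.eq_of_le hne le_sup_left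
        calc s.inf id ≤ 𝔪 ⊔ s.inf id := le_sup_right
          _ = 𝔪 := h1.symm
      obtain ⟨𝔫, h𝔫, h𝔫le⟩ := (Ideal.IsPrime.inf_le' h𝔪max.isPrime).mp hle
      have : 𝔫 = 𝔪 := (hs' 𝔫 h𝔫).eq_of_le h𝔪max.ne_top h𝔫le
      exact h𝔪 (this ▸ h𝔫)
    rw [Finset.prod_insert h𝔪, ← ih hs' (s.inf id) rfl, ← mc_norm_prod]
    have key := Algebra.norm_eq_of_equiv_equiv (RingEquiv.refl K)
      (Ideal.quotientInfEquivQuotientProd 𝔪 (s.inf id) hcop) (by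
        ext k
        · simp
          rfl
        · simp
          rfl) (Ideal.Quotient.mk (𝔪 ⊓ s.inf id) a)
    rw [key]
    rfl

theorem mc_inf_eq_bot {A : Type*} [CommRing A] [IsArtinianRing A] [IsReduced A]
    (s : Finset (Ideal A)) (hs : ∀ 𝔪 : Ideal A, 𝔪.IsMaximal → 𝔪 ∈ s) : s.inf id = ⊥ := by
  have h1 : (⊥ : Ideal A).jacobson = ⊥ := by
    rw [IsArtinianRing.jacobson_eq_radical]
    exact nilradical_eq_zero A
  rw [eq_bot_iff, ← h1]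
  refine le_sInf ?_
  rintro 𝔪 ⟨-, h𝔪⟩
  exact Finset.inf_le (f := id) (hs 𝔪 h𝔪)

/-- The product formula for the norm of a reduced finite-dimensional algebra. -/
theorem mc_norm_eq_prod {K A : Type*} [Field K] [CommRing A] [Algebra K A] [Module.Finite K A]
    [IsReduced A] (a : A) (s : Finset (Ideal A)) (hs : ∀ 𝔪 : Ideal A, 𝔪 ∈ s ↔ 𝔪.IsMaximal) :
    Algebra.norm K a = ∏ 𝔪 ∈ s, Algebra.norm K (Ideal.Quotient.mk 𝔪 a) := by
  haveI : IsArtinianRing A := IsArtinianRing.of_finite K A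
  have hbot : s.inf id = ⊥ := mc_inf_eq_bot s fun 𝔪 h => (hs 𝔪).mpr h
  rw [← mc_norm_quot_inf (K := K) a s (fun 𝔪 h => (hs 𝔪).mp h) ⊥ hbot.symm]
  have h := Algebra.norm_eq_of_algEquiv (AlgEquiv.quotientBot K A) (Ideal.Quotient.mk ⊥ a)
  rw [← h]
  rfl

variable (q : ℕ) [Fact q.Prime] {L : Type} [Field L] [NumberField L]

theorem mc_isReduced : IsReduced (semiAlg q L) := by
  haveI : Algebra.FormallyUnramified ℚ L := Algebra.FormallyUnramified.of_isSeparable ℚ L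
  haveI : Algebra.FormallyUnramified ℚ_[q] (ℚ_[q] ⊗[ℚ] L) := inferInstance
  exact Algebra.FormallyUnramified.isReduced_of_field ℚ_[q] (ℚ_[q] ⊗[ℚ] L)

theorem mc_isArtinianRing : IsArtinianRing (semiAlg q L) :=
  IsArtinianRing.of_finite ℚ_[q] _

theorem mc_norm_tmul (x : L) :
    Algebra.norm ℚ_[q] ((1 : ℚ_[q]) ⊗ₜ[ℚ] x : semiAlg q L) =
      algebraMap ℚ ℚ_[q] (Algebra.norm ℚ x) := by
  rw [Algebra.norm_apply, Algebra.norm_apply, ← LinearMap.det_baseChange]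
  congr 1
  ext y
  simp

theorem mc_q_dvd_norm (P : Ideal (𝓞 L)) (hP : P.IsPrime) (hq : (q : 𝓞 L) ∈ P) {x : 𝓞 L}
    (hx : x ∈ P) : (q : ℤ) ∣ Algebra.norm ℤ x := by
  have h1 : ((Ideal.absNorm P : ℕ) : ℤ) ∣ Algebra.norm ℤ x := Ideal.absNorm_dvd_norm_of_mem hx
  have h2 : q ∣ Ideal.absNorm P := by
    by_contra hnd
    have hcop : Nat.Coprime q (Ideal.absNorm P) :=
      (Nat.Prime.coprime_iff_not_dvd (Fact.out : q.Prime)).mpr hnd
    have hmem : ((Ideal.absNorm P : ℕ) : 𝓞 L) ∈ P := Ideal.absNorm_mem P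
    obtain ⟨u, v, huv⟩ := (Nat.isCoprime_iff_coprime.mpr hcop)
    have h3 : ((u * (q : ℤ) + v * (Ideal.absNorm P : ℤ) : ℤ) : 𝓞 L) ∈ P := by
      push_cast
      exact P.add_mem (P.mul_mem_left _ hq) (P.mul_mem_left _ hmem)
    rw [huv] at h3
    exact hP.ne_top ((Ideal.eq_top_iff_one P).mpr (by simpa using h3))
  exact (Int.natCast_dvd_natCast.mpr h2).trans h1

theorem mc_norm_lt_one (P : Ideal (𝓞 L)) (hP : P.IsPrime) (hq : (q : 𝓞 L) ∈ P) {x : 𝓞 L}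
    (hx : x ∈ P) :
    ‖Algebra.norm ℚ_[q] ((1 : ℚ_[q]) ⊗ₜ[ℚ] (x : L) : semiAlg q L)‖ < 1 := by
  obtain ⟨k, hk⟩ := mc_q_dvd_norm q P hP hq hx
  rw [mc_norm_tmul, ← Algebra.coe_norm_int, hk]
  have : (algebraMap ℚ ℚ_[q]) (((q : ℤ) * k : ℤ) : ℚ) = (q : ℚ_[q]) * (k : ℚ_[q]) := by
    simp
  rw [this, norm_mul, Padic.norm_p]
  have hq1 : (1 : ℝ) < q := by exact_mod_cast (Fact.out : q.Prime).one_lt
  have hk1 : ‖(k : ℚ_[q])‖ ≤ 1 := Padic.norm_int_le_one k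
  calc (q : ℝ)⁻¹ * ‖(k : ℚ_[q])‖ ≤ (q : ℝ)⁻¹ * 1 :=
        mul_le_mul_of_nonneg_left hk1 (by positivity)
    _ < 1 := by rw [mul_one]; exact inv_lt_one_of_one_lt₀ hq1

end Norm

section Phi

variable (q : ℕ) [Fact q.Prime] {L : Type} [Field L] [NumberField L]

/-- The prime of `𝓞 L` attached to a maximal ideal of `ℚ_q ⊗ L`. -/
noncomputable def mcPhi (𝔪 : Ideal (semiAlg q L)) (h : 𝔪.IsMaximal) : Ideal (𝓞 L) :=
  haveI := h
  letI := Ideal.Quotient.field 𝔪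
  mcPrime q (Ideal.Quotient.mkₐ ℚ_[q] 𝔪)

theorem mcPhi_isPrime (𝔪 : Ideal (semiAlg q L)) (h : 𝔪.IsMaximal) : (mcPhi q 𝔪 h).IsPrime := by
  haveI := h
  letI := Ideal.Quotient.field 𝔪
  exact mcPrime_isPrime q (Ideal.Quotient.mkₐ ℚ_[q] 𝔪)

theorem q_mem_mcPhi (𝔪 : Ideal (semiAlg q L)) (h : 𝔪.IsMaximal) : (q : 𝓞 L) ∈ mcPhi q 𝔪 h := by
  haveI := h
  letI := Ideal.Quotient.field 𝔪
  exact q_mem_mcPrime q (Ideal.Quotient.mkₐ ℚ_[q] 𝔪)

theorem mcPhi_isMaximal (𝔪 : Ideal (semiAlg q L)) (h : 𝔪.IsMaximal) :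
    (mcPhi q 𝔪 h).IsMaximal := by
  haveI := h
  letI := Ideal.Quotient.field 𝔪
  exact mcPrime_isMaximal q (Ideal.Quotient.mkₐ ℚ_[q] 𝔪)

/-- **Injectivity** of `𝔪 ↦ Φ(𝔪)`. -/
theorem mcPhi_injective (𝔪₁ 𝔪₂ : Ideal (semiAlg q L)) (h₁ : 𝔪₁.IsMaximal) (h₂ : 𝔪₂.IsMaximal)
    (h : mcPhi q 𝔪₁ h₁ = mcPhi q 𝔪₂ h₂) : 𝔪₁ = 𝔪₂ := by
  haveI := h₁
  haveI := h₂
  letI := Ideal.Quotient.field 𝔪₁
  letI := Ideal.Quotient.field 𝔪₂
  have hle := mc_ker_le q (Ideal.Quotient.mkₐ ℚ_[q] 𝔪₁) (Ideal.Quotient.mkₐ ℚ_[q] 𝔪₂)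
    (Ideal.Quotient.mkₐ_surjective ℚ_[q] 𝔪₂) h
  have e₁ : RingHom.ker (Ideal.Quotient.mkₐ ℚ_[q] 𝔪₁ : semiAlg q L →+* semiAlg q L ⧸ 𝔪₁) = 𝔪₁ :=
    Ideal.mk_ker
  have e₂ : RingHom.ker (Ideal.Quotient.mkₐ ℚ_[q] 𝔪₂ : semiAlg q L →+* semiAlg q L ⧸ 𝔪₂) = 𝔪₂ :=
    Ideal.mk_ker
  rw [e₁, e₂] at hle
  exact h₁.eq_of_le h₂.ne_top hle

/-- **Surjectivity** of `𝔪 ↦ Φ(𝔪)`. -/
theorem mcPhi_surjective (P : Ideal (𝓞 L)) (hP : P.IsPrime) (hq : (q : 𝓞 L) ∈ P) :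
    ∃ (𝔪 : Ideal (semiAlg q L)) (h : 𝔪.IsMaximal), mcPhi q 𝔪 h = P := by
  classical
  by_contra hcon
  replace hcon : ∀ (𝔪 : Ideal (semiAlg q L)) (h : 𝔪.IsMaximal), mcPhi q 𝔪 h ≠ P :=
    fun 𝔪 h he => hcon ⟨𝔪, h, he⟩
  haveI : IsArtinianRing (semiAlg q L) := mc_isArtinianRing q
  haveI : IsReduced (semiAlg q L) := mc_isReduced q
  have hfin : {𝔪 : Ideal (semiAlg q L) | 𝔪.IsMaximal}.Finite :=
    IsArtinianRing.setOfPred_isMaximal_finite _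
  set s := hfin.toFinset with hsdef
  have hs : ∀ 𝔪 : Ideal (semiAlg q L), 𝔪 ∈ s ↔ 𝔪.IsMaximal := fun 𝔪 => by
    rw [hsdef, Set.Finite.mem_toFinset]
    rfl
  have hPne : P ≠ ⊥ := by
    intro h
    rw [h, Ideal.mem_bot] at hq
    have : (q : 𝓞 L) ≠ 0 := by exact_mod_cast (Fact.out : q.Prime).ne_zero
    exact this hq
  have hPmax : P.IsMaximal := hP.isMaximal hPne
  let f : Ideal (semiAlg q L) → Ideal (𝓞 L) := fun 𝔪 =>
    if h : 𝔪.IsMaximal then mcPhi q 𝔪 h else ⊤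
  have hf : ∀ (𝔪 : Ideal (semiAlg q L)) (h : 𝔪.IsMaximal), f 𝔪 = mcPhi q 𝔪 h :=
    fun 𝔪 h => dif_pos h
  have hav : ¬ ((P : Set (𝓞 L)) ⊆ ⋃ i ∈ (s : Set (Ideal (semiAlg q L))), (f i : Set (𝓞 L))) := by
    rw [Ideal.subset_union_prime ⊥ ⊥ (fun i hi _ _ => by
      rw [hf i ((hs i).mp hi)]
      exact mcPhi_isPrime q i _)]
    rintro ⟨i, hi, hle⟩
    rw [hf i ((hs i).mp hi)] at hle
    exact hcon i ((hs i).mp hi) (hPmax.eq_of_le (mcPhi_isPrime q i _).ne_top hle).symm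
  obtain ⟨x, hxP, hx⟩ := Set.not_subset.mp hav
  have hx' : ∀ (𝔪 : Ideal (semiAlg q L)) (h : 𝔪.IsMaximal), x ∉ mcPhi q 𝔪 h := by
    intro 𝔪 h hmem
    apply hx
    rw [Set.mem_iUnion₂]
    exact ⟨𝔪, (hs 𝔪).mpr h, by rw [hf 𝔪 h]; exact hmem⟩
  have h1 := mc_norm_lt_one q P hP hq hxP
  rw [mc_norm_eq_prod (K := ℚ_[q]) _ s hs, norm_prod] at h1
  have h2 : ∀ 𝔪 ∈ s, ‖Algebra.norm ℚ_[q]
      (Ideal.Quotient.mk 𝔪 ((1 : ℚ_[q]) ⊗ₜ[ℚ] (x : L) : semiAlg q L))‖ = 1 := by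
    intro 𝔪 h𝔪
    have hmax := (hs 𝔪).mp h𝔪
    haveI := hmax
    letI := Ideal.Quotient.field 𝔪
    have h3 := Fermat.Agent.PT.L.l0a_norm_eq_spectralNorm_pow q (semiAlg q L ⧸ 𝔪)
      (Ideal.Quotient.mk 𝔪 ((1 : ℚ_[q]) ⊗ₜ[ℚ] (x : L) : semiAlg q L))
    have h4 : spectralNorm ℚ_[q] (semiAlg q L ⧸ 𝔪)
        (Ideal.Quotient.mk 𝔪 ((1 : ℚ_[q]) ⊗ₜ[ℚ] (x : L) : semiAlg q L)) = 1 :=
      mcAbs_eq_one_of_notMem q (Ideal.Quotient.mkₐ ℚ_[q] 𝔪) (hx' 𝔪 hmax)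
    rw [h4, one_pow] at h3
    exact h3
  rw [Finset.prod_eq_one h2] at h1
  exact lt_irrefl 1 h1

/-- The absolute value of the point `π ∘ σ`. -/
theorem mcAbs_comp {F : Type} [Field F] [Algebra ℚ_[q] F] [FiniteDimensional ℚ_[q] F]
    (σ : L ≃ₐ[ℚ] L) (π : semiAlg q L →ₐ[ℚ_[q]] F) (x : L) :
    mcAbs q (π.comp (semiMap q σ)) x = mcAbs q π (σ x) := by
  unfold mcAbs semiMap
  rw [AlgHom.comp_apply, Algebra.TensorProduct.map_tmul]
  rfl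

/-- **Equivariance**, first half: the prime of a `σ`-stable maximal ideal is `σ`-stable. -/
theorem mcPhi_stable (σ : L ≃ₐ[ℚ] L) (𝔪 : Ideal (semiAlg q L)) (h : 𝔪.IsMaximal)
    (hst : ∀ x ∈ 𝔪, semiMap q σ x ∈ 𝔪) (x : 𝓞 L) (hx : x ∈ mcPhi q 𝔪 h) :
    RingOfIntegers.mapRingEquiv (σ : L ≃+* L) x ∈ mcPhi q 𝔪 h := by
  haveI := h
  letI := Ideal.Quotient.field 𝔪
  let τ : (semiAlg q L ⧸ 𝔪) →ₐ[ℚ_[q]] (semiAlg q L ⧸ 𝔪) :=
    Ideal.Quotient.liftₐ 𝔪 ((Ideal.Quotient.mkₐ ℚ_[q] 𝔪).comp (semiMap q σ)) (by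
      intro a ha
      rw [AlgHom.comp_apply]
      exact Ideal.Quotient.eq_zero_iff_mem.mpr (hst a ha))
  have hτ : ∀ a : semiAlg q L, τ (Ideal.Quotient.mkₐ ℚ_[q] 𝔪 a) =
      Ideal.Quotient.mkₐ ℚ_[q] 𝔪 (semiMap q σ a) := fun a => rfl
  show mcAbs q (Ideal.Quotient.mkₐ ℚ_[q] 𝔪) ((RingOfIntegers.mapRingEquiv (σ : L ≃+* L) x : 𝓞 L) : L)
    < 1
  have hx' : mcAbs q (Ideal.Quotient.mkₐ ℚ_[q] 𝔪) (x : L) < 1 := hx
  rw [RingOfIntegers.mapRingEquiv_apply]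
  have : mcAbs q (Ideal.Quotient.mkₐ ℚ_[q] 𝔪) (σ (x : L)) =
      mcAbs q (Ideal.Quotient.mkₐ ℚ_[q] 𝔪) (x : L) := by
    rw [← mcAbs_comp]
    unfold mcAbs
    rw [AlgHom.comp_apply, ← hτ, mc_sn_algHom]
  show mcAbs q (Ideal.Quotient.mkₐ ℚ_[q] 𝔪) (σ (x : L)) < 1
  rw [this]
  exact hx'

/-- **Equivariance**, second half: a maximal ideal whose prime is `σ`-stable is `σ`-stable. -/
theorem mcPhi_stable_conv (σ : L ≃ₐ[ℚ] L) (𝔪 : Ideal (semiAlg q L)) (h : 𝔪.IsMaximal)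
    (hst : ∀ x ∈ mcPhi q 𝔪 h, RingOfIntegers.mapRingEquiv (σ : L ≃+* L) x ∈ mcPhi q 𝔪 h)
    (a : semiAlg q L) (ha : a ∈ 𝔪) : semiMap q σ a ∈ 𝔪 := by
  haveI := h
  letI := Ideal.Quotient.field 𝔪
  haveI : IsArtinianRing (semiAlg q L) := mc_isArtinianRing q
  set π := Ideal.Quotient.mkₐ ℚ_[q] 𝔪 with hπ
  set π' := π.comp (semiMap q σ) with hπ'
  -- the prime of `π'` is the prime of `π`
  have hle : mcPrime q π ≤ mcPrime q π' := by
    intro x hx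
    rw [mem_mcPrime, mcAbs_comp]
    exact hst x hx
  have heq : mcPrime q π' = mcPrime q π :=
    ((mcPrime_isMaximal q π).eq_of_le (mcPrime_isPrime q π').ne_top hle).symm
  have hker := mc_ker_le q π' π (Ideal.Quotient.mkₐ_surjective ℚ_[q] 𝔪) heq
  have e₁ : RingHom.ker (π : semiAlg q L →+* semiAlg q L ⧸ 𝔪) = 𝔪 := Ideal.mk_ker
  rw [e₁] at hker
  -- the kernel of `π'` is a maximal ideal contained in `𝔪`
  haveI hprime : (RingHom.ker (π' : semiAlg q L →+* semiAlg q L ⧸ 𝔪)).IsPrime :=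
    RingHom.ker_isPrime _
  have hmax : (RingHom.ker (π' : semiAlg q L →+* semiAlg q L ⧸ 𝔪)).IsMaximal :=
    IsArtinianRing.isMaximal_of_isPrime _
  have hkeq : RingHom.ker (π' : semiAlg q L →+* semiAlg q L ⧸ 𝔪) = 𝔪 :=
    hmax.eq_of_le h.ne_top hker
  have : a ∈ RingHom.ker (π' : semiAlg q L →+* semiAlg q L ⧸ 𝔪) := by rw [hkeq]; exact ha
  have h0 : π (semiMap q σ a) = 0 := this
  exact Ideal.Quotient.eq_zero_iff_mem.mp h0

end Phi

/-- **T-cnt**: the `σ`-stable maximal ideals of `ℚ_q ⊗ L` correspond to the `σ`-stable primes of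
`𝓞 L` over `q`. -/
theorem stmtMaxSpecCount : StmtMaxSpecCount := by
  intro q _ L _ _ σ
  refine Set.ncard_congr (fun 𝔪 h𝔪 => mcPhi q 𝔪 h𝔪.1) ?_ ?_ ?_
  · rintro 𝔪 ⟨hmax, hst⟩
    exact ⟨mcPhi_isPrime q 𝔪 hmax, q_mem_mcPhi q 𝔪 hmax, mcPhi_stable q σ 𝔪 hmax hst⟩
  · intro 𝔪₁ 𝔪₂ h₁ h₂ h
    exact mcPhi_injective q 𝔪₁ 𝔪₂ h₁.1 h₂.1 h
  · rintro P ⟨hP, hq, hst⟩
    obtain ⟨𝔪, h𝔪, rfl⟩ := mcPhi_surjective q P hP hq
    exact ⟨𝔪, ⟨h𝔪, mcPhi_stable_conv q σ 𝔪 h𝔪 hst⟩, rfl⟩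

end Fermat.Agent.PT.G1
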